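import Mathlib

/-!
# The Herbrand quotient of a finitely generated module over a cyclic group of prime order

For a finitely generated abelian group `A` with an endomorphism `s`, `s ^ p = 1`, the orders of
`ker (s - 1) / im N` and `ker N / im (s - 1)` satisfy
`H0 ^ (p-1) * p ^ rank A = H1 ^ (p-1) * p ^ (p * rank A^s)`.
-/

set_option autoImplicit false

open Finset

namespace Fermat.Agent.Duality.Global

section Index

variable {B : Type*} [AddCommGroup B]

/-- The index of an endomorphism's range. -/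
noncomputable def rangeIndex (f : AddMonoid.End B) : ℕ := (AddMonoidHom.range f).index

/-- The order of an endomorphism's kernel. -/
noncomputable def kerCard (f : AddMonoid.End B) : ℕ := Nat.card (AddMonoidHom.ker f)

lemma card_ker_comp (f g : AddMonoid.End B) :
    kerCard (g * f) = kerCard f * Nat.card ↥(AddMonoidHom.ker g ⊓ AddMonoidHom.range f) := by
  let φ : AddMonoidHom.ker (g * f) →+ B :=
    (f : B →+ B).comp (AddMonoidHom.ker (g * f)).subtype
  have hr : AddMonoidHom.range φ = AddMonoidHom.ker g ⊓ AddMonoidHom.range f := by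
    ext y
    constructor
    · rintro ⟨⟨x, hx⟩, rfl⟩
      exact ⟨hx, x, rfl⟩
    · rintro ⟨hy, x, rfl⟩
      exact ⟨⟨x, hy⟩, rfl⟩
  have hk : Nat.card (AddMonoidHom.ker φ) = kerCard f := by
    refine Nat.card_congr ⟨fun x => ⟨x.1.1, x.2⟩, fun x => ⟨⟨x.1, ?_⟩, x.2⟩, fun _ => rfl,
      fun _ => rfl⟩
    show g (f x.1) = 0
    rw [show f x.1 = 0 from x.2, map_zero]
  have h := AddSubgroup.card_mul_index (AddMonoidHom.ker φ)
  rw [AddSubgroup.index_ker, hk, hr] at h
  exact h.symm

/-- Multiplicativity of `rangeIndex / kerCard`, in division free form. -/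
lemma rangeIndex_mul (f g : AddMonoid.End B) :
    rangeIndex (g * f) * (kerCard f * kerCard g) =
      rangeIndex g * rangeIndex f * kerCard (g * f) := by
  have h1 : AddMonoidHom.range (g * f) = (AddMonoidHom.range f).map g :=
    AddMonoidHom.range_comp g f
  have h2 : rangeIndex (g * f) =
      (AddMonoidHom.range f ⊔ AddMonoidHom.ker g).index * rangeIndex g := by
    rw [rangeIndex, h1, AddSubgroup.index_map]; rfl
  have h3 : rangeIndex f = (AddMonoidHom.range f).relIndex (AddMonoidHom.ker g) *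
      (AddMonoidHom.range f ⊔ AddMonoidHom.ker g).index := by
    rw [← AddSubgroup.relIndex_sup_right (H := AddMonoidHom.ker g)
      (K := AddMonoidHom.range f), sup_comm (AddMonoidHom.ker g)]
    exact (AddSubgroup.relIndex_mul_index le_sup_left).symm
  have h4 : kerCard g = Nat.card ↥(AddMonoidHom.ker g ⊓ AddMonoidHom.range f) *
      (AddMonoidHom.range f).relIndex (AddMonoidHom.ker g) := by
    have := AddSubgroup.card_mul_index
      ((AddMonoidHom.range f).addSubgroupOf (AddMonoidHom.ker g))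
    rw [show Nat.card ↥(AddMonoidHom.ker g ⊓ AddMonoidHom.range f) =
      Nat.card ((AddMonoidHom.range f).addSubgroupOf (AddMonoidHom.ker g)) from
      Nat.card_congr ⟨fun x => ⟨⟨x.1, x.2.1⟩, x.2.2⟩, fun x => ⟨x.1.1, x.1.2, x.2⟩,
        fun _ => rfl, fun _ => rfl⟩]
    exact this.symm
  rw [h2, h3, h4, card_ker_comp]; ring

/-- The multiplicative invariant as a rational number. -/
noncomputable def endQ (f : AddMonoid.End B) : ℚ := rangeIndex f / kerCard f

/-- Finite kernel and cokernel. -/
def FinEnd (f : AddMonoid.End B) : Prop := rangeIndex f ≠ 0 ∧ kerCard f ≠ 0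

lemma finEnd_mul {f g : AddMonoid.End B} (hf : FinEnd f) (hg : FinEnd g) :
    FinEnd (g * f) ∧ endQ (g * f) = endQ g * endQ f := by
  have hk : kerCard (g * f) ≠ 0 := by
    rw [card_ker_comp]
    refine mul_ne_zero hf.2 ?_
    have : Finite (AddMonoidHom.ker g) := Nat.finite_of_card_ne_zero hg.2
    have : Finite ↥(AddMonoidHom.ker g ⊓ AddMonoidHom.range f) :=
      Finite.of_injective (fun x => (⟨x.1, x.2.1⟩ : AddMonoidHom.ker g))
        fun a b h => Subtype.ext (congrArg (fun z => z.1) h)
    exact Nat.card_pos.ne'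
  have hr : rangeIndex (g * f) ≠ 0 := fun h => by
    have := rangeIndex_mul f g
    rw [h, zero_mul] at this
    simp [hf.1, hg.1, hk] at this
  refine ⟨⟨hr, hk⟩, ?_⟩
  have := rangeIndex_mul f g
  have a := Nat.cast_ne_zero (R := ℚ).mpr hf.2
  have b := Nat.cast_ne_zero (R := ℚ).mpr hg.2
  have c := Nat.cast_ne_zero (R := ℚ).mpr hk
  simp only [endQ]
  field_simp
  exact_mod_cast (by linarith)

lemma finEnd_pow {f : AddMonoid.End B} (hf : FinEnd f) (n : ℕ) :
    FinEnd (f ^ n) ∧ endQ (f ^ n) = endQ f ^ n := by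
  induction n with
  | zero =>
    have h1 : rangeIndex (1 : AddMonoid.End B) = 1 := by
      rw [rangeIndex, AddSubgroup.index_eq_one]; exact AddMonoidHom.range_eq_top.mpr
        fun x => ⟨x, rfl⟩
    have h2 : kerCard (1 : AddMonoid.End B) = 1 := by
      have : Subsingleton (AddMonoidHom.ker (1 : AddMonoid.End B)) :=
        ⟨fun a b => Subtype.ext ((show a.1 = 0 from a.2).trans (show b.1 = 0 from b.2).symm)⟩
      exact Nat.card_of_subsingleton 0
    simp [FinEnd, endQ, h1, h2]
  | succ n ih =>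
    obtain ⟨h1, h2⟩ := finEnd_mul hf ih.1
    rw [pow_succ, pow_succ]
    exact ⟨h1, h2.trans (by rw [ih.2])⟩

lemma finEnd_of_bijective {f : AddMonoid.End B} (hf : Function.Bijective f) :
    FinEnd f ∧ endQ f = 1 := by
  have h1 : rangeIndex f = 1 := by
    rw [rangeIndex, AddSubgroup.index_eq_one]; exact AddMonoidHom.range_eq_top.mpr hf.2
  have h2 : kerCard f = 1 := by
    have : Subsingleton (AddMonoidHom.ker f) := ⟨fun a b => Subtype.ext
      (hf.1 ((show f a.1 = 0 from a.2).trans (show f b.1 = 0 from b.2).symm))⟩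
    exact Nat.card_of_subsingleton 0
  simp [FinEnd, endQ, h1, h2]

end Index

lemma end_sum_apply {B ι : Type*} [AddCommGroup B] (t : Finset ι)
    (f : ι → AddMonoid.End B) (b : B) :
    (∑ i ∈ t, f i) b = ∑ i ∈ t, f i b := by
  classical
  induction t using Finset.induction_on with
  | empty => rfl
  | insert a t ha ih =>
    rw [sum_insert ha, sum_insert ha]
    show f a b + (∑ i ∈ t, f i) b = _
    rw [ih]

/-- Multiplication by `p` on a finitely generated abelian group. -/
theorem finEnd_natCast {B : Type*} [AddCommGroup B] [Module.Finite ℤ B] {p : ℕ} (hp : p ≠ 0) :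
    FinEnd (p : AddMonoid.End B) ∧ endQ (p : AddMonoid.End B) = (p : ℚ) ^ Module.finrank ℤ B := by
  obtain ⟨n, ι, _, q, hq, e, ⟨φ⟩⟩ := AddCommGroup.equiv_free_prod_directSum_zmod B
    (hG := Module.Finite.iff_addGroup_fg.mp inferInstance)
  classical
  have : ∀ i, NeZero (q i ^ e i) := fun i => ⟨pow_ne_zero _ (hq i).ne_zero⟩
  let T := DirectSum ι fun i => ZMod (q i ^ e i)
  have : Finite T :=
    Finite.of_equiv _ (DirectSum.addEquivProd fun i => ZMod (q i ^ e i)).toEquiv.symm
  -- rank
  have hrank : Module.finrank ℤ B = n := by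
    rw [(φ.toIntLinearEquiv).finrank_eq]
    let π : (Fin n →₀ ℤ) × T →ₗ[ℤ] (Fin n →₀ ℤ) := LinearMap.fst ℤ _ _
    have hsurj : Function.Surjective π := fun x => ⟨(x, 0), rfl⟩
    have hr := rank_quotient_add_rank_of_isDomain (LinearMap.ker π)
    have hker : Module.IsTorsion ℤ (LinearMap.ker π) := by
      intro x
      refine ⟨⟨(Nat.card T : ℤ), mem_nonZeroDivisors_of_ne_zero
        (by exact_mod_cast Nat.card_pos.ne')⟩, ?_⟩
      have hx : x.1.1 = 0 := x.2
      apply Subtype.ext
      show ((Nat.card T : ℤ)) • x.1 = 0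
      refine Prod.ext (by simp [hx]) ?_
      simp
    have h0 : Module.rank ℤ (LinearMap.ker π) = 0 := Module.rank_eq_zero_iff_isTorsion.mpr hker
    rw [h0, add_zero, (π.quotKerEquivOfSurjective hsurj).rank_eq] at hr
    rw [Module.finrank, ← hr]
    simp
  -- transport
  have hker : kerCard (p : AddMonoid.End B) = Nat.card {t : T // p • t = 0} := by
    refine Nat.card_congr ((φ.toEquiv.subtypeEquiv (q := fun z => p • z = 0) fun x => ?_).trans
      ⟨fun z => ⟨z.1.2, congrArg Prod.snd z.2⟩, fun t => ⟨(0, t.1), by simp [t.2]⟩,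
        fun z => ?_, fun t => rfl⟩)
    · constructor
      · intro hx
        have hx' : p • x = 0 := hx
        show p • φ x = 0
        rw [← map_nsmul, hx', map_zero]
      · intro hx
        have hx' : p • φ x = 0 := hx
        show p • x = 0
        rwa [← map_nsmul, map_eq_zero_iff _ φ.injective] at hx'
    · have h1 : p • z.1.1 = 0 := congrArg Prod.fst z.2
      exact Subtype.ext (Prod.ext ((smul_eq_zero.mp h1).resolve_left hp).symm rfl)
  have hidx : rangeIndex (p : AddMonoid.End B) = p ^ n *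
      (AddMonoidHom.range (p : AddMonoid.End T)).index := by
    have hm : (AddMonoidHom.range (p : AddMonoid.End B)).map φ.toAddMonoidHom =
        (AddMonoidHom.range (p : AddMonoid.End (Fin n →₀ ℤ))).prod
          (AddMonoidHom.range (p : AddMonoid.End T)) := by
      ext ⟨a, b⟩
      constructor
      · rintro ⟨-, ⟨x, rfl⟩, hx⟩
        have hx' : φ (p • x) = (a, b) := hx
        rw [map_nsmul] at hx'
        exact ⟨⟨(φ x).1, congrArg Prod.fst hx'⟩, ⟨(φ x).2, congrArg Prod.snd hx'⟩⟩
      · rintro ⟨⟨a', ha⟩, ⟨b', hb⟩⟩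
        refine ⟨p • φ.symm (a', b'), ⟨φ.symm (a', b'), rfl⟩, ?_⟩
        show φ (p • φ.symm (a', b')) = (a, b)
        rw [map_nsmul, φ.apply_symm_apply, Prod.smul_mk]
        exact Prod.ext ha hb
    rw [rangeIndex, ← AddSubgroup.index_map_equiv _ φ]
    show (AddSubgroup.map φ.toAddMonoidHom _).index = _
    rw [hm, AddSubgroup.index_prod]
    congr 1
    let r : (Fin n →₀ ℤ) →+ (Fin n →₀ ZMod p) :=
      Finsupp.mapRange.addMonoidHom (Int.castAddHom (ZMod p))
    have hr : AddMonoidHom.range (p : AddMonoid.End (Fin n →₀ ℤ)) = r.ker := by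
      ext x
      constructor
      · rintro ⟨y, rfl⟩
        show r (p • y) = 0
        rw [map_nsmul]; ext i; simp
      · intro hx
        have hx' : ∀ i, ((x i : ℤ) : ZMod p) = 0 :=
          fun i => DFunLike.congr_fun (show r x = 0 from hx) i
        refine ⟨x.mapRange (fun z => z / (p : ℤ)) (by simp), ?_⟩
        show p • (x.mapRange (fun z => z / (p : ℤ)) (by simp)) = x
        ext i
        have := Int.mul_ediv_cancel' ((ZMod.intCast_zmod_eq_zero_iff_dvd _ _).mp (hx' i))
        simpa using this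
    have hs : Function.Surjective r :=
      Finsupp.mapRange_surjective _ (map_zero _) ZMod.intCast_surjective
    rw [hr, AddSubgroup.index_ker, AddMonoidHom.range_eq_top.mpr hs, AddSubgroup.card_top,
      Nat.card_congr Finsupp.equivFunOnFinite, Nat.card_fun, Nat.card_zmod,
      Nat.card_fin]
  have hT : (AddMonoidHom.range (p : AddMonoid.End T)).index = Nat.card {t : T // p • t = 0} := by
    have h1 := AddSubgroup.card_mul_index (AddMonoidHom.range (p : AddMonoid.End T))
    have h2 := AddSubgroup.card_mul_index (AddMonoidHom.ker (p : AddMonoid.End T))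
    rw [AddSubgroup.index_ker] at h2
    have h3 : Nat.card (AddMonoidHom.ker (p : AddMonoid.End T)) = Nat.card {t : T // p • t = 0} :=
      rfl
    rw [← h3]
    have h4 : 0 < Nat.card (AddMonoidHom.range (p : AddMonoid.End T)) := Nat.card_pos
    nlinarith
  have hk : Nat.card {t : T // p • t = 0} ≠ 0 := by
    have : Nonempty {t : T // p • t = 0} := ⟨⟨0, smul_zero _⟩⟩
    exact Nat.card_pos.ne'
  refine ⟨⟨?_, hker ▸ hk⟩, ?_⟩
  · rw [hidx, hT]; exact mul_ne_zero (pow_ne_zero _ hp) hk
  · rw [endQ, hidx, hT, hker, hrank]; push_cast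
    field_simp

open Polynomial in
/-- `p = U * (1 - X) ^ (p - 1)` modulo `1 + X + ⋯ + X ^ (p - 1)`, with `U` a product of geometric
sums. -/
lemma dvd_natCast_sub_prod {p : ℕ} (hp : p.Prime) :
    (∑ i ∈ range p, (X : ℤ[X]) ^ i) ∣
      (p : ℤ[X]) - ∏ i ∈ range (p - 1), (1 - X ^ (i + 1)) := by
  have := Fact.mk hp
  rw [← cyclotomic_prime ℤ p]
  obtain ⟨k, rfl⟩ : ∃ k, p = k + 1 := ⟨p - 1, by have := hp.pos; omega⟩
  have hζ : IsPrimitiveRoot (Complex.exp (2 * Real.pi * Complex.I / ((k + 1 : ℕ) : ℂ))) (k + 1) :=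
    Complex.isPrimitiveRoot_exp (k + 1) (by omega)
  rw [cyclotomic_eq_minpoly hζ hp.pos]
  refine minpoly.isIntegrallyClosed_dvd (hζ.isIntegral hp.pos) ?_
  simp only [map_sub, map_prod, map_one, map_pow, aeval_X, map_natCast, Nat.add_sub_cancel]
  rw [hζ.prod_one_sub_pow_eq_order]
  simp

variable {A : Type*} [AddCommGroup A]

/-- The norm of an endomorphism of order `p`. -/
def normEnd (p : ℕ) (s : AddMonoid.End A) : AddMonoid.End A := ∑ i ∈ range p, s ^ i

/-- The fixed subgroup. -/
def fixedSub (s : AddMonoid.End A) : AddSubgroup A := AddMonoidHom.ker (s - 1)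

/-- The order of `ker (s - 1) / im N`. -/
noncomputable def herbrand0 (p : ℕ) (s : AddMonoid.End A) : ℕ :=
  (AddMonoidHom.range (normEnd p s)).relIndex (fixedSub s)

/-- The order of `ker N / im (s - 1)`. -/
noncomputable def herbrand1 (p : ℕ) (s : AddMonoid.End A) : ℕ :=
  (AddMonoidHom.range (s - 1)).relIndex (AddMonoidHom.ker (normEnd p s))

variable {p : ℕ} {s : AddMonoid.End A}

lemma normEnd_mul_sub_one (hs : s ^ p = 1) : normEnd p s * (s - 1) = 0 := by
  rw [normEnd, geom_sum_mul, hs, sub_self]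

lemma sub_one_mul_normEnd (hs : s ^ p = 1) : (s - 1) * normEnd p s = 0 := by
  rw [normEnd, mul_geom_sum, hs, sub_self]

lemma fixed_apply {a : A} (ha : a ∈ fixedSub s) (i : ℕ) : (s ^ i) a = a := by
  induction i with
  | zero => rfl
  | succ i ih =>
    have h : s a = a := sub_eq_zero.mp (show s a - a = 0 from ha)
    rw [pow_succ]
    show (s ^ i) (s a) = a
    rw [h, ih]

lemma normEnd_fixed {a : A} (ha : a ∈ fixedSub s) : normEnd p s a = p • a := by
  rw [normEnd, end_sum_apply, Finset.sum_congr rfl fun i _ => fixed_apply ha i]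
  simp

lemma normEnd_mem_fixed (hs : s ^ p = 1) (a : A) : normEnd p s a ∈ fixedSub s :=
  DFunLike.congr_fun (sub_one_mul_normEnd hs) a

/-- The restriction of `s` to the kernel of the norm. -/
def kerEnd (hs : s ^ p = 1) : AddMonoid.End (AddMonoidHom.ker (normEnd p s)) :=
  AddMonoidHom.codRestrict ((s : A →+ A).comp (AddMonoidHom.ker (normEnd p s)).subtype) _
    fun m => by
      have h1 : normEnd p s (s m.1 - m.1) = 0 := DFunLike.congr_fun (normEnd_mul_sub_one hs) m.1
      have h2 : normEnd p s m.1 = 0 := m.2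
      rw [map_sub, h2, sub_zero] at h1
      exact h1

lemma kerEnd_pow_coe (hs : s ^ p = 1) (i : ℕ) (m : AddMonoidHom.ker (normEnd p s)) :
    (((kerEnd hs) ^ i) m : A) = (s ^ i) m.1 := by
  induction i generalizing m with
  | zero => rfl
  | succ i ih => rw [pow_succ, pow_succ]; exact ih (kerEnd hs m)

/-- `q(s - 1) ^ (p - 1) = p ^ rank` on the kernel of the norm. -/
lemma endQ_kerEnd [Module.Finite ℤ A] (hp : p.Prime) (hs : s ^ p = 1) :
    FinEnd (kerEnd hs - 1) ∧ endQ (kerEnd hs - 1) ^ (p - 1) =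
      (p : ℚ) ^ Module.finrank ℤ (AddMonoidHom.ker (normEnd p s)) := by
  have : Module.Finite ℤ (AddMonoidHom.ker (normEnd p s)) :=
    Module.Finite.of_injective
      (AddMonoidHom.ker (normEnd p s)).subtype.toIntLinearMap Subtype.val_injective
  set t := kerEnd hs with ht
  have hgeom : ∑ i ∈ range p, t ^ i = 0 := by
    refine DFunLike.ext _ _ fun m => Subtype.ext ?_
    rw [end_sum_apply, AddSubgroup.val_finsetSum,
      Finset.sum_congr rfl fun i _ => kerEnd_pow_coe hs i m]
    have h : (∑ i ∈ range p, s ^ i) m.1 = 0 := m.2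
    rw [end_sum_apply] at h
    exact h
  have htp : t ^ p = 1 := by
    have := geom_sum_mul t p
    rw [hgeom, zero_mul] at this
    exact (sub_eq_zero.mp this.symm)
  have hprod : ((p : ℕ) : AddMonoid.End _) =
      Polynomial.aeval t (∏ i ∈ range (p - 1), (1 - (Polynomial.X : Polynomial ℤ) ^ (i + 1))) := by
    obtain ⟨u, hu⟩ := dvd_natCast_sub_prod hp
    have := congrArg (Polynomial.aeval t) hu
    simp only [map_sub, map_natCast, map_mul, map_sum, map_pow, Polynomial.aeval_X, hgeom,
      zero_mul] at this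
    exact sub_eq_zero.mp this
  -- every factor is `T` times an automorphism
  have hfac : ∀ i ∈ range (p - 1), ∃ u : AddMonoid.End (AddMonoidHom.ker (normEnd p s)),
      Function.Bijective u ∧ Commute u (t - 1) ∧ 1 - t ^ (i + 1) = u * (t - 1) := by
    intro i hi
    obtain ⟨j, hj⟩ : ∃ j, (i + 1) * j % p = 1 := by
      obtain ⟨j, -, hj⟩ := Nat.exists_mul_mod_eq_one_of_coprime
        ((hp.coprime_iff_not_dvd.mpr (Nat.not_dvd_of_pos_of_lt i.succ_pos
          (by have := mem_range.mp hi; omega))).symm) hp.one_lt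
      exact ⟨j, hj⟩
    have hpow : t ^ ((i + 1) * j) = t := by
      conv_lhs => rw [← Nat.div_add_mod ((i + 1) * j) p]
      rw [hj, pow_add, pow_mul, htp, one_pow, pow_one, one_mul]
    set a : AddMonoid.End (AddMonoidHom.ker (normEnd p s)) := ∑ k ∈ range (i + 1), t ^ k with ha
    set b : AddMonoid.End (AddMonoidHom.ker (normEnd p s)) := ∑ k ∈ range j, t ^ ((i + 1) * k)
      with hb
    refine ⟨-a, ?_, ?_, ?_⟩
    · -- `a * b = 1` as `N = 0` here
      have hunit : a * b = 1 ∧ b * a = 1 := by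
        have hc : Commute a b := by
          simp only [ha, hb]
          exact Commute.sum_left _ _ _ fun k _ => Commute.sum_right _ _ _ fun l _ =>
            Commute.pow_pow (Commute.refl t) _ _
        suffices a * b = 1 from ⟨this, hc.eq ▸ this⟩
        let G : Polynomial ℤ := (∑ k ∈ range (i + 1), Polynomial.X ^ k) *
          (∑ k ∈ range j, Polynomial.X ^ ((i + 1) * k)) - 1
        have hG : (∑ k ∈ range p, (Polynomial.X : Polynomial ℤ) ^ k) ∣ G := by
          have := Fact.mk hp
          rw [← Polynomial.cyclotomic_prime ℤ p]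
          have hζ : IsPrimitiveRoot (Complex.exp (2 * Real.pi * Complex.I / (p : ℂ))) p :=
            Complex.isPrimitiveRoot_exp p hp.ne_zero
          generalize Complex.exp (2 * Real.pi * Complex.I / (p : ℂ)) = ζ at hζ
          rw [Polynomial.cyclotomic_eq_minpoly hζ hp.pos]
          refine minpoly.isIntegrallyClosed_dvd (hζ.isIntegral hp.pos) ?_
          simp only [G, map_sub, map_mul, map_sum, map_pow, map_one, Polynomial.aeval_X]
          rw [sub_eq_zero]
          have h1 := geom_sum_mul ζ (i + 1)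
          have h2 : (∑ k ∈ range j, ζ ^ ((i + 1) * k)) * (ζ ^ (i + 1) - 1) = ζ - 1 := by
            simp only [pow_mul]
            rw [geom_sum_mul, ← pow_mul, ← pow_mod_orderOf, ← hζ.eq_orderOf, hj, pow_one]
          refine mul_right_cancel₀ (hζ.sub_one_ne_zero hp.one_lt) ?_
          rw [one_mul, mul_right_comm, h1, mul_comm, h2]
        obtain ⟨u, hu⟩ := hG
        have := congrArg (Polynomial.aeval t) hu
        simp only [G, map_sub, map_mul, map_sum, map_pow, map_one, Polynomial.aeval_X, hgeom,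
          zero_mul] at this
        exact sub_eq_zero.mp this
      refine ⟨fun x y h => ?_, fun y => ⟨-(b y), ?_⟩⟩
      · have h' : a x = a y := neg_injective h
        have e1 := DFunLike.congr_fun hunit.2 x
        have e2 := DFunLike.congr_fun hunit.2 y
        have e3 : b (a x) = b (a y) := by rw [h']
        exact (e1.symm.trans e3).trans e2
      · show -(a (-(b y))) = y
        rw [map_neg, neg_neg]
        exact DFunLike.congr_fun hunit.1 y
    · simp only [ha]
      exact (Commute.sum_left _ _ _ fun k _ =>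
        ((Commute.refl t).pow_left k).sub_right (Commute.one_right _)).neg_left
    · have e := geom_sum_mul t (i + 1)
      rw [← ha] at e
      rw [show -a * (t - 1) = -(a * (t - 1)) from neg_mul a (t - 1), e]
      abel
  have hexp : ∀ n ≤ p - 1, ∃ u : AddMonoid.End (AddMonoidHom.ker (normEnd p s)),
      Function.Bijective u ∧ Commute u (t - 1) ∧ Polynomial.aeval t (∏ i ∈ range n,
        (1 - (Polynomial.X : Polynomial ℤ) ^ (i + 1))) = u * (t - 1) ^ n := by
    intro n hn
    induction n with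
    | zero => exact ⟨1, Function.bijective_id, Commute.one_left _, by simp⟩
    | succ n ih =>
      obtain ⟨u, hu, hcu, he⟩ := ih (by omega)
      obtain ⟨v, hv, hc, he'⟩ := hfac n (mem_range.mpr (by omega))
      refine ⟨u * v, hu.comp hv, hcu.mul_left hc, ?_⟩
      rw [prod_range_succ, map_mul, he, map_sub, map_one, map_pow, Polynomial.aeval_X, he',
        mul_assoc, ← mul_assoc ((t - 1) ^ n), ← (hc.pow_right n).eq, mul_assoc v, ← pow_succ,
        mul_assoc]
  obtain ⟨u, hu, hcu, he⟩ := hexp (p - 1) le_rfl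
  rw [he] at hprod
  obtain ⟨hfp, hqp⟩ := finEnd_natCast (B := AddMonoidHom.ker (normEnd p s)) hp.ne_zero
  obtain ⟨hfu, hqu⟩ := finEnd_of_bijective hu
  have hk : kerCard (t - 1) ≠ 0 := by
    have : Finite (AddMonoidHom.ker (p : AddMonoid.End (AddMonoidHom.ker (normEnd p s)))) :=
      Nat.finite_of_card_ne_zero hfp.2
    have hle : AddMonoidHom.ker (t - 1) ≤
        AddMonoidHom.ker (p : AddMonoid.End (AddMonoidHom.ker (normEnd p s))) := by
      intro x hx
      show (p : AddMonoid.End (AddMonoidHom.ker (normEnd p s))) x = 0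
      obtain ⟨k, hk⟩ : ∃ k, p - 1 = k + 1 := ⟨p - 2, by have := hp.two_le; omega⟩
      rw [hprod, hk, pow_succ]
      show u (((t - 1) ^ k) ((t - 1) x)) = 0
      rw [show (t - 1) x = 0 from hx, map_zero, map_zero]
    have : Finite (AddMonoidHom.ker (t - 1)) :=
      Finite.of_injective _ (AddSubgroup.inclusion_injective hle)
    exact Nat.card_pos.ne'
  have hr : rangeIndex (t - 1) ≠ 0 := by
    obtain ⟨k, hk'⟩ : ∃ k, p - 1 = k + 1 := ⟨p - 2, by have := hp.two_le; omega⟩
    have hle : AddMonoidHom.range (p : AddMonoid.End (AddMonoidHom.ker (normEnd p s))) ≤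
        AddMonoidHom.range (t - 1) := by
      have e : (p : AddMonoid.End (AddMonoidHom.ker (normEnd p s))) =
          (t - 1) * ((t - 1) ^ k * u) := by
        rw [hprod, hk', (hcu.pow_right (k + 1)).eq, pow_succ', mul_assoc]
      rintro _ ⟨x, rfl⟩
      exact ⟨((t - 1) ^ k * u) x, (DFunLike.congr_fun e x).symm⟩
    exact fun h => hfp.1 (Nat.eq_zero_of_zero_dvd (h ▸ AddSubgroup.index_dvd_of_le hle))
  obtain ⟨hfT, hqT⟩ := finEnd_pow ⟨hr, hk⟩ (p - 1)
  refine ⟨⟨hr, hk⟩, ?_⟩
  rw [← hqT, ← hqp, hprod, (finEnd_mul hfT hfu).2, hqu, one_mul]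

/-- The ranks of the fixed part and the norm kernel add up. -/
lemma finrank_eq_add [Module.Finite ℤ A] (hp : p ≠ 0) (hs : s ^ p = 1) :
    Module.finrank ℤ A =
      Module.finrank ℤ (fixedSub s) + Module.finrank ℤ (AddMonoidHom.ker (normEnd p s)) := by
  let N₀ : A →+ fixedSub s :=
    AddMonoidHom.codRestrict (normEnd p s : A →+ A) (fixedSub s) (normEnd_mem_fixed hs)
  let N : A →ₗ[ℤ] fixedSub s := N₀.toIntLinearMap
  have : Module.Finite ℤ (fixedSub s) :=
    Module.Finite.of_injective (fixedSub s).subtype.toIntLinearMap Subtype.val_injective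
  have h1 := rank_quotient_add_rank_of_isDomain (LinearMap.ker N)
  rw [N.quotKerEquivRange.rank_eq] at h1
  have h2 := rank_quotient_add_rank_of_isDomain (LinearMap.range N)
  have ht : Module.IsTorsion ℤ (↥(fixedSub s) ⧸ LinearMap.range N) := by
    intro x
    obtain ⟨a, rfl⟩ := Submodule.Quotient.mk_surjective _ x
    refine ⟨⟨(p : ℤ), mem_nonZeroDivisors_of_ne_zero (by exact_mod_cast hp)⟩, ?_⟩
    show (p : ℤ) • (Submodule.Quotient.mk a : ↥(fixedSub s) ⧸ LinearMap.range N) = 0
    rw [← Submodule.Quotient.mk_smul, Submodule.Quotient.mk_eq_zero]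
    refine ⟨a.1, Subtype.ext ?_⟩
    show normEnd p s a.1 = ((p : ℤ) • a : fixedSub s).1
    rw [normEnd_fixed a.2, natCast_zsmul]
    rfl
  rw [Module.rank_eq_zero_iff_isTorsion.mpr ht, zero_add] at h2
  rw [h2] at h1
  let e : LinearMap.ker N ≃ₗ[ℤ] AddMonoidHom.ker (normEnd p s) :=
    AddEquiv.toIntLinearEquiv
      { toFun := fun x => ⟨x.1, congrArg Subtype.val (show N x.1 = 0 from x.2)⟩
        invFun := fun x => ⟨x.1, Subtype.ext (show normEnd p s x.1 = 0 from x.2)⟩
        left_inv := fun _ => rfl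
        right_inv := fun _ => rfl
        map_add' := fun _ _ => rfl }
  have : Module.Finite ℤ (AddMonoidHom.ker (normEnd p s)) :=
    Module.Finite.of_injective
      (AddMonoidHom.ker (normEnd p s)).subtype.toIntLinearMap Subtype.val_injective
  rw [e.rank_eq, ← Module.finrank_eq_rank, ← Module.finrank_eq_rank, ← Module.finrank_eq_rank]
    at h1
  exact_mod_cast h1.symm

/-- The Herbrand quotient in terms of ranks only. -/
theorem herbrand_eq [Module.Finite ℤ A] (hp : p.Prime) (hs : s ^ p = 1) :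
    herbrand0 p s ≠ 0 ∧ herbrand1 p s ≠ 0 ∧
    herbrand0 p s ^ (p - 1) * p ^ Module.finrank ℤ A =
      herbrand1 p s ^ (p - 1) * p ^ (p * Module.finrank ℤ (fixedSub s)) := by
  have : Module.Finite ℤ (fixedSub s) :=
    Module.Finite.of_injective (fixedSub s).subtype.toIntLinearMap Subtype.val_injective
  set N := normEnd p s with hN
  set F := fixedSub s with hF
  set M := AddMonoidHom.ker N with hM
  obtain ⟨hfT, hqT⟩ := endQ_kerEnd hp hs
  obtain ⟨hfF, hqF⟩ := finEnd_natCast (B := F) hp.ne_zero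
  -- kernels
  have hk : kerCard (p : AddMonoid.End F) = kerCard (kerEnd hs - 1) := by
    refine Nat.card_congr ⟨fun x => ⟨⟨x.1.1, ?_⟩, ?_⟩, fun x => ⟨⟨x.1.1, ?_⟩, ?_⟩,
      fun _ => rfl, fun _ => rfl⟩
    · show normEnd p s x.1.1 = 0
      rw [normEnd_fixed x.1.2]
      exact congrArg Subtype.val (show p • x.1 = 0 from x.2)
    · refine Subtype.ext ?_
      exact x.1.2
    · show (s - 1) x.1.1 = 0
      exact congrArg Subtype.val (show (kerEnd hs - 1) x.1 = 0 from x.2)
    · refine Subtype.ext ?_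
      show p • x.1.1 = 0
      have h : (s - 1) x.1.1 = 0 := congrArg Subtype.val (show (kerEnd hs - 1) x.1 = 0 from x.2)
      rw [← normEnd_fixed (s := s) h]
      exact x.1.2
  have hNF : ∀ a ∈ F, N a = p • a := fun a ha => normEnd_fixed ha
  have hFle : AddMonoidHom.range N ≤ F := by
    rintro _ ⟨a, rfl⟩; exact normEnd_mem_fixed hs a
  have hTle : AddMonoidHom.range (s - 1) ≤ M := by
    rintro _ ⟨a, rfl⟩; exact DFunLike.congr_fun (normEnd_mul_sub_one hs) a
  -- the two index computations
  have hiF : rangeIndex (p : AddMonoid.End F) = herbrand0 p s * (F ⊔ M).index := by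
    have e : AddMonoidHom.range (p : AddMonoid.End F) = (F.map N).addSubgroupOf F := by
      ext x
      constructor
      · rintro ⟨y, rfl⟩
        exact ⟨y.1, y.2, (hNF _ y.2)⟩
      · rintro ⟨y, hy, hyx⟩
        refine ⟨⟨y, hy⟩, Subtype.ext ?_⟩
        exact (hNF y hy).symm.trans hyx
    have e' : F.map N = (F ⊔ M).map N := by
      rw [AddSubgroup.map_sup, (AddSubgroup.map_eq_bot_iff M).mpr le_rfl, sup_bot_eq]
    have e'' : (F.map N).relIndex (AddMonoidHom.range N) = (F ⊔ M).index := by
      rw [e', AddMonoidHom.range_eq_map, AddSubgroup.relIndex_map_map,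
        sup_eq_left.mpr (le_sup_right : AddMonoidHom.ker N ≤ F ⊔ M), top_sup_eq,
        AddSubgroup.relIndex_top_right]
    rw [rangeIndex, e, ← e'', herbrand0, mul_comm]
    exact (AddSubgroup.relIndex_mul_relIndex _ _ _
      (by rintro _ ⟨y, -, rfl⟩; exact ⟨y, rfl⟩) hFle).symm
  have hiT : rangeIndex (kerEnd hs - 1) = herbrand1 p s * (F ⊔ M).index := by
    have e : AddMonoidHom.range (kerEnd hs - 1) = (M.map (s - 1)).addSubgroupOf M := by
      ext x
      constructor
      · rintro ⟨y, rfl⟩
        exact ⟨y.1, y.2, rfl⟩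
      · rintro ⟨y, hy, hyx⟩
        exact ⟨⟨y, hy⟩, Subtype.ext hyx⟩
    have e' : M.map (s - 1) = (F ⊔ M).map (s - 1) := by
      rw [AddSubgroup.map_sup, (AddSubgroup.map_eq_bot_iff F).mpr le_rfl, bot_sup_eq]
    have e'' : (M.map (s - 1)).relIndex (AddMonoidHom.range (s - 1)) = (F ⊔ M).index := by
      rw [e', AddMonoidHom.range_eq_map, AddSubgroup.relIndex_map_map]
      erw [sup_eq_left.mpr (le_sup_left : F ≤ F ⊔ M)]
      rw [top_sup_eq, AddSubgroup.relIndex_top_right]
    rw [rangeIndex]
    erw [e]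
    rw [← e'', herbrand1, mul_comm]
    exact (AddSubgroup.relIndex_mul_relIndex _ _ _
      (by rintro _ ⟨y, -, rfl⟩; exact ⟨y, rfl⟩) hTle).symm
  have h0 : herbrand0 p s ≠ 0 := fun h => hfF.1 (by rw [hiF, h, zero_mul])
  have h1 : herbrand1 p s ≠ 0 := fun h => hfT.1 (by rw [hiT, h, zero_mul])
  refine ⟨h0, h1, ?_⟩
  have hi : ((F ⊔ M).index : ℚ) ≠ 0 := by
    norm_cast; exact fun h => hfF.1 (by rw [hiF, h, mul_zero])
  have hkc : (kerCard (kerEnd hs - 1) : ℚ) ≠ 0 := by exact_mod_cast hfT.2
  have hq : endQ (p : AddMonoid.End F) * herbrand1 p s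
      = endQ (kerEnd hs - 1) * herbrand0 p s := by
    rw [endQ, endQ, hk, hiF, hiT]; push_cast; field_simp
  have hpow := congrArg (· ^ (p - 1)) hq
  simp only [mul_pow, hqT, hqF, ← pow_mul] at hpow
  have hr := finrank_eq_add hp.ne_zero hs
  rw [hr]
  have hpp : p * Module.finrank ℤ F =
      Module.finrank ℤ F + Module.finrank ℤ F * (p - 1) := by
    obtain ⟨k, rfl⟩ : ∃ k, p = k + 1 := ⟨p - 1, by have := hp.pos; omega⟩
    simp; ring
  rw [hpp]
  simp only [pow_add]
  have : (herbrand0 p s : ℚ) ^ (p - 1) * ((p : ℚ) ^ Module.finrank ℤ F *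
      (p : ℚ) ^ Module.finrank ℤ M) = (herbrand1 p s : ℚ) ^ (p - 1) *
      ((p : ℚ) ^ Module.finrank ℤ F * (p : ℚ) ^ (Module.finrank ℤ F * (p - 1))) := by
    linear_combination (-((p : ℚ) ^ Module.finrank ℤ F)) * hpow
  exact_mod_cast this

end Fermat.Agent.Duality.Global
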