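import Fermat.Agent.Duality.Global.SUnits
import Fermat.Agent.Duality.Global.Herbrand

/-!
# The first inequality: `[U_S(K) : N U_{S_L}(L)] * p = p ^ m` for cyclic `L/K` of degree `p`

Here `S` is `SPrincipal` and contains the ramified places, and `m` is the number of places in `S`
which do not split in `L`.
-/

set_option autoImplicit false

open IsDedekindDomain NumberField WithZero Module

namespace Fermat.Agent.Duality.Global

variable {K L : Type} [Field K] [NumberField K] [Field L] [NumberField L] [Algebra K L]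
  [IsGalois K L]

variable (L) in
/-- `v` splits in `L`: some conjugation moves some place over `v`. -/
def IsSplit (v : HeightOneSpectrum (𝓞 K)) : Prop :=
  ∃ (σ : L ≃ₐ[K] L) (w : HeightOneSpectrum (𝓞 L)), Over w v ∧ galPlace σ w ≠ w

variable (L) in
/-- `v` is unramified in `L`: valuations above restrict to the valuation below. -/
def IsUnram (v : HeightOneSpectrum (𝓞 K)) : Prop :=
  ∀ w : HeightOneSpectrum (𝓞 L), Over w v → ∀ x : K,
    w.valuation L (algebraMap K L x) = v.valuation K x

variable (L) in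
/-- The places of `L` above `S`. -/
noncomputable def placesOver (S : Finset (HeightOneSpectrum (𝓞 K))) :
    Finset (HeightOneSpectrum (𝓞 L)) :=
  (S.finite_toSet.biUnion fun v _ => finite_over L v).toFinset

lemma mem_placesOver {S : Finset (HeightOneSpectrum (𝓞 K))} {w : HeightOneSpectrum (𝓞 L)} :
    w ∈ placesOver L S ↔ ∃ v ∈ S, Over w v := by
  simp [placesOver]

lemma galPlace_mem_placesOver {S : Finset (HeightOneSpectrum (𝓞 K))}
    {w : HeightOneSpectrum (𝓞 L)} (σ : L ≃ₐ[K] L) :
    galPlace σ w ∈ placesOver L S ↔ w ∈ placesOver L S := by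
  simp only [mem_placesOver]
  constructor
  · rintro ⟨v, hv, h⟩
    refine ⟨v, hv, ?_⟩
    have := over_galPlace σ⁻¹ h
    rwa [← galPlace_mul, inv_mul_cancel, galPlace_one] at this
  · rintro ⟨v, hv, h⟩
    exact ⟨v, hv, over_galPlace σ h⟩

lemma natCard_aut : Nat.card (L ≃ₐ[K] L) = finrank K L := IsGalois.card_aut_eq_finrank K L

variable {p : ℕ}

lemma mem_zpowers_of_prime (hp : p.Prime) (hdeg : finrank K L = p) {σ : L ≃ₐ[K] L} (hσ : σ ≠ 1)
    (τ : L ≃ₐ[K] L) : τ ∈ Subgroup.zpowers σ := by
  have := Fact.mk hp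
  exact mem_zpowers_of_prime_card (natCard_aut.trans hdeg) hσ

lemma galPlace_injective_of_isSplit (hp : p.Prime) (hdeg : finrank K L = p)
    {v : HeightOneSpectrum (𝓞 K)} (hs : IsSplit L v) {w : HeightOneSpectrum (𝓞 L)} (hw : Over w v) :
    Function.Injective fun σ : L ≃ₐ[K] L => galPlace σ w := by
  obtain ⟨σ₀, w₀, hw₀, hne⟩ := hs
  intro a b hab
  have hab' : galPlace (b⁻¹ * a) w = w := by
    have h' : galPlace a w = galPlace b w := hab
    rw [galPlace_mul, h', ← galPlace_mul, inv_mul_cancel, galPlace_one]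
  by_contra h
  have h1 : b⁻¹ * a ≠ 1 := fun e => h (inv_mul_eq_one.mp e).symm
  apply hne
  obtain ⟨τ, rfl⟩ := exists_galPlace_eq hw hw₀
  have hfix : ∀ g ∈ Subgroup.zpowers (b⁻¹ * a), galPlace g w = w := by
    intro g hg
    let St : Subgroup (L ≃ₐ[K] L) :=
      { carrier := {g | galPlace g w = w}
        one_mem' := galPlace_one w
        mul_mem' := fun {x y} hx hy => by
          show galPlace (x * y) w = w
          rw [galPlace_mul, show galPlace y w = w from hy]; exact hx
        inv_mem' := fun {x} hx => by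
          show galPlace x⁻¹ w = w
          conv_lhs => rw [← show galPlace x w = w from hx]
          rw [← galPlace_mul, inv_mul_cancel, galPlace_one] }
    exact (Subgroup.zpowers_le (H := St)).mpr hab' hg
  rw [← galPlace_mul, hfix _ (mem_zpowers_of_prime hp hdeg h1 _),
    hfix _ (mem_zpowers_of_prime hp hdeg h1 _)]

lemma eq_of_not_isSplit {v : HeightOneSpectrum (𝓞 K)} (hs : ¬ IsSplit L v)
    {w w' : HeightOneSpectrum (𝓞 L)} (hw : Over w v) (hw' : Over w' v) : w = w' := by
  obtain ⟨σ, rfl⟩ := exists_galPlace_eq hw hw'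
  by_contra h
  exact hs ⟨σ, w, hw, Ne.symm h⟩

open Classical in
lemma card_placesOver (hp : p.Prime) (hdeg : finrank K L = p)
    (S : Finset (HeightOneSpectrum (𝓞 K))) :
    (placesOver L S).card + (p - 1) * (S.filter fun v => ¬ IsSplit L v).card = p * S.card := by
  have hunion : placesOver L S = S.biUnion fun v => (finite_over L v).toFinset := by
    ext w; simp [mem_placesOver]
  rw [hunion, Finset.card_biUnion]
  · have hfib : ∀ v : HeightOneSpectrum (𝓞 K),
        ((finite_over L v).toFinset).card + (if IsSplit L v then 0 else p - 1) = p := by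
      intro v
      obtain ⟨w, hw⟩ := exists_over (L := L) v
      split_ifs with hs
      · rw [add_zero, ← hdeg, ← natCard_aut, Nat.card_eq_fintype_card, ← Finset.card_univ]
        refine (Finset.card_bij (fun σ _ => galPlace σ w) (fun σ _ => ?_)
          (fun a _ b _ h => galPlace_injective_of_isSplit hp hdeg hs hw h) fun w' hw' => ?_).symm
        · simpa using over_galPlace σ hw
        · obtain ⟨σ, hσ⟩ := exists_galPlace_eq hw (by simpa using hw')
          exact ⟨σ, Finset.mem_univ _, hσ⟩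
      · have h1 : ((finite_over L v).toFinset).card = 1 := by
          rw [Finset.card_eq_one]
          exact ⟨w, Finset.eq_singleton_iff_unique_mem.mpr
            ⟨by simpa using hw, fun w' hw' => eq_of_not_isSplit hs (by simpa using hw') hw⟩⟩
        rw [h1]; have := hp.pos; omega
    have hsum : (p - 1) * (S.filter fun v => ¬ IsSplit L v).card
        = ∑ v ∈ S, if IsSplit L v then 0 else p - 1 := by
      simp only [Finset.sum_ite, Finset.sum_const_zero, zero_add, Finset.sum_const, smul_eq_mul,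
        mul_comm]
    rw [hsum, ← Finset.sum_add_distrib, Finset.sum_congr rfl fun v _ => hfib v, Finset.sum_const,
      smul_eq_mul, mul_comm]
  · intro v _ v' _ hne
    rw [Function.onFun, Finset.disjoint_left]
    intro w hw hw'
    exact hne (over_unique (by simpa using hw) (by simpa using hw'))

/-- The norm on units. -/
noncomputable def normHom : Lˣ →* Kˣ := Units.map (Algebra.norm K : L →* K)

omit [NumberField K] [NumberField L] [IsGalois K L] in
lemma coe_normHom (y : Lˣ) : (normHom (K := K) y : K) = Algebra.norm K (y : L) := rfl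

variable (L) in
/-- The `S`-units upstairs. -/
noncomputable abbrev sUnitUp (S : Finset (HeightOneSpectrum (𝓞 K))) : Subgroup Lˣ :=
  sUnit L (placesOver L S)

variable (S : Finset (HeightOneSpectrum (𝓞 K)))

lemma map_mem_sUnitUp (σ : L ≃ₐ[K] L) {u : Lˣ} (hu : u ∈ sUnitUp L S) :
    Units.map σ.toAlgHom.toRingHom.toMonoidHom u ∈ sUnitUp L S := by
  intro w hw
  show w.valuation L (σ (u : L)) = 1
  have : (galPlace σ⁻¹ w).valuation L (u : L) = w.valuation L (σ (u : L)) := by
    rw [galPlace_valuation', inv_inv]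
  rw [← this]
  exact hu _ fun h => hw ((galPlace_mem_placesOver σ⁻¹).mp h)

lemma algebraMap_mem_sUnitUp {x : Kˣ} (hx : x ∈ sUnit K S) :
    Units.map (algebraMap K L).toMonoidHom x ∈ sUnitUp L S := by
  intro w hw
  obtain ⟨v, hv⟩ := exists_place_under (K := K) w
  show w.valuation L (algebraMap K L (x : K)) = 1
  rw [valuation_eq_one_iff_of_over hv]
  exact hx v fun h => hw (mem_placesOver.mpr ⟨v, h, hv⟩)

lemma normHom_mem_sUnit {u : Lˣ} (hu : u ∈ sUnitUp L S) : normHom (K := K) u ∈ sUnit K S := by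
  intro v hv
  obtain ⟨w, hw⟩ := exists_over (L := L) v
  rw [coe_normHom, ← valuation_eq_one_iff_of_over hw, Algebra.norm_eq_prod_automorphisms, map_prod]
  refine Finset.prod_eq_one fun σ _ => ?_
  exact map_mem_sUnitUp S σ hu w fun h => by
    obtain ⟨v', hv', hov⟩ := mem_placesOver.mp h
    exact hv (over_unique hw hov ▸ hv')

/-- `σ` on the `S`-units upstairs, additively. -/
noncomputable def sigmaEnd (σ : L ≃ₐ[K] L) : AddMonoid.End (Additive (sUnitUp L S)) :=
  MonoidHom.toAdditive (((Units.map σ.toAlgHom.toRingHom.toMonoidHom).comp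
    (sUnitUp L S).subtype).codRestrict _ fun u => map_mem_sUnitUp S σ u.2)

lemma sigmaEnd_apply (σ : L ≃ₐ[K] L) (u : Additive (sUnitUp L S)) :
    ((Additive.toMul (sigmaEnd S σ u)).1 : L) = σ ((Additive.toMul u).1 : L) := rfl

lemma sigmaEnd_pow_apply (σ : L ≃ₐ[K] L) (i : ℕ) (u : Additive (sUnitUp L S)) :
    ((Additive.toMul ((sigmaEnd S σ ^ i) u)).1 : L) = (σ ^ i) ((Additive.toMul u).1 : L) := by
  induction i generalizing u with
  | zero => rfl
  | succ i ih =>
    rw [pow_succ, pow_succ]
    exact ih (sigmaEnd S σ u)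

lemma sigmaEnd_pow_eq_one (hdeg : finrank K L = p) (σ : L ≃ₐ[K] L) : sigmaEnd S σ ^ p = 1 := by
  refine DFunLike.ext _ _ fun u => ?_
  refine Additive.toMul.injective (Subtype.ext (Units.ext ?_))
  rw [sigmaEnd_pow_apply, ← hdeg, ← natCard_aut, pow_card_eq_one']
  rfl

lemma normEnd_apply (hp : p.Prime) (hdeg : finrank K L = p) {σ : L ≃ₐ[K] L} (hσ : σ ≠ 1)
    (u : Additive (sUnitUp L S)) :
    ((Additive.toMul (normEnd p (sigmaEnd S σ) u)).1 : L)
      = algebraMap K L (Algebra.norm K ((Additive.toMul u).1 : L)) := by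
  rw [Algebra.norm_eq_prod_automorphisms, normEnd, end_sum_apply, toMul_sum,
    Subgroup.val_finsetProd, Units.coe_prod,
    Finset.prod_congr rfl fun i _ => sigmaEnd_pow_apply S σ i u]
  have hord : orderOf σ = p := by
    rw [orderOf_eq_card_of_forall_mem_zpowers (mem_zpowers_of_prime hp hdeg hσ), natCard_aut, hdeg]
  refine Finset.prod_bij (fun i _ => σ ^ i) (fun _ _ => Finset.mem_univ _) ?_ ?_ fun _ _ => rfl
  · intro a ha b hb h
    exact pow_injOn_Iio_orderOf (by simpa [hord] using ha) (by simpa [hord] using hb) h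
  · intro τ _
    obtain ⟨n, hn⟩ := mem_powers_iff_mem_zpowers.mpr (mem_zpowers_of_prime hp hdeg hσ τ)
    refine ⟨n % p, Finset.mem_range.mpr (Nat.mod_lt _ hp.pos), ?_⟩
    rw [← hord, pow_mod_orderOf]
    exact hn

lemma mem_fixedSub_iff (hp : p.Prime) (hdeg : finrank K L = p) {σ : L ≃ₐ[K] L} (hσ : σ ≠ 1)
    (u : Additive (sUnitUp L S)) :
    u ∈ fixedSub (sigmaEnd S σ) ↔
      ∃ x ∈ sUnit K S, algebraMap K L (x : K) = ((Additive.toMul u).1 : L) := by
  constructor
  · intro hu
    obtain ⟨x, hx⟩ : ((Additive.toMul u).1 : L) ∈ Set.range (algebraMap K L) := by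
      rw [IsGalois.mem_range_algebraMap_iff_fixed]
      intro τ
      obtain ⟨n, hn⟩ := mem_powers_iff_mem_zpowers.mpr (mem_zpowers_of_prime hp hdeg hσ τ)
      rw [← hn]
      show (σ ^ n) ((Additive.toMul u).1 : L) = _
      rw [← sigmaEnd_pow_apply, fixed_apply hu]
    have hx0 : x ≠ 0 := by
      rintro rfl; simp only [map_zero] at hx; exact (Additive.toMul u).1.ne_zero hx.symm
    refine ⟨Units.mk0 x hx0, fun v hv => ?_, hx⟩
    obtain ⟨w, hw⟩ := exists_over (L := L) v
    rw [← valuation_eq_one_iff_of_over hw, Units.val_mk0, hx]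
    exact (Additive.toMul u).2 w fun h => by
      obtain ⟨v', hv', hov⟩ := mem_placesOver.mp h
      exact hv (over_unique hw hov ▸ hv')
  · rintro ⟨x, -, hx⟩
    show sigmaEnd S σ u - u = 0
    rw [sub_eq_zero]
    refine Additive.toMul.injective (Subtype.ext (Units.ext ?_))
    rw [sigmaEnd_apply, ← hx, AlgEquiv.commutes]

/-- The fixed subgroup is the group of `S`-units downstairs. -/
noncomputable def fixedEquiv (hp : p.Prime) (hdeg : finrank K L = p) {σ : L ≃ₐ[K] L} (hσ : σ ≠ 1) :
    Additive (sUnit K S) ≃+ fixedSub (sigmaEnd S σ) :=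
  AddEquiv.ofBijective
    ((MonoidHom.toAdditive (((Units.map (algebraMap K L).toMonoidHom).comp
      (sUnit K S).subtype).codRestrict (sUnitUp L S) fun x =>
        algebraMap_mem_sUnitUp S x.2)).codRestrict _
      fun x => (mem_fixedSub_iff S hp hdeg hσ _).mpr ⟨_, (Additive.toMul x).2, rfl⟩)
    ⟨fun a b h => by
      have := congrArg (fun z : fixedSub (sigmaEnd S σ) => ((Additive.toMul z.1).1 : L)) h
      exact Additive.toMul.injective (Subtype.ext (Units.ext ((algebraMap K L).injective this))),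
    fun u => by
      obtain ⟨x, hx, e⟩ := (mem_fixedSub_iff S hp hdeg hσ u.1).mp u.2
      exact ⟨Additive.ofMul ⟨x, hx⟩,
        Subtype.ext (Additive.toMul.injective (Subtype.ext (Units.ext e)))⟩⟩

variable (L) in
/-- Norms of `S`-units, inside the `S`-units downstairs. -/
noncomputable def unitNorms : Subgroup (sUnit K S) :=
  ((sUnitUp L S).map (normHom (K := K) (L := L))).subgroupOf (sUnit K S)

lemma herbrand0_eq (hp : p.Prime) (hdeg : finrank K L = p) {σ : L ≃ₐ[K] L} (hσ : σ ≠ 1) :
    herbrand0 p (sigmaEnd S σ) = (unitNorms L S).index := by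
  rw [herbrand0, AddSubgroup.relIndex,
    ← AddSubgroup.index_comap_of_surjective _ (fixedEquiv S hp hdeg hσ).surjective
      (f := (fixedEquiv S hp hdeg hσ).toAddMonoidHom)]
  show (AddSubgroup.comap _ _).index = (Subgroup.toAddSubgroup (unitNorms L S)).index
  congr 1
  ext x
  constructor
  · rintro ⟨u, hu⟩
    refine ⟨(Additive.toMul u).1, (Additive.toMul u).2, Units.ext ((algebraMap K L).injective ?_)⟩
    rw [coe_normHom, ← normEnd_apply S hp hdeg hσ u]
    exact congrArg (fun z : Additive (sUnitUp L S) => ((Additive.toMul z).1 : L)) hu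
  · rintro ⟨u, hu, e⟩
    refine ⟨Additive.ofMul ⟨u, hu⟩, Additive.toMul.injective (Subtype.ext (Units.ext ?_))⟩
    refine (normEnd_apply S hp hdeg hσ _).trans ?_
    show algebraMap K L (Algebra.norm K (u : L)) = algebraMap K L ((Additive.toMul x).1 : K)
    rw [← coe_normHom, e]
    rfl

/-- `S`-units of norm one are `(σ - 1)` of `S`-units. -/
lemma herbrand1_eq_one (hp : p.Prime) (hdeg : finrank K L = p) {σ : L ≃ₐ[K] L} (hσ : σ ≠ 1)
    (hS : SPrincipal K S) (hram : ∀ v ∉ S, IsUnram L v) :
    herbrand1 p (sigmaEnd S σ) = 1 := by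
  classical
  rw [herbrand1, AddSubgroup.relIndex_eq_one]
  intro u hu
  have hN : Algebra.norm K ((Additive.toMul u).1 : L) = 1 := by
    refine (algebraMap K L).injective ?_
    rw [← normEnd_apply S hp hdeg hσ u, map_one, show normEnd p (sigmaEnd S σ) u = 0 from hu]
    rfl
  have : IsCyclic (L ≃ₐ[K] L) := ⟨⟨σ, mem_zpowers_of_prime hp hdeg hσ⟩⟩
  have hgen : ∀ x, x ∈ Subgroup.zpowers σ := mem_zpowers_of_prime hp hdeg hσ
  obtain ⟨y, hy⟩ := groupCohomology.exists_div_of_norm_eq_one hgen hN
  have hyS : ∀ w ∉ placesOver L S, w.valuation L (σ (y : L)) = w.valuation L (y : L) := by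
    intro w hw
    have h1 : w.valuation L ((Additive.toMul u).1 : L) = 1 := (Additive.toMul u).2 w hw
    rw [← hy, map_div₀, div_eq_one_iff_eq (by simp)] at h1
    exact h1.symm
  -- orders of `y` are constant on fibres
  have hconst : ∀ v ∉ S, ∀ w w' : HeightOneSpectrum (𝓞 L), Over w v → Over w' v →
      w.valuation L (y : L) = w'.valuation L (y : L) := by
    intro v hv w w' hw hw'
    obtain ⟨τ, rfl⟩ := exists_galPlace_eq hw hw'
    obtain ⟨n, hn⟩ := mem_powers_iff_mem_zpowers.mpr (hgen τ)
    have hn' : σ ^ n = τ := hn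
    subst hn'
    clear hw' hn
    induction n with
    | zero => rw [pow_zero, galPlace_one]
    | succ n ih =>
      have hov : Over (galPlace (σ ^ (n + 1)) w) v := over_galPlace _ hw
      have hout : galPlace (σ ^ (n + 1)) w ∉ placesOver L S := fun h => by
        obtain ⟨v', hv', h'⟩ := mem_placesOver.mp h
        exact hv (over_unique hov h' ▸ hv')
      rw [ih, ← hyS _ hout, pow_succ', galPlace_mul, galPlace_valuation]
  have hsupp : {w : HeightOneSpectrum (𝓞 L) | w.valuation L (y : L) ≠ 1}.Finite := by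
    refine ((HeightOneSpectrum.Support.finite (𝓞 L) (y : L)).union
      (HeightOneSpectrum.Support.finite (𝓞 L) ((y⁻¹ : Lˣ) : L))).subset fun w hw => ?_
    rcases lt_or_gt_of_ne (show w.valuation L (y : L) ≠ 1 from hw) with h | h
    · right
      show 1 < w.valuation L ((y⁻¹ : Lˣ) : L)
      rw [Units.val_inv_eq_inv_val, map_inv₀]
      exact one_lt_inv_iff₀.mpr ⟨by simp [zero_lt_iff], h⟩
    · exact .inl h
  choose w₀ hw₀ using exists_over (K := K) (L := L)
  let c : HeightOneSpectrum (𝓞 K) → ℤ := fun v => -log ((w₀ v).valuation L (y : L))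
  obtain ⟨T, hT, hTS⟩ : ∃ T : Finset (HeightOneSpectrum (𝓞 K)),
      (∀ v, v ∉ S → v ∉ T → (w₀ v).valuation L (y : L) = 1) ∧ ∀ v ∈ T, v ∉ S := by
    have hinj : Function.Injective w₀ := fun a b h => over_unique (hw₀ a) (h ▸ hw₀ b)
    refine ⟨(hsupp.preimage hinj.injOn).toFinset.filter (· ∉ S), fun v hvS hvT => ?_, fun v hv =>
      (Finset.mem_filter.mp hv).2⟩
    by_contra h
    exact hvT (Finset.mem_filter.mpr ⟨by simpa using h, hvS⟩)
  choose π hπ hπ' using hS
  let x : Kˣ := ∏ v ∈ T.attach, π v.1 (hTS v.1 v.2) ^ c v.1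
  have hx : ∀ v ∉ S, v.valuation K (x : K) = (w₀ v).valuation L (y : L) := by
    intro v hv
    simp only [x, Units.coe_prod, Units.val_zpow_eq_zpow_val, map_prod, map_zpow₀]
    by_cases hvT : v ∈ T
    · rw [Finset.prod_eq_single_of_mem ⟨v, hvT⟩ (Finset.mem_attach _ _)]
      · rw [hπ, ← exp_zsmul]
        simp only [c, smul_eq_mul, mul_neg, mul_one, neg_neg]
        exact exp_log (by simp)
      · intro b _ hb
        rw [hπ' b.1 (hTS _ b.2) v hv fun e => hb (Subtype.ext e.symm), one_zpow]
    · rw [hT v hv hvT]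
      refine Finset.prod_eq_one fun b _ => ?_
      rw [hπ' b.1 (hTS _ b.2) v hv fun e => hvT (e ▸ b.2), one_zpow]
  let z : Lˣ := (Units.map (algebraMap K L).toMonoidHom x) / y
  have hz : z ∈ sUnitUp L S := by
    intro w hw
    obtain ⟨v, hv⟩ := exists_place_under (K := K) w
    have hvS : v ∉ S := fun h => hw (mem_placesOver.mpr ⟨v, h, hv⟩)
    show w.valuation L ((z : Lˣ) : L) = 1
    simp only [z, Units.val_div_eq_div_val, map_div₀]
    rw [show ((Units.map (algebraMap K L).toMonoidHom x : Lˣ) : L) = algebraMap K L (x : K)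
        from rfl,
      hram v hvS w hv, hx v hvS, hconst v hvS w (w₀ v) hv (hw₀ v), div_self (by simp)]
  refine ⟨Additive.ofMul ⟨z, hz⟩, Additive.toMul.injective (Subtype.ext (Units.ext ?_))⟩
  show ((Additive.toMul (sigmaEnd S σ (Additive.ofMul (⟨z, hz⟩ : sUnitUp L S))
    - Additive.ofMul (⟨z, hz⟩ : sUnitUp L S))).1 : L) = _
  rw [toMul_sub, Subgroup.coe_div, Units.val_div_eq_div_val, sigmaEnd_apply]
  simp only [z, toMul_ofMul, Units.val_div_eq_div_val, map_div₀]
  rw [show ((Units.map (algebraMap K L).toMonoidHom x : Lˣ) : L) = algebraMap K L (x : K) from rfl,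
    AlgEquiv.commutes, ← hy]
  field_simp

open Classical in
/-- First inequality. -/
theorem index_unitNorms (hp : p.Prime) (hodd : p ≠ 2) (hdeg : finrank K L = p)
    (hS : SPrincipal K S) (hram : ∀ v ∉ S, IsUnram L v) :
    (unitNorms L S).index * p = p ^ (S.filter fun v => ¬ IsSplit L v).card := by
  obtain ⟨σ, hσ⟩ : ∃ σ : L ≃ₐ[K] L, σ ≠ 1 := by
    by_contra h
    push Not at h
    have : Subsingleton (L ≃ₐ[K] L) := ⟨fun a b => by rw [h a, h b]⟩
    have h1 := natCard_aut (K := K) (L := L)
    rw [Nat.card_of_subsingleton (1 : L ≃ₐ[K] L), hdeg] at h1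
    exact hp.one_lt.ne h1
  obtain ⟨-, -, hH⟩ := herbrand_eq hp (sigmaEnd_pow_eq_one S hdeg σ)
  rw [herbrand0_eq S hp hdeg hσ, herbrand1_eq_one S hp hdeg hσ hS hram, one_pow, one_mul,
    ← (fixedEquiv S hp hdeg hσ).toIntLinearEquiv.finrank_eq, finrank_sUnit, finrank_sUnit] at hH
  set m := (S.filter fun v => ¬ IsSplit L v).card with hm
  have hinf : Fintype.card (InfinitePlace L) = Fintype.card (InfinitePlace K) * p := by
    have : IsUnramifiedAtInfinitePlaces K L := IsUnramifiedAtInfinitePlaces_of_odd_finrank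
      (hdeg ▸ hp.odd_of_ne_two hodd)
    rw [IsUnramifiedAtInfinitePlaces.card_infinitePlace K L, hdeg]
  have hc := card_placesOver hp hdeg S (L := L)
  rw [← hm] at hc
  have hK : 0 < Fintype.card (InfinitePlace K) := Fintype.card_pos
  simp only [Units.rank, hinf] at hH
  obtain ⟨k, hk⟩ : ∃ k, p - 1 = k + 1 := ⟨p - 2, by have := hp.two_le; omega⟩
  have hexp : p * (Fintype.card (InfinitePlace K) - 1 + S.card) + (p - 1)
      = Fintype.card (InfinitePlace K) * p - 1 + (placesOver L S).card + (p - 1) * m := by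
    obtain ⟨r, hr⟩ : ∃ r, Fintype.card (InfinitePlace K) = r + 1 :=
      ⟨Fintype.card (InfinitePlace K) - 1, by omega⟩
    rw [hr, Nat.add_sub_cancel, Nat.mul_add, Nat.add_mul, one_mul]
    have := hp.pos
    have : r * p = p * r := mul_comm _ _
    omega
  have h2 : ((unitNorms L S).index * p) ^ (p - 1) *
      p ^ (Fintype.card (InfinitePlace K) * p - 1 + (placesOver L S).card) =
      (p ^ m) ^ (p - 1) * p ^ (Fintype.card (InfinitePlace K) * p - 1 + (placesOver L S).card) := by
    rw [mul_pow, mul_right_comm, hH, ← pow_add, hexp, ← pow_mul, ← pow_add]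
    ring_nf
  exact Nat.pow_left_injective (by omega) (mul_right_cancel₀ (pow_ne_zero _ hp.ne_zero) h2)

end Fermat.Agent.Duality.Global
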