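import Fermat.Agent.Duality.Global.SecondInequality

/-!
# The Hasse norm theorem for cyclic extensions of degree `p` of fields containing `μ_p`
-/

set_option autoImplicit false

open IsDedekindDomain NumberField WithZero Module

namespace Fermat.Agent.Duality.Global

variable {K L : Type} [Field K] [NumberField K] [Field L] [NumberField L] [Algebra K L]
  [IsGalois K L] {p : ℕ} {ζ : K}

lemma finite_setOf_valuation_ne_one (x : Kˣ) :
    {v : HeightOneSpectrum (𝓞 K) | v.valuation K (x : K) ≠ 1}.Finite := by
  refine ((HeightOneSpectrum.Support.finite (𝓞 K) (x : K)).union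
    (HeightOneSpectrum.Support.finite (𝓞 K) ((x⁻¹ : Kˣ) : K))).subset fun w hw => ?_
  rcases lt_or_gt_of_ne (show w.valuation K (x : K) ≠ 1 from hw) with h | h
  · right
    show 1 < w.valuation K ((x⁻¹ : Kˣ) : K)
    rw [Units.val_inv_eq_inv_val, map_inv₀]
    exact one_lt_inv_iff₀.mpr ⟨by simp [zero_lt_iff], h⟩
  · exact .inl h

open Classical in
/-- A large set of places: contains `S₀` and the support of finitely many elements, kills both
class groups, and contains the places over `p`. -/
lemma exists_large (hp : p.Prime) (S₀ : Finset (HeightOneSpectrum (𝓞 K))) (a x : Kˣ) :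
    ∃ S : Finset (HeightOneSpectrum (𝓞 K)), S₀ ⊆ S ∧ SPrincipal K S ∧
      SPrincipal L (placesOver L S) ∧ (∀ v ∉ S, v.valuation K (p : K) = 1) ∧
      a ∈ sUnit K S ∧ x ∈ sUnit K S := by
  obtain ⟨SK, hSK⟩ := exists_sPrincipal K
  obtain ⟨SL, hSL⟩ := exists_sPrincipal L
  choose under hunder using fun w : HeightOneSpectrum (𝓞 L) => exists_place_under (K := K) w
  let P : Kˣ := Units.mk0 (p : K) (by exact_mod_cast hp.ne_zero)
  refine ⟨S₀ ∪ SK ∪ SL.image under ∪ (finite_setOf_valuation_ne_one P).toFinset ∪
    (finite_setOf_valuation_ne_one a).toFinset ∪ (finite_setOf_valuation_ne_one x).toFinset,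
    ?_, ?_, ?_, ?_, ?_, ?_⟩
  · intro v hv; simp [hv]
  · exact SPrincipal.mono K hSK fun v hv => by simp [hv]
  · refine SPrincipal.mono L hSL fun w hw => mem_placesOver.mpr ⟨under w, ?_, hunder w⟩
    simp only [Finset.mem_union, Finset.mem_image]
    exact .inl (.inl (.inl (.inr ⟨w, hw, rfl⟩)))
  · intro v hv
    simp only [Finset.mem_union, not_or] at hv
    have := hv.1.1.2
    rw [Set.Finite.mem_toFinset] at this
    exact not_not.mp this
  · intro v hv
    simp only [Finset.mem_union, Finset.mem_coe, not_or] at hv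
    have := hv.1.2
    rw [Set.Finite.mem_toFinset] at this
    exact not_not.mp this
  · intro v hv
    simp only [Finset.mem_union, Finset.mem_coe, not_or] at hv
    have := hv.2
    rw [Set.Finite.mem_toFinset] at this
    exact not_not.mp this

/-- **Hasse norm theorem**: for `L / K` cyclic of odd prime degree `p` with `μ_p ⊆ K`, an element
of `K` which is a local norm at every finite place is a norm. -/
theorem hasse_norm (hp : p.Prime) (hodd : p ≠ 2) (hdeg : finrank K L = p)
    (hζ : IsPrimitiveRoot ζ p) {x : Kˣ}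
    (hloc : ∀ v : HeightOneSpectrum (𝓞 K), x ∈ localNorm L v) :
    ∃ y : Lˣ, normHom (K := K) y = x := by
  obtain ⟨a, α, hα, hαK⟩ := exists_kummer_generator (L := L) hp hdeg hζ
  obtain ⟨S, -, hS, hSL, hpS, ha, hx⟩ := exists_large (L := L) hp ∅ a x
  obtain ⟨y, -, hy⟩ := exists_norm_eq_of_sUnit hp hodd hdeg hζ hα hαK hS hSL hpS ha hx
    fun v _ => hloc v
  exact ⟨y, hy⟩

end Fermat.Agent.Duality.Global
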