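import Fermat.Agent.Duality.Global.LocalClasses
import Fermat.Agent.Duality.Global.FirstInequality

/-!
# Kummer extensions of degree `p` at the finite places
-/

set_option autoImplicit false

open IsDedekindDomain NumberField WithZero Module

namespace Fermat.Agent.Duality.Global

variable {K L : Type} [Field K] [NumberField K] [Field L] [NumberField L] [Algebra K L]
  [IsGalois K L] {p : ℕ} {ζ : K}

omit [NumberField K] [NumberField L] [IsGalois K L] in
lemma exists_zeta_pow_mul (hp : p ≠ 0) (hζ : IsPrimitiveRoot ζ p) {y : L}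
    (hy : y ^ p ∈ Set.range (algebraMap K L)) (σ : L ≃ₐ[K] L) :
    ∃ i < p, σ y = algebraMap K L ζ ^ i * y := by
  have : NeZero p := ⟨hp⟩
  rcases eq_or_ne y 0 with rfl | h0
  · exact ⟨0, Nat.pos_of_ne_zero hp, by simp⟩
  obtain ⟨c, hc⟩ := hy
  have h1 : (σ y / y) ^ p = 1 := by
    rw [div_pow, ← map_pow, ← hc, AlgEquiv.commutes, div_self]
    rw [hc]; exact pow_ne_zero _ h0
  obtain ⟨i, hi, e⟩ := (hζ.map_of_injective (algebraMap K L).injective).eq_pow_of_pow_eq_one h1
  exact ⟨i, hi, by rw [e, div_mul_cancel₀ _ h0]⟩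

lemma eq_one_of_apply_eq (hp : p.Prime) (hdeg : finrank K L = p) {α : L}
    (hα : α ∉ Set.range (algebraMap K L)) {σ : L ≃ₐ[K] L} (h : σ α = α) : σ = 1 := by
  by_contra hne
  refine hα ((IsGalois.mem_range_algebraMap_iff_fixed α).mpr fun τ => ?_)
  have h1 : σ ∈ MulAction.stabilizer (L ≃ₐ[K] L) α := h
  exact (Subgroup.zpowers_le.mpr h1) (mem_zpowers_of_prime hp hdeg hne τ)

lemma exists_ne_one (hp : p.Prime) (hdeg : finrank K L = p) : ∃ σ : L ≃ₐ[K] L, σ ≠ 1 := by
  by_contra h
  push Not at h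
  have : Subsingleton (L ≃ₐ[K] L) := ⟨fun a b => by rw [h a, h b]⟩
  have h1 := natCard_aut (K := K) (L := L)
  rw [Nat.card_of_subsingleton (1 : L ≃ₐ[K] L), hdeg] at h1
  exact hp.one_lt.ne h1

/-- `L^p ∩ K` is generated by `a` modulo `K^p`. -/
lemma eq_mul_pow_of_pow_mem (hp : p.Prime) (hdeg : finrank K L = p) (hζ : IsPrimitiveRoot ζ p)
    {α y : L} (hα : α ^ p ∈ Set.range (algebraMap K L)) (hαK : α ∉ Set.range (algebraMap K L))
    (hy : y ^ p ∈ Set.range (algebraMap K L)) :
    ∃ (c : K) (i : ℕ), y = algebraMap K L c * α ^ i := by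
  have := Fact.mk hp
  obtain ⟨σ, hσ⟩ := exists_ne_one hp hdeg (L := L)
  obtain ⟨k, hk, ek⟩ := exists_zeta_pow_mul hp.ne_zero hζ hα σ
  obtain ⟨j, hj, ej⟩ := exists_zeta_pow_mul hp.ne_zero hζ hy σ
  have hk0 : (k : ZMod p) ≠ 0 := by
    rw [Ne, ZMod.natCast_eq_zero_iff]
    intro h
    have : k = 0 := Nat.eq_zero_of_dvd_of_lt h hk
    subst this
    exact hσ (eq_one_of_apply_eq hp hdeg hαK (by rw [ek, pow_zero, one_mul]))
  set i := ((j : ZMod p) / (k : ZMod p)).val
  have hij : (k * i) % p = j := by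
    rw [← ZMod.val_natCast, Nat.cast_mul, ZMod.natCast_zmod_val, mul_div_cancel₀ _ hk0,
      ZMod.val_natCast, Nat.mod_eq_of_lt hj]
  have hα0 : α ≠ 0 := fun h => hαK ⟨0, by rw [h, map_zero]⟩
  have hfix : σ (y / α ^ i) = y / α ^ i := by
    rw [map_div₀, map_pow, ek, ej, mul_pow, ← pow_mul,
      ← pow_mod_orderOf (algebraMap K L ζ) (k * i),
      ← (hζ.map_of_injective (algebraMap K L).injective).eq_orderOf, hij,
      mul_div_mul_left _ _ (pow_ne_zero _ (by simpa using hζ.ne_zero hp.ne_zero))]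
  have hmem : y / α ^ i ∈ Set.range (algebraMap K L) := by
    refine (IsGalois.mem_range_algebraMap_iff_fixed _).mpr fun τ => ?_
    have h1 : σ ∈ MulAction.stabilizer (L ≃ₐ[K] L) (y / α ^ i) := hfix
    exact (Subgroup.zpowers_le.mpr h1) (mem_zpowers_of_prime hp hdeg hσ τ)
  obtain ⟨c, hc⟩ := hmem
  exact ⟨c, i, by rw [hc, div_mul_cancel₀ _ (pow_ne_zero _ hα0)]⟩

/-- Coordinates in the basis `1, α, ..., α ^ (p - 1)` are traces. -/
lemma natCast_mul_eq_sum_trace (hp : p.Prime) (hdeg : finrank K L = p) (hζ : IsPrimitiveRoot ζ p)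
    {α : L} (hα : α ^ p ∈ Set.range (algebraMap K L)) (hαK : α ∉ Set.range (algebraMap K L))
    (x : L) :
    (p : L) * x = ∑ i ∈ Finset.range p, algebraMap K L (Algebra.trace K L (x / α ^ i)) * α ^ i := by
  have hα0 : α ≠ 0 := fun h => hαK ⟨0, by rw [h, map_zero]⟩
  classical
  simp_rw [trace_eq_sum_automorphisms, Finset.sum_mul]
  rw [Finset.sum_comm, Finset.sum_eq_single (1 : L ≃ₐ[K] L)]
  · simp [hα0]
  · intro τ _ hτ
    obtain ⟨k, hk, ek⟩ := exists_zeta_pow_mul hp.ne_zero hζ hα τ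
    set η := (algebraMap K L ζ ^ k)⁻¹
    have hη1 : η ≠ 1 := fun h => hτ (eq_one_of_apply_eq hp hdeg hαK (by
      rw [ek, inv_eq_one.mp h, one_mul]))
    have hηp : η ^ p = 1 := by
      rw [inv_pow, ← pow_mul, mul_comm, pow_mul, ← map_pow, hζ.pow_eq_one, map_one,
        one_pow, inv_one]
    have hgeom : ∑ i ∈ Finset.range p, η ^ i = 0 := by
      rw [geom_sum_eq hη1, hηp, sub_self, zero_div]
    calc ∑ i ∈ Finset.range p, τ (x / α ^ i) * α ^ i = ∑ i ∈ Finset.range p, τ x * η ^ i := by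
          refine Finset.sum_congr rfl fun i _ => ?_
          rw [map_div₀, map_pow, ek, inv_pow, mul_pow]
          have : α ^ i ≠ 0 := pow_ne_zero _ hα0
          field_simp
      _ = 0 := by rw [← Finset.mul_sum, hgeom, mul_zero]
  · simp

/-- If `a` is a local `p`-th power at `v`, then `v` splits in `K(a^{1/p})`. -/
theorem isSplit_of_mem_localPow (hp : p.Prime) (hdeg : finrank K L = p)
    (hζ : IsPrimitiveRoot ζ p) {α : L} {a : Kˣ} (hα : α ^ p = algebraMap K L a)
    (hαK : α ∉ Set.range (algebraMap K L)) {v : HeightOneSpectrum (𝓞 K)}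
    (ha : a ∈ localPow v p) : IsSplit L v := by
  by_contra hs
  obtain ⟨w, hw⟩ := exists_over (L := L) v
  obtain ⟨e, he, hpow⟩ := exists_valuation_pow hw
  have hε : ordP w p = e * ordP v p := by
    have h := hpow (p : K)
    rw [map_natCast, valuation_natCast_eq w hp.ne_zero, valuation_natCast_eq v hp.ne_zero,
      ← exp_nsmul] at h
    have h' := exp_injective h
    rw [nsmul_eq_mul] at h'
    exact_mod_cast neg_injective (h'.trans (mul_neg _ _))
  rw [localPow_eq v hp.ne_zero le_rfl, Subgroup.mem_sup] at ha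
  obtain ⟨_, ⟨y, rfl⟩, c, hc, hyc⟩ := ha
  set β : L := α / algebraMap K L y with hβd
  have hy0 : algebraMap K L (y : K) ≠ 0 := by simp
  have hβ : β ^ p = algebraMap K L (c : K) := by
    rw [hβd, div_pow, hα, ← hyc, powMonoidHom_apply, Units.val_mul, Units.val_pow_eq_pow_val,
      map_mul, map_pow, mul_div_cancel_left₀ _ (pow_ne_zero _ hy0)]
  set n := e * (2 * ordP v p + 1) with hn
  have hβ1 : w.valuation L (β ^ p - 1) ≤ exp (-(n : ℤ)) := by
    rw [hβ, ← map_one (algebraMap K L), ← map_sub, hpow]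
    refine (pow_le_pow_left' hc.2 e).trans (le_of_eq ?_)
    rw [← exp_nsmul, nsmul_eq_mul, hn]; push_cast; ring_nf
  have he1 : 1 ≤ e := Nat.one_le_iff_ne_zero.mpr he
  have hnε : 2 * ordP w p + 1 ≤ n := by rw [hε, hn]; nlinarith
  obtain ⟨i, -, hclose⟩ := exists_near_root' w hp (hζ.map_of_injective (algebraMap K L).injective)
    (by omega) hβ1
  obtain ⟨σ, hσ⟩ := exists_ne_one hp hdeg (L := L)
  obtain ⟨k, hk, ek⟩ := exists_zeta_pow_mul hp.ne_zero hζ ⟨a, hα.symm⟩ σ
  have hk0 : k ≠ 0 := fun h => hσ (eq_one_of_apply_eq hp hdeg hαK (by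
    rw [ek, h, pow_zero, one_mul]))
  have hfix : galPlace σ w = w := by
    by_contra h; exact hs ⟨σ, w, hw, h⟩
  set z := algebraMap K L ζ
  have hz : IsPrimitiveRoot z p := hζ.map_of_injective (algebraMap K L).injective
  have hσβ : σ β = z ^ k * β := by
    rw [hβd, map_div₀, ek, AlgEquiv.commutes, mul_div_assoc]
  have h2 : w.valuation L (z ^ k * β - z ^ i) ≤ exp (-((n - ordP w p : ℕ) : ℤ)) := by
    refine le_trans (le_of_eq ?_) hclose
    conv_lhs => rw [← hfix]
    rw [show z ^ k * β - z ^ i = σ (β - z ^ i) by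
      rw [map_sub, hσβ, map_pow, show σ z = z from AlgEquiv.commutes σ ζ]]
    exact galPlace_valuation σ w _
  have hz1 : w.valuation L z = 1 := by
    have := congrArg (w.valuation L) hz.pow_eq_one
    rwa [map_pow, map_one, pow_eq_one_iff_of_nonneg zero_le hp.ne_zero] at this
  have h3 : w.valuation L (1 - z ^ k) ≤ exp (-((n - ordP w p : ℕ) : ℤ)) := by
    have e1 : (z ^ k * β - z ^ i) - z ^ k * (β - z ^ i) = -(1 - z ^ k) * z ^ i := by ring
    have h4 : w.valuation L (-(1 - z ^ k) * z ^ i) ≤ exp (-((n - ordP w p : ℕ) : ℤ)) := by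
      rw [← e1]
      refine (Valuation.map_sub _ _ _).trans (max_le h2 ?_)
      rw [map_mul, map_pow, hz1, one_pow, one_mul]
      exact hclose
    rwa [map_mul, Valuation.map_neg, map_pow, hz1, one_pow, mul_one] at h4
  have h5 := (one_sub_pow_valuation w hp hz hk0 hk).trans h3
  rw [exp_le_exp] at h5
  omega

/-- Split places are unramified. -/
theorem isUnram_of_isSplit (hp : p.Prime) (hdeg : finrank K L = p)
    {v : HeightOneSpectrum (𝓞 K)} (hs : IsSplit L v) : IsUnram L v := by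
  intro w hw x
  classical
  obtain ⟨e, he, hpow⟩ := exists_valuation_pow hw
  obtain ⟨π, hπ⟩ := exists_uniformizer_unit w
  obtain ⟨y, hy⟩ := exists_approx_units (Finset.univ.image fun σ : L ≃ₐ[K] L => galPlace σ w) 1
    fun u => if u = w then π else 1
  have hy' : ∀ σ : L ≃ₐ[K] L, (galPlace σ w).valuation L (y : L) =
      if σ = 1 then exp (-1 : ℤ) else 1 := by
    intro σ
    have h := hy (galPlace σ w) (Finset.mem_image_of_mem _ (Finset.mem_univ σ))
    have hiff : galPlace σ w = w ↔ σ = 1 := ⟨fun h' =>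
      galPlace_injective_of_isSplit hp hdeg hs hw (h'.trans (galPlace_one w).symm),
      fun h' => by rw [h', galPlace_one]⟩
    have h1 := valuation_eq_one_of_close _ one_ne_zero h
    rw [map_div₀, div_eq_one_iff_eq (by simp)] at h1
    rw [h1]
    by_cases hσ : σ = 1
    · rw [if_pos (hiff.mpr hσ), if_pos hσ, hiff.mpr hσ, hπ]
    · rw [if_neg (fun h' => hσ (hiff.mp h')), if_neg hσ, Units.val_one, map_one]
  have hN : w.valuation L (algebraMap K L (Algebra.norm K (y : L))) = exp (-1 : ℤ) := by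
    rw [Algebra.norm_eq_prod_automorphisms, map_prod,
      Finset.prod_eq_single_of_mem (1 : L ≃ₐ[K] L) (Finset.mem_univ _)]
    · have := hy' 1
      rwa [galPlace_one, if_pos rfl] at this
    · intro σ _ hσ
      have := hy' σ⁻¹
      rwa [galPlace_valuation', inv_inv, if_neg (by simpa using hσ)] at this
  rw [hpow] at hN
  have hN0 : v.valuation K (Algebra.norm K (y : L)) ≠ 0 := fun h => by
    rw [h, zero_pow he] at hN; exact exp_ne_zero hN.symm
  rw [← exp_log hN0, ← exp_nsmul, nsmul_eq_mul] at hN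
  have h1 := exp_injective hN
  have he1 : (e : ℤ) = 1 :=
    Int.eq_one_of_dvd_one (by omega) ⟨-log (v.valuation K (Algebra.norm K (y : L))), by linarith⟩
  rw [hpow, show e = 1 by exact_mod_cast he1, pow_one]

/-- `K(a^{1/p}) / K` is unramified at `v` if `a` is a unit and `v ∤ p`. -/
theorem isUnram_of_unit (hp : p.Prime) (hdeg : finrank K L = p) (hζ : IsPrimitiveRoot ζ p)
    {α : L} {a : Kˣ} (hα : α ^ p = algebraMap K L a) (hαK : α ∉ Set.range (algebraMap K L))
    {v : HeightOneSpectrum (𝓞 K)} (hv : v.valuation K (p : K) = 1)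
    (ha : v.valuation K (a : K) = 1) : IsUnram L v := by
  by_cases hs : IsSplit L v
  · exact isUnram_of_isSplit hp hdeg hs
  intro w hw x
  obtain ⟨e, he, hpow⟩ := exists_valuation_pow hw
  have hfix : ∀ σ : L ≃ₐ[K] L, galPlace σ w = w := fun σ => by
    by_contra h; exact hs ⟨σ, w, hw, h⟩
  have hα1 : w.valuation L α = 1 := by
    have h := congrArg (w.valuation L) hα
    rwa [map_pow, hpow, ha, one_pow, pow_eq_one_iff_of_nonneg zero_le hp.ne_zero] at h
  obtain ⟨π, hπ⟩ := exists_uniformizer_unit w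
  have htr : ∀ i, w.valuation L (algebraMap K L (Algebra.trace K L ((π : L) / α ^ i))) ≤
      exp (-(e : ℤ)) := by
    intro i
    have h1 : w.valuation L (algebraMap K L (Algebra.trace K L ((π : L) / α ^ i))) ≤
        exp (-1 : ℤ) := by
      rw [trace_eq_sum_automorphisms]
      refine Valuation.map_sum_le _ fun τ _ => ?_
      have := galPlace_valuation τ w ((π : L) / α ^ i)
      rw [hfix] at this
      rw [this, map_div₀, map_pow, hα1, one_pow, div_one, hπ]
    rw [hpow] at h1 ⊢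
    set t := v.valuation K (Algebra.trace K L ((π : L) / α ^ i))
    rcases eq_or_ne t 0 with h0 | h0
    · rw [h0, zero_pow he]; exact zero_le
    have ht : t ≤ exp (-1 : ℤ) := by
      rw [← exp_log h0, ← exp_nsmul, exp_le_exp, nsmul_eq_mul] at h1
      rw [← exp_log h0, exp_le_exp]
      by_contra hc
      have : 0 ≤ (e : ℤ) * log t := mul_nonneg (by omega) (by omega)
      omega
    refine (pow_le_pow_left' ht e).trans (le_of_eq ?_)
    rw [← exp_nsmul, nsmul_eq_mul]; simp
  have hpw : w.valuation L (p : L) = 1 := by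
    rw [← map_natCast (algebraMap K L), hpow, hv, one_pow]
  have h2 : w.valuation L (π : L) ≤ exp (-(e : ℤ)) := by
    rw [← one_mul (w.valuation L (π : L)), ← hpw, ← map_mul,
      natCast_mul_eq_sum_trace hp hdeg hζ ⟨a, hα.symm⟩ hαK]
    refine Valuation.map_sum_le _ fun i _ => ?_
    rw [map_mul, map_pow, hα1, one_pow, mul_one]
    exact htr i
  rw [hπ, exp_le_exp] at h2
  rw [hpow, show e = 1 by omega, pow_one]

/-- Cyclic extensions of degree `p` are Kummer extensions. -/
theorem exists_kummer_generator (hp : p.Prime) (hdeg : finrank K L = p)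
    (hζ : IsPrimitiveRoot ζ p) :
    ∃ (a : Kˣ) (α : L), α ^ p = algebraMap K L a ∧ α ∉ Set.range (algebraMap K L) := by
  have := Fact.mk hp
  have : IsCyclic (L ≃ₐ[K] L) := isCyclic_of_prime_card (natCard_aut.trans hdeg)
  obtain ⟨α, hmem, htop⟩ := exists_root_adjoin_eq_top_of_isCyclic K L
    ⟨ζ, (mem_primitiveRoots (hdeg ▸ hp.pos)).mpr (hdeg ▸ hζ)⟩
  rw [hdeg] at hmem
  obtain ⟨a, ha⟩ := hmem
  have hαK : α ∉ Set.range (algebraMap K L) := by
    rintro ⟨c, rfl⟩
    have h1 : IntermediateField.adjoin K {algebraMap K L c} = ⊥ :=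
      IntermediateField.adjoin_simple_eq_bot_iff.mpr (IntermediateField.algebraMap_mem _ c)
    have h2 : finrank K (⊤ : IntermediateField K L) = 1 :=
      IntermediateField.finrank_eq_one_iff.mpr (htop.symm.trans h1)
    rw [IntermediateField.finrank_top', hdeg] at h2
    exact hp.one_lt.ne' h2
  have ha0 : a ≠ 0 := by
    rintro rfl
    exact hαK ⟨0,
      by rw [map_zero, eq_comm]; exact pow_eq_zero_iff hp.ne_zero |>.mp (by rw [← ha, map_zero])⟩
  exact ⟨Units.mk0 a ha0, α, ha.symm, hαK⟩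

end Fermat.Agent.Duality.Global
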