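import Fermat.Agent.Duality.Global.SUnits

/-!
# `p`-th power classes at a finite place, without completions

`localPow p v` is the set of `x : Fˣ` which are `p`-th powers modulo every congruence subgroup at
`v`.  When `F` contains a primitive `p`-th root of unity its index is `p ^ 2 * N(v) ^ ord_v(p)`.
-/

set_option autoImplicit false

open IsDedekindDomain NumberField WithZero

namespace Fermat.Agent.Duality.Global

variable {F : Type} [Field F] [NumberField F] (v : HeightOneSpectrum (𝓞 F))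

/-- Units at `v`. -/
def unitsAt : Subgroup Fˣ where
  carrier := {x | v.valuation F (x : F) = 1}
  one_mem' := by simp
  mul_mem' := by
    rintro x y (hx : _ = _) (hy : _ = _)
    show v.valuation F ((x * y : Fˣ) : F) = 1
    rw [Units.val_mul, map_mul, hx, hy, one_mul]
  inv_mem' := by
    rintro x (hx : _ = _)
    show v.valuation F ((x⁻¹ : Fˣ) : F) = 1
    rw [Units.val_inv_eq_inv_val, map_inv₀, hx, inv_one]

lemma mem_unitsAt {x : Fˣ} : x ∈ unitsAt v ↔ v.valuation F (x : F) = 1 := Iff.rfl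

/-- Units congruent to one modulo `v ^ n`. -/
def congrOne (n : ℕ) : Subgroup Fˣ where
  carrier := {x | v.valuation F (x : F) = 1 ∧ v.valuation F ((x : F) - 1) ≤ exp (-(n : ℤ))}
  one_mem' := by simp
  mul_mem' := by
    rintro x y ⟨hx1, hx⟩ ⟨hy1, hy⟩
    refine ⟨by rw [Units.val_mul, map_mul, hx1, hy1, one_mul], ?_⟩
    rw [Units.val_mul, show (x : F) * y - 1 = x * ((y : F) - 1) + ((x : F) - 1) by ring]
    exact (Valuation.map_add _ _ _).trans (max_le (by rw [map_mul, hx1, one_mul]; exact hy) hx)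
  inv_mem' := by
    rintro x ⟨hx1, hx⟩
    refine ⟨by rw [Units.val_inv_eq_inv_val, map_inv₀, hx1, inv_one], ?_⟩
    rw [Units.val_inv_eq_inv_val,
      show (x : F)⁻¹ - 1 = (x : F)⁻¹ * -((x : F) - 1) by field_simp; ring]
    rw [map_mul, map_inv₀, hx1, inv_one, one_mul, Valuation.map_neg]
    exact hx

lemma mem_congrOne {n : ℕ} {x : Fˣ} : x ∈ congrOne v n ↔
    v.valuation F (x : F) = 1 ∧ v.valuation F ((x : F) - 1) ≤ exp (-(n : ℤ)) := Iff.rfl

lemma valuation_eq_one_of_close {x : F} {n : ℕ} (hn : n ≠ 0)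
    (h : v.valuation F (x - 1) ≤ exp (-(n : ℤ))) : v.valuation F x = 1 :=
  (Valuation.map_eq_of_sub_lt (v := v.valuation F) (x := 1) (h.trans_lt (by
    rw [map_one, ← exp_zero, exp_lt_exp]; omega))).trans (map_one _)

lemma mem_congrOne_of_close {n : ℕ} (hn : n ≠ 0) {x : Fˣ}
    (h : v.valuation F ((x : F) - 1) ≤ exp (-(n : ℤ))) : x ∈ congrOne v n :=
  ⟨valuation_eq_one_of_close v hn h, h⟩

lemma congrOne_antitone {m n : ℕ} (h : m ≤ n) : congrOne v n ≤ congrOne v m :=
  fun _ hx => ⟨hx.1, hx.2.trans (exp_le_exp.mpr (by omega))⟩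

lemma congrOne_le_unitsAt (n : ℕ) : congrOne v n ≤ unitsAt v := fun _ hx => hx.1

/-- The subgroup of local `p`-th powers. -/
def localPow (p : ℕ) : Subgroup Fˣ :=
  ⨅ n : ℕ, (powMonoidHom p : Fˣ →* Fˣ).range ⊔ congrOne v n

/-- The order of `p` at `v`. -/
noncomputable def ordP (p : ℕ) : ℕ := (-log (v.valuation F (p : F))).toNat

lemma valuation_natCast_eq {p : ℕ} (hp : p ≠ 0) :
    v.valuation F (p : F) = exp (-(ordP v p : ℤ)) := by
  have h0 : v.valuation F (p : F) ≠ 0 := by simpa using hp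
  have h1 : v.valuation F (p : F) ≤ 1 := by
    rw [← map_natCast (algebraMap (𝓞 F) F)]; exact v.valuation_le_one _
  rw [← exp_log h0, ← exp_zero, exp_le_exp] at h1
  conv_lhs => rw [← exp_log h0]
  rw [ordP]; congr 1; omega

lemma ordP_eq_zero {p : ℕ} (_hp : p ≠ 0) (h : v.valuation F (p : F) = 1) : ordP v p = 0 := by
  rw [ordP, h]; simp

lemma exists_one_add_pow {t : F} (ht : v.valuation F t ≤ 1) (k : ℕ) :
    ∃ r : F, v.valuation F r ≤ 1 ∧ (1 + t) ^ k = 1 + k * t + t ^ 2 * r := by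
  induction k with
  | zero => exact ⟨0, by simp, by simp⟩
  | succ k ih =>
    obtain ⟨r, hr, e⟩ := ih
    refine ⟨r * (1 + t) + k, ?_, by rw [pow_succ, e]; push_cast; ring⟩
    refine (Valuation.map_add _ _ _).trans (max_le ?_ ?_)
    · rw [map_mul]
      exact mul_le_one' hr ((Valuation.map_add _ _ _).trans (max_le (by simp) ht))
    · rw [← map_natCast (algebraMap (𝓞 F) F)]; exact v.valuation_le_one _

lemma congrOne_le_pow_sup {p : ℕ} (hp : p ≠ 0) {n : ℕ} (hn : 2 * ordP v p + 1 ≤ n) :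
    congrOne v n ≤ (powMonoidHom p : Fˣ →* Fˣ).range ⊔ congrOne v (n + 1) := by
  intro x hx
  have hp' : (p : F) ≠ 0 := by exact_mod_cast hp
  set t : F := ((x : F) - 1) / p with ht
  have hvt : v.valuation F t ≤ exp (-((n - ordP v p : ℕ) : ℤ)) := by
    rw [ht, map_div₀, valuation_natCast_eq v hp, div_le_iff₀ (exp_pos), ← exp_add]
    refine hx.2.trans (exp_le_exp.mpr ?_); omega
  have ht1 : v.valuation F t ≤ 1 := hvt.trans (by rw [← exp_zero, exp_le_exp]; omega)
  have h1t : v.valuation F (1 + t) = 1 := valuation_eq_one_of_close v (n := n - ordP v p) (by omega)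
    (by rw [add_sub_cancel_left]; exact hvt)
  obtain ⟨r, hr, e⟩ := exists_one_add_pow v ht1 p
  let u : Fˣ := Units.mk0 (1 + t) (fun h => by rw [h, map_zero] at h1t; exact zero_ne_one h1t)
  refine Subgroup.mem_sup.mpr ⟨u ^ p, ⟨u, rfl⟩, x / u ^ p, ?_, mul_div_cancel _ _⟩
  refine mem_congrOne_of_close v (Nat.succ_ne_zero _) ?_
  have hpt : (p : F) * t = (x : F) - 1 := by rw [ht]; field_simp
  have hne : (1 + t) ^ p ≠ 0 := pow_ne_zero _ u.ne_zero
  rw [Units.val_div_eq_div_val, Units.val_pow_eq_pow_val, Units.val_mk0, div_sub_one hne, map_div₀,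
    map_pow, h1t, one_pow, div_one, e, hpt,
    show (x : F) - (1 + ((x : F) - 1) + t ^ 2 * r) = -(t ^ 2 * r) by ring, Valuation.map_neg,
    map_mul, map_pow]
  calc v.valuation F t ^ 2 * v.valuation F r ≤ exp (-((n - ordP v p : ℕ) : ℤ)) ^ 2 * 1 :=
        mul_le_mul' (pow_le_pow_left' hvt 2) hr
    _ ≤ _ := by rw [mul_one, ← exp_nsmul, exp_le_exp, nsmul_eq_mul]; push_cast; omega

lemma congrOne_le_localPow {p : ℕ} (hp : p ≠ 0) :
    congrOne v (2 * ordP v p + 1) ≤ localPow v p := by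
  refine le_iInf fun n => ?_
  have : ∀ k : ℕ, congrOne v (2 * ordP v p + 1) ≤
      (powMonoidHom p : Fˣ →* Fˣ).range ⊔ congrOne v (2 * ordP v p + 1 + k) := by
    intro k
    induction k with
    | zero => exact le_sup_right
    | succ k ih =>
      refine ih.trans (sup_le le_sup_left ?_)
      exact congrOne_le_pow_sup v hp (by omega)
  exact (this n).trans (sup_le_sup_left (congrOne_antitone v (by omega)) _)

lemma range_pow_le_localPow (p : ℕ) : (powMonoidHom p : Fˣ →* Fˣ).range ≤ localPow v p :=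
  le_iInf fun _ => le_sup_left

lemma localPow_eq {p : ℕ} (hp : p ≠ 0) {n : ℕ} (hn : 2 * ordP v p + 1 ≤ n) :
    localPow v p = (powMonoidHom p : Fˣ →* Fˣ).range ⊔ congrOne v n :=
  le_antisymm (iInf_le _ n) (sup_le (range_pow_le_localPow v p)
    ((congrOne_antitone v hn).trans (congrOne_le_localPow v hp)))

lemma pow_mem_unitsAt_iff {p : ℕ} (hp : p ≠ 0) (x : Fˣ) : x ^ p ∈ unitsAt v ↔ x ∈ unitsAt v := by
  rw [mem_unitsAt, mem_unitsAt, Units.val_pow_eq_pow_val, map_pow,
    pow_eq_one_iff_of_nonneg zero_le hp]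

/-! ### Counting congruence classes -/

lemma exists_integral_approx {x : F} (hx : v.valuation F x ≤ 1) (n : ℕ) :
    ∃ a : 𝓞 F, v.valuation F (algebraMap (𝓞 F) F a - x) ≤ exp (-(n : ℤ)) := by
  obtain ⟨a, ha⟩ := HeightOneSpectrum.exists_valuation_sub_lt_of_integer (K := F) v hx
    (Units.mk0 (exp (-(n : ℤ))) exp_ne_zero)
  exact ⟨a, ha.le⟩

lemma mem_pow_iff_valuation {a : 𝓞 F} {n : ℕ} :
    a ∈ v.asIdeal ^ n ↔ v.valuation F (algebraMap (𝓞 F) F a) ≤ exp (-(n : ℤ)) := by
  rw [HeightOneSpectrum.valuation_of_algebraMap, HeightOneSpectrum.intValuation_le_pow_iff_mem]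

lemma congr_rel {n : ℕ} {x y : Fˣ} (hx : x ∈ unitsAt v) (hy : y ∈ unitsAt v) :
    x⁻¹ * y ∈ congrOne v n ↔ v.valuation F ((y : F) - x) ≤ exp (-(n : ℤ)) := by
  rw [mem_congrOne, Units.val_mul, Units.val_inv_eq_inv_val, map_mul, map_inv₀,
    show v.valuation F (x : F) = 1 from hx, show v.valuation F (y : F) = 1 from hy, inv_one,
    one_mul, show (x : F)⁻¹ * y - 1 = (x : F)⁻¹ * ((y : F) - x) by field_simp, map_mul, map_inv₀,
    show v.valuation F (x : F) = 1 from hx, inv_one, one_mul]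
  exact and_iff_right rfl

instance finite_congr_quotient (n : ℕ) :
    Finite (unitsAt v ⧸ (congrOne v n).subgroupOf (unitsAt v)) := by
  classical
  have : Finite (𝓞 F ⧸ v.asIdeal ^ n) :=
    Ideal.finiteQuotientOfFreeOfNeBot _ (pow_ne_zero _ v.ne_bot)
  choose a ha using fun x : unitsAt v => exists_integral_approx v (le_of_eq x.2) n
  refine Finite.of_injective (fun q => Ideal.Quotient.mk (v.asIdeal ^ n) (a q.out)) fun q q' h => ?_
  rw [← Quotient.out_eq q, ← Quotient.out_eq q']
  refine QuotientGroup.eq.mpr ?_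
  rw [Subgroup.mem_subgroupOf, Subgroup.coe_mul, Subgroup.coe_inv, congr_rel v q.out.2 q'.out.2]
  have h' := (mem_pow_iff_valuation v).mp (Ideal.Quotient.eq.mp h)
  rw [map_sub] at h'
  rw [show ((q'.out : Fˣ) : F) - (q.out : Fˣ) = (algebraMap (𝓞 F) F (a q.out) - (q.out : Fˣ))
    - (algebraMap (𝓞 F) F (a q'.out) - (q'.out : Fˣ))
    - (algebraMap (𝓞 F) F (a q.out) - algebraMap (𝓞 F) F (a q'.out)) by ring]
  exact (Valuation.map_sub _ _ _).trans (max_le ((Valuation.map_sub _ _ _).trans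
    (max_le (ha q.out) (ha q'.out))) h')

lemma relIndex_congrOne {k n : ℕ} (hk : k ≠ 0) (hkn : k ≤ n) :
    (congrOne v n).relIndex (congrOne v k) = Ideal.absNorm v.asIdeal ^ (n - k) := by
  classical
  have : Finite (𝓞 F ⧸ v.asIdeal ^ n) :=
    Ideal.finiteQuotientOfFreeOfNeBot _ (pow_ne_zero _ v.ne_bot)
  let f : (𝓞 F ⧸ v.asIdeal ^ n) →+* (𝓞 F ⧸ v.asIdeal ^ k) :=
    Ideal.Quotient.factor (Ideal.pow_le_pow_right hkn)
  have hf : Function.Surjective f := fun y => by
    obtain ⟨a, rfl⟩ := Ideal.Quotient.mk_surjective y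
    exact ⟨Ideal.Quotient.mk _ a, Ideal.Quotient.factor_mk _ a⟩
  have hker : Nat.card {z // f z = 1} = Ideal.absNorm v.asIdeal ^ (n - k) := by
    have h1 := AddSubgroup.card_mul_index (AddMonoidHom.ker f.toAddMonoidHom)
    erw [AddSubgroup.index_ker, AddMonoidHom.range_eq_top.mpr hf] at h1
    rw [AddSubgroup.card_top] at h1
    have hc : Nat.card {z // f z = 1} = Nat.card (AddMonoidHom.ker f.toAddMonoidHom) :=
      Nat.card_congr ⟨fun z => ⟨z.1 - 1, by simp [z.2]⟩,
        fun z => ⟨z.1 + 1, by rw [map_add, map_one, show f z.1 = 0 from z.2, zero_add]⟩,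
        fun z => by simp, fun z => by simp⟩
    have hq : ∀ m : ℕ, Nat.card (𝓞 F ⧸ v.asIdeal ^ m) = Ideal.absNorm v.asIdeal ^ m := fun m => by
      rw [← map_pow, Ideal.absNorm_apply]; rfl
    rw [hc]
    rw [hq, hq] at h1
    refine mul_right_cancel₀ (pow_ne_zero k
      (fun h => v.ne_bot (Ideal.absNorm_eq_zero_iff.mp h))) (h1.trans ?_)
    rw [← pow_add, Nat.sub_add_cancel hkn]
  rw [← hker, Subgroup.relIndex, Subgroup.index_eq_card]
  choose a ha using fun x : congrOne v k => exists_integral_approx v (le_of_eq x.2.1) n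
  symm
  refine (Nat.card_eq_of_bijective (fun q => (⟨Ideal.Quotient.mk _ (a q.out), ?_⟩ :
    {z // f z = 1})) ⟨fun q q' h => ?_, fun z => ?_⟩).symm
  · rw [Ideal.Quotient.factor_mk, ← map_one (Ideal.Quotient.mk (v.asIdeal ^ k)), Ideal.Quotient.eq,
      mem_pow_iff_valuation, map_sub, map_one,
      show algebraMap (𝓞 F) F (a q.out) - 1 = (algebraMap (𝓞 F) F (a q.out) - (q.out.1 : F))
        + ((q.out.1 : F) - 1) by ring]
    exact (Valuation.map_add _ _ _).trans
      (max_le ((ha _).trans (exp_le_exp.mpr (by omega))) q.out.2.2)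
  · rw [← Quotient.out_eq q, ← Quotient.out_eq q']
    refine QuotientGroup.eq.mpr ?_
    rw [Subgroup.mem_subgroupOf, Subgroup.coe_mul, Subgroup.coe_inv,
      congr_rel v (congrOne_le_unitsAt v k q.out.2) (congrOne_le_unitsAt v k q'.out.2)]
    have h' := (mem_pow_iff_valuation v).mp (Ideal.Quotient.eq.mp (congrArg Subtype.val h))
    rw [map_sub] at h'
    rw [show ((q'.out : Fˣ) : F) - (q.out : Fˣ) = (algebraMap (𝓞 F) F (a q.out) - (q.out : Fˣ))
      - (algebraMap (𝓞 F) F (a q'.out) - (q'.out : Fˣ))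
      - (algebraMap (𝓞 F) F (a q.out) - algebraMap (𝓞 F) F (a q'.out)) by ring]
    exact (Valuation.map_sub _ _ _).trans (max_le ((Valuation.map_sub _ _ _).trans
      (max_le (ha q.out) (ha q'.out))) h')
  · obtain ⟨b, hb⟩ := Ideal.Quotient.mk_surjective z.1
    have hz := z.2
    rw [← hb, Ideal.Quotient.factor_mk, ← map_one (Ideal.Quotient.mk (v.asIdeal ^ k)),
      Ideal.Quotient.eq, mem_pow_iff_valuation, map_sub, map_one] at hz
    have hb0 : algebraMap (𝓞 F) F b ≠ 0 := fun h0 => by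
      have := valuation_eq_one_of_close v hk hz
      rw [h0, map_zero] at this; exact zero_ne_one this
    let y : congrOne v k := ⟨Units.mk0 _ hb0, mem_congrOne_of_close v hk hz⟩
    refine ⟨(y : congrOne v k ⧸ (congrOne v n).subgroupOf (congrOne v k)), Subtype.ext ?_⟩
    rw [← hb]
    show Ideal.Quotient.mk _ (a _) = Ideal.Quotient.mk _ b
    set q := (y : congrOne v k ⧸ (congrOne v n).subgroupOf (congrOne v k)) with hqd
    have hrel : q.out⁻¹ * y ∈ (congrOne v n).subgroupOf (congrOne v k) :=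
      QuotientGroup.eq.mp (Quotient.out_eq q)
    rw [Subgroup.mem_subgroupOf, Subgroup.coe_mul, Subgroup.coe_inv,
      congr_rel v (congrOne_le_unitsAt v k q.out.2) (congrOne_le_unitsAt v k y.2)] at hrel
    rw [Ideal.Quotient.eq, mem_pow_iff_valuation, map_sub,
      show algebraMap (𝓞 F) F (a q.out) - algebraMap (𝓞 F) F b
        = (algebraMap (𝓞 F) F (a q.out) - (q.out.1 : F)) - (((y : Fˣ) : F) - (q.out.1 : F)) by
        simp only [y, Units.val_mk0]; ring]
    exact (Valuation.map_sub _ _ _).trans (max_le (ha _) hrel)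

variable {p : ℕ} {ζ : F}

/-- Near solutions of `x ^ p = 1` are near roots of unity. -/
lemma exists_near_root (hp : p.Prime) (hζ : IsPrimitiveRoot ζ p) {x : F} {n : ℕ}
    (hn : ordP v p ≤ n)
    (hx : v.valuation F (x ^ p - 1) ≤ exp (-(n : ℤ))) :
    ∃ i < p, v.valuation F (x - ζ ^ i) ≤ exp (-((n - ordP v p : ℕ) : ℤ)) ∨
      v.valuation F (x - ζ ^ i) = 0 := by
  classical
  obtain ⟨i, hi, hmin⟩ := Finset.exists_min_image (Finset.range p)
    (fun i => v.valuation F (x - ζ ^ i)) ⟨0, Finset.mem_range.mpr hp.pos⟩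
  refine ⟨i, Finset.mem_range.mp hi, ?_⟩
  have hprod : x ^ p - 1 = ∏ j ∈ Finset.range p, (x - ζ ^ j) := by
    have := congrArg (Polynomial.eval x) (X_pow_sub_C_eq_prod hζ hp.pos (one_pow p))
    simpa [Polynomial.eval_prod] using this
  rw [hprod, map_prod, ← Finset.mul_prod_erase _ _ hi] at hx
  have hsep : ∏ j ∈ (Finset.range p).erase i, v.valuation F (ζ ^ i - ζ ^ j) =
      v.valuation F (p : F) := by
    have hζ0 : v.valuation F ζ = 1 := by
      have := congrArg (v.valuation F) hζ.pow_eq_one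
      rwa [map_pow, map_one, pow_eq_one_iff_of_nonneg zero_le hp.ne_zero] at this
    obtain ⟨k, rfl⟩ : ∃ k, p = k + 1 := ⟨p - 1, by have := hp.pos; omega⟩
    have key := congrArg (v.valuation F) hζ.prod_one_sub_pow_eq_order
    rw [map_prod] at key
    push_cast
    rw [← key]
    refine Finset.prod_bij (fun j _ => (j + (k + 1) - i - 1) % (k + 1)) ?_ ?_ ?_ ?_
    · intro j hj
      simp only [Finset.mem_erase, Finset.mem_range] at hj ⊢
      have hi' := Finset.mem_range.mp hi
      rcases Nat.lt_or_ge j (i + 1) with h | h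
      · rw [Nat.mod_eq_of_lt (by omega)]; omega
      · rw [show j + (k + 1) - i - 1 = (j - i - 1) + (k + 1) by omega, Nat.add_mod_right,
          Nat.mod_eq_of_lt (by omega)]
        omega
    · intro a ha b hb h
      simp only [Finset.mem_erase, Finset.mem_range] at ha hb
      have hi' := Finset.mem_range.mp hi
      rcases Nat.lt_or_ge a (i + 1) with h1 | h1 <;> rcases Nat.lt_or_ge b (i + 1) with h2 | h2
      · rw [Nat.mod_eq_of_lt (by omega), Nat.mod_eq_of_lt (by omega)] at h; omega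
      · rw [Nat.mod_eq_of_lt (by omega), show b + (k + 1) - i - 1 = (b - i - 1) + (k + 1) by omega,
          Nat.add_mod_right, Nat.mod_eq_of_lt (by omega)] at h; omega
      · rw [show a + (k + 1) - i - 1 = (a - i - 1) + (k + 1) by omega, Nat.add_mod_right,
          Nat.mod_eq_of_lt (by omega), Nat.mod_eq_of_lt (by omega)] at h; omega
      · rw [show a + (k + 1) - i - 1 = (a - i - 1) + (k + 1) by omega,
          show b + (k + 1) - i - 1 = (b - i - 1) + (k + 1) by omega,
          Nat.add_mod_right, Nat.add_mod_right, Nat.mod_eq_of_lt (by omega),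
          Nat.mod_eq_of_lt (by omega)] at h; omega
    · intro c hc
      simp only [Finset.mem_range] at hc
      have hi' := Finset.mem_range.mp hi
      refine ⟨(i + c + 1) % (k + 1), ?_, ?_⟩
      · simp only [Finset.mem_erase, Finset.mem_range]
        refine ⟨?_, Nat.mod_lt _ (by omega)⟩
        rcases Nat.lt_or_ge (i + c + 1) (k + 1) with h | h
        · rw [Nat.mod_eq_of_lt h]; omega
        · rw [Nat.mod_eq_sub_mod h, Nat.mod_eq_of_lt (by omega)]; omega
      · rcases Nat.lt_or_ge (i + c + 1) (k + 1) with h | h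
        · rw [Nat.mod_eq_of_lt h, show i + c + 1 + (k + 1) - i - 1 = c + (k + 1) by omega,
            Nat.add_mod_right, Nat.mod_eq_of_lt (by omega)]
        · rw [Nat.mod_eq_sub_mod h, Nat.mod_eq_of_lt (by omega : i + c + 1 - (k + 1) < k + 1),
            show i + c + 1 - (k + 1) + (k + 1) - i - 1 = c by omega, Nat.mod_eq_of_lt (by omega)]
    · intro j hj
      simp only [Finset.mem_erase, Finset.mem_range] at hj
      have hi' := Finset.mem_range.mp hi
      have : ζ ^ i * ζ ^ ((j + (k + 1) - i - 1) % (k + 1) + 1) = ζ ^ j := by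
        rw [← pow_add, ← pow_mod_orderOf ζ (i + _), ← hζ.eq_orderOf]
        congr 1
        rw [Nat.add_comm ((j + (k + 1) - i - 1) % (k + 1)) 1, ← Nat.add_assoc, Nat.add_mod_mod,
          show i + 1 + (j + (k + 1) - i - 1) = j + (k + 1) by omega, Nat.add_mod_right,
          Nat.mod_eq_of_lt hj.2]
      rw [← this, show ζ ^ i - ζ ^ i * ζ ^ ((j + (k + 1) - i - 1) % (k + 1) + 1)
        = ζ ^ i * (1 - ζ ^ ((j + (k + 1) - i - 1) % (k + 1) + 1)) by ring, map_mul, map_pow, hζ0,
        one_pow, one_mul]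
  have hle : v.valuation F (p : F) ≤ ∏ j ∈ (Finset.range p).erase i, v.valuation F (x - ζ ^ j) := by
    rw [← hsep]
    refine Finset.prod_le_prod' fun j hj => ?_
    rw [show ζ ^ i - ζ ^ j = (x - ζ ^ j) - (x - ζ ^ i) by ring]
    exact (Valuation.map_sub _ _ _).trans (max_le le_rfl (hmin j (Finset.mem_of_mem_erase hj)))
  rcases eq_or_ne (v.valuation F (x - ζ ^ i)) 0 with h0 | h0
  · exact .inr h0
  left
  rw [valuation_natCast_eq v hp.ne_zero] at hle
  have h2 := (mul_le_mul' le_rfl hle).trans hx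
  rw [← exp_log h0, ← exp_add, exp_le_exp] at h2
  rw [← exp_log h0, exp_le_exp]
  omega

lemma exists_near_root' (hp : p.Prime) (hζ : IsPrimitiveRoot ζ p) {x : F} {n : ℕ}
    (hn : ordP v p ≤ n)
    (hx : v.valuation F (x ^ p - 1) ≤ exp (-(n : ℤ))) :
    ∃ i < p, v.valuation F (x - ζ ^ i) ≤ exp (-((n - ordP v p : ℕ) : ℤ)) := by
  obtain ⟨i, hi, h | h⟩ := exists_near_root v hp hζ hn hx
  · exact ⟨i, hi, h⟩
  · exact ⟨i, hi, h ▸ zero_le⟩

lemma one_sub_pow_valuation (hp : p.Prime) (hζ : IsPrimitiveRoot ζ p) {i : ℕ} (hi : i ≠ 0)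
    (hip : i < p) : exp (-(ordP v p : ℤ)) ≤ v.valuation F (1 - ζ ^ i) := by
  classical
  rw [← valuation_natCast_eq v hp.ne_zero]
  obtain ⟨k, rfl⟩ : ∃ k, p = k + 1 := ⟨p - 1, by have := hp.pos; omega⟩
  have key := congrArg (v.valuation F) hζ.prod_one_sub_pow_eq_order
  rw [map_prod] at key
  push_cast
  rw [← key, ← Finset.mul_prod_erase _ _ (Finset.mem_range.mpr (show i - 1 < k by omega)),
    Nat.sub_add_cancel (Nat.one_le_iff_ne_zero.mpr hi)]
  refine mul_le_of_le_one_right' (Finset.prod_le_one' fun j _ => ?_)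
  have : ζ ∈ Set.range (algebraMap (𝓞 F) F) :=
    ⟨⟨ζ, hζ.isIntegral k.succ_pos⟩, rfl⟩
  obtain ⟨z, hz⟩ := this
  rw [← hz, ← map_pow, ← map_one (algebraMap (𝓞 F) F), ← map_sub]
  exact v.valuation_le_one _

/-- The index of the local `p`-th powers among units at `v`. -/
lemma relIndex_pow_sup_congr (hp : p.Prime) (hζ : IsPrimitiveRoot ζ p) :
    ((powMonoidHom p : Fˣ →* Fˣ).range ⊔ congrOne v (2 * ordP v p + 1)).relIndex
      (unitsAt v ⊔ ((powMonoidHom p : Fˣ →* Fˣ).range ⊔ congrOne v (2 * ordP v p + 1))) =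
      p * Ideal.absNorm v.asIdeal ^ ordP v p := by
  set n := 2 * ordP v p + 1 with hn
  set U := unitsAt v with hU
  set C := congrOne v n with hC
  rw [Subgroup.relIndex_sup_right]
  -- quotient group and the `p`-power map
  let G := U ⧸ C.subgroupOf U
  let π : U →* G := QuotientGroup.mk' _
  let : CommGroup G := QuotientGroup.Quotient.commGroup _
  let φ : G →* G := powMonoidHom p
  have h1 : ((powMonoidHom p : Fˣ →* Fˣ).range ⊔ C).subgroupOf U = φ.range.comap π := by
    ext u
    rw [Subgroup.mem_subgroupOf, Subgroup.mem_comap, Subgroup.mem_sup]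
    constructor
    · rintro ⟨_, ⟨y, rfl⟩, c, hc, e⟩
      have hy : y ∈ U := by
        have hyp : y ^ p = (u : Fˣ) * c⁻¹ := by rw [← e]; simp
        exact (pow_mem_unitsAt_iff v hp.ne_zero y).mp
          (hyp ▸ U.mul_mem u.2 (U.inv_mem (congrOne_le_unitsAt v n hc)))
      refine ⟨π ⟨y, hy⟩, ?_⟩
      show π ⟨y, hy⟩ ^ p = π u
      rw [← map_pow]
      refine QuotientGroup.eq.mpr ?_
      rw [Subgroup.mem_subgroupOf]
      show (y ^ p)⁻¹ * (u : Fˣ) ∈ C
      rw [← e]; simpa using hc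
    · rintro ⟨g, hg⟩
      obtain ⟨y, rfl⟩ := QuotientGroup.mk'_surjective _ g
      have hg' : π (y ^ p) = π u := (map_pow π y p).trans hg
      have hmem := QuotientGroup.eq.mp hg'
      rw [Subgroup.mem_subgroupOf] at hmem
      exact ⟨(y : Fˣ) ^ p, ⟨y, rfl⟩, _, hmem, by simp⟩
  have h2 : ((powMonoidHom p : Fˣ →* Fˣ).range ⊔ C).relIndex U = φ.range.index := by
    rw [Subgroup.relIndex, h1, Subgroup.index_comap_of_surjective _
      (QuotientGroup.mk'_surjective _)]
  have h3 : φ.range.index = Nat.card φ.ker := by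
    have e1 := Subgroup.card_mul_index φ.ker
    have e2 := Subgroup.card_mul_index φ.range
    rw [Subgroup.index_ker] at e1
    have : 0 < Nat.card φ.range := Nat.card_pos
    nlinarith
  rw [h2, h3]
  -- the kernel: roots of unity times a congruence subgroup
  have hζ1 : v.valuation F ζ = 1 := by
    have := congrArg (v.valuation F) hζ.pow_eq_one
    rwa [map_pow, map_one, pow_eq_one_iff_of_nonneg zero_le hp.ne_zero] at this
  let z : U := ⟨(hζ.isUnit hp.ne_zero).unit, hζ1⟩
  have hzp : z ^ p = 1 := Subtype.ext (Units.ext hζ.pow_eq_one)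
  let C' : Subgroup G := ((congrOne v (ordP v p + 1)).subgroupOf U).map π
  have hC'ker : C' ≤ φ.ker := by
    rintro _ ⟨y, hy, rfl⟩
    show π y ^ p = 1
    rw [← map_pow]
    refine (QuotientGroup.eq_one_iff _).mpr ?_
    rw [Subgroup.mem_subgroupOf]
    rw [SetLike.mem_coe, Subgroup.mem_subgroupOf] at hy
    obtain ⟨r, hr, e⟩ := exists_one_add_pow v
      (t := ((y : Fˣ) : F) - 1) (hy.2.trans (by rw [← exp_zero, exp_le_exp]; omega)) p
    refine mem_congrOne_of_close v (by omega) ?_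
    rw [add_sub_cancel] at e
    show v.valuation F (((y : Fˣ) : F) ^ p - 1) ≤ _
    rw [e, show (1 : F) + p * ((y : Fˣ) - 1) + (((y : Fˣ) : F) - 1) ^ 2 * r - 1
      = p * ((y : Fˣ) - 1) + (((y : Fˣ) : F) - 1) ^ 2 * r by ring]
    refine (Valuation.map_add _ _ _).trans (max_le ?_ ?_)
    · rw [map_mul, valuation_natCast_eq v hp.ne_zero]
      calc exp (-(ordP v p : ℤ)) * v.valuation F (((y : Fˣ) : F) - 1)
          ≤ exp (-(ordP v p : ℤ)) * exp (-((ordP v p + 1 : ℕ) : ℤ)) := mul_le_mul' le_rfl hy.2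
        _ ≤ _ := by rw [← exp_add, exp_le_exp]; omega
    · rw [map_mul, map_pow]
      calc v.valuation F (((y : Fˣ) : F) - 1) ^ 2 * v.valuation F r
          ≤ exp (-((ordP v p + 1 : ℕ) : ℤ)) ^ 2 * 1 := mul_le_mul' (pow_le_pow_left' hy.2 2) hr
        _ ≤ _ := by rw [mul_one, ← exp_nsmul, exp_le_exp, nsmul_eq_mul]; push_cast; omega
  have hcardC : Nat.card C' = Ideal.absNorm v.asIdeal ^ ordP v p := by
    rw [show C' = ((congrOne v (ordP v p + 1)).subgroupOf U).map π from rfl,
      ← Subgroup.relIndex_bot_left, ← Subgroup.map_bot π, Subgroup.relIndex_map_map, bot_sup_eq,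
      QuotientGroup.ker_mk', Subgroup.relIndex_sup_right,
      Subgroup.relIndex_subgroupOf (congrOne_le_unitsAt v _), hC,
      relIndex_congrOne v (by omega) (by omega)]
    congr 1; omega
  -- `φ.ker = C' × ⟨π z⟩`
  have hker : Function.Bijective (fun q : Fin p × C' => (⟨π z ^ (q.1 : ℕ) * q.2.1,
      Subgroup.mul_mem _ (Subgroup.pow_mem _ (show π z ^ p = 1 by rw [← map_pow, hzp, map_one]) _)
        (hC'ker q.2.2)⟩ : φ.ker)) := by
    constructor
    · rintro ⟨i, c⟩ ⟨j, d⟩ h
      have h' : π z ^ (i : ℕ) * c.1 = π z ^ (j : ℕ) * d.1 := congrArg Subtype.val h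
      wlog hij : (i : ℕ) ≤ j generalizing i j c d
      · exact (this j d i c h.symm h'.symm (le_of_not_ge hij)).symm
      have hmem : π z ^ ((j : ℕ) - i) ∈ C' := by
        have : π z ^ ((j : ℕ) - i) = c.1 * d.1⁻¹ := by
          rw [← Nat.sub_add_cancel hij, pow_add, mul_comm (π z ^ ((j : ℕ) - i)), mul_assoc] at h'
          rw [mul_left_cancel h']; simp
        rw [this]; exact C'.mul_mem c.2 (C'.inv_mem d.2)
      have hsub : (j : ℕ) - i = 0 := by
        by_contra hne
        obtain ⟨y, hy, e⟩ := hmem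
        rw [← map_pow] at e
        have hzmem : (z : Fˣ) ^ ((j : ℕ) - i) ∈ congrOne v (ordP v p + 1) := by
          have h1 := QuotientGroup.eq.mp e
          rw [SetLike.mem_coe, Subgroup.mem_subgroupOf] at hy
          rw [Subgroup.mem_subgroupOf] at h1
          have h2 := (congrOne v (ordP v p + 1)).mul_mem hy (congrOne_antitone v (by omega) h1)
          simpa using h2
        have h2 := hzmem.2
        rw [Units.val_pow_eq_pow_val, Valuation.map_sub_swap] at h2
        have h3 := (one_sub_pow_valuation v hp hζ hne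
          (lt_of_le_of_lt (Nat.sub_le _ _) j.2)).trans h2
        rw [exp_le_exp] at h3
        omega
      have hij' : i = j := Fin.ext (by omega)
      subst hij'
      exact Prod.ext rfl (Subtype.ext (mul_left_cancel h'))
    · rintro ⟨g, hg⟩
      obtain ⟨y, rfl⟩ := QuotientGroup.mk'_surjective _ g
      have hy : π y ^ p = 1 := hg
      rw [← map_pow] at hy
      have hy' := (QuotientGroup.eq_one_iff _).mp hy
      rw [Subgroup.mem_subgroupOf] at hy'
      obtain ⟨i, hi, hclose⟩ :=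
        exists_near_root' v hp hζ (x := ((y : Fˣ) : F)) (n := n) (by omega) hy'.2
      have hw : (z ^ i)⁻¹ * y ∈ (congrOne v (ordP v p + 1)).subgroupOf U := by
        rw [Subgroup.mem_subgroupOf, Subgroup.coe_mul, Subgroup.coe_inv,
          congr_rel v (z ^ i).2 y.2]
        exact hclose.trans (exp_le_exp.mpr (by omega))
      refine ⟨(⟨i, hi⟩, ⟨π ((z ^ i)⁻¹ * y), _, hw, rfl⟩), Subtype.ext ?_⟩
      show π z ^ i * π ((z ^ i)⁻¹ * y) = π y
      rw [← map_pow, ← map_mul, mul_inv_cancel_left]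
  rw [← Nat.card_eq_of_bijective _ hker, Nat.card_prod, Nat.card_fin, hcardC]

/-- `Kˣ / localPow` has order `p ^ 2 * N(v) ^ ord_v(p)`. -/
theorem index_localPow (hp : p.Prime) (hζ : IsPrimitiveRoot ζ p) :
    (localPow v p).index = p * (p * Ideal.absNorm v.asIdeal ^ ordP v p) := by
  classical
  set n := 2 * ordP v p + 1
  rw [localPow_eq v hp.ne_zero le_rfl]
  set P := (powMonoidHom p : Fˣ →* Fˣ).range ⊔ congrOne v n with hP
  rw [← Subgroup.relIndex_mul_index (le_sup_right : P ≤ unitsAt v ⊔ P),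
    relIndex_pow_sup_congr v hp hζ, mul_comm]
  congr 1
  -- the valuation modulo `p`
  let o : Fˣ →* Multiplicative (ZMod p) :=
    { toFun := fun x => Multiplicative.ofAdd (((log (v.valuation F (x : F))) : ℤ) : ZMod p)
      map_one' := by simp
      map_mul' := fun x y => by
        rw [Units.val_mul, map_mul, log_mul (by simp) (by simp), Int.cast_add, ofAdd_add] }
  have hker : unitsAt v ⊔ P = o.ker := by
    apply le_antisymm
    · refine sup_le (fun x hx => ?_) (sup_le ?_ fun x hx => ?_)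
      · simp [o, show v.valuation F (x : F) = 1 from hx]
      · rintro _ ⟨y, rfl⟩
        simp [o]
      · simp [o, hx.1]
    · intro x hx
      have hx' : ((log (v.valuation F (x : F)) : ℤ) : ZMod p) = 0 := ofAdd_eq_one.mp hx
      obtain ⟨k, hk⟩ := (ZMod.intCast_zmod_eq_zero_iff_dvd _ _).mp hx'
      obtain ⟨π, hπ⟩ := exists_uniformizer_unit v
      have : x * ((π ^ k) ^ (p : ℕ)) ∈ unitsAt v := by
        rw [mem_unitsAt, Units.val_mul, Units.val_pow_eq_pow_val, Units.val_zpow_eq_zpow_val,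
          map_mul, map_pow, map_zpow₀, hπ, ← exp_zsmul, ← exp_nsmul,
          ← exp_log (show v.valuation F (x : F) ≠ 0 by simp), hk, ← exp_add, ← exp_zero]
        congr 1; simp
      have e : x = (x * (π ^ k) ^ (p : ℕ)) * ((π ^ k)⁻¹) ^ (p : ℕ) := by
        rw [mul_assoc, ← mul_pow, mul_inv_cancel, one_pow, mul_one]
      rw [e]
      exact Subgroup.mul_mem_sup this (Subgroup.mem_sup_left ⟨_, rfl⟩)
  have hsurj : Function.Surjective o := by
    intro c
    obtain ⟨π, hπ⟩ := exists_uniformizer_unit v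
    obtain ⟨k, hk⟩ := ZMod.intCast_surjective (Multiplicative.toAdd c)
    refine ⟨π ^ (-k), Multiplicative.toAdd.injective ?_⟩
    rw [← hk]
    simp [o, hπ]
  rw [hker, Subgroup.index_ker, MonoidHom.range_eq_top.mpr hsurj, Subgroup.card_top,
    Nat.card_eq_of_bijective _ (Multiplicative.toAdd (α := ZMod p)).bijective, Nat.card_zmod]

end Fermat.Agent.Duality.Global
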