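import Fermat.Agent.Duality.Places.LocalPow
import Fermat.Agent.Duality.Local.NormIndex
import Fermat.Agent.Duality.Global.Kummer

/-!
# Local norms, without completions, and their nontriviality at non-split places

`localNorm L v` is the set of `x : Kˣ` which are norms from `L` modulo every congruence subgroup
at `v`.
-/

set_option autoImplicit false

open IsDedekindDomain NumberField WithZero Module IntermediateField

namespace Fermat.Agent.Duality.Global

variable {K L : Type} [Field K] [NumberField K] [Field L] [NumberField L] [Algebra K L]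
  [IsGalois K L] {p : ℕ} {ζ : K}

variable (L) in
/-- The subgroup of local norms. -/
noncomputable def localNorm (v : HeightOneSpectrum (𝓞 K)) : Subgroup Kˣ :=
  ⨅ n : ℕ, (normHom (K := K) (L := L)).range ⊔ congrOne v n

omit [NumberField L] [IsGalois K L] in
lemma normHom_mem_localNorm (y : Lˣ) (v : HeightOneSpectrum (𝓞 K)) :
    normHom (K := K) y ∈ localNorm L v :=
  Subgroup.mem_iInf.mpr fun _ => Subgroup.mem_sup_left ⟨y, rfl⟩

/-- Local norms, spelled out. -/
lemma mem_localNorm_iff {v : HeightOneSpectrum (𝓞 K)} {x : Kˣ} :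
    x ∈ localNorm L v ↔ ∀ n : ℕ, ∃ y : Lˣ,
      v.valuation K ((x : K) / Algebra.norm K (y : L) - 1) ≤ exp (-(n : ℤ)) := by
  rw [localNorm, Subgroup.mem_iInf]
  constructor
  · intro h n
    obtain ⟨_, ⟨y, rfl⟩, c, hc, e⟩ := Subgroup.mem_sup.mp (h n)
    refine ⟨y, ?_⟩
    rw [← e, Units.val_mul, coe_normHom, mul_div_cancel_left₀ _ (by simp)]
    exact hc.2
  · intro h n
    obtain ⟨y, hy⟩ := h (n + 1)
    refine Subgroup.mem_sup.mpr ⟨normHom y, ⟨y, rfl⟩, x / normHom y,
      congrOne_antitone v n.le_succ (mem_congrOne_of_close v n.succ_ne_zero ?_), mul_div_cancel _ _⟩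
    rwa [Units.val_div_eq_div_val, coe_normHom]

lemma localPow_le_localNorm (hdeg : finrank K L = p) (v : HeightOneSpectrum (𝓞 K)) :
    localPow v p ≤ localNorm L v := by
  refine iInf_mono fun n => sup_le_sup_right ?_ _
  rintro _ ⟨y, rfl⟩
  refine ⟨Units.map (algebraMap K L).toMonoidHom y, Units.ext ?_⟩
  show Algebra.norm K (algebraMap K L (y : K)) = _
  rw [Algebra.norm_algebraMap, hdeg, powMonoidHom_apply, Units.val_pow_eq_pow_val]

/-- At a place which does not split, not everything is a local norm. -/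
theorem localNorm_ne_top (hp : p.Prime) (hdeg : finrank K L = p) (hζ : IsPrimitiveRoot ζ p)
    {v : HeightOneSpectrum (𝓞 K)} (hs : ¬ IsSplit L v) : localNorm L v ≠ ⊤ := by
  classical
  obtain ⟨a, α, hα, hαK⟩ := exists_kummer_generator (L := L) hp hdeg hζ
  obtain ⟨q, hq, hqv⟩ := Places.exists_prime_natCast_mem v
  have := Fact.mk hq
  obtain ⟨τ₀, rfl⟩ := Places.exists_placeOf_eq q v hqv
  let : Algebra K (PadicAlgCl q) := τ₀.toRingHom.toAlgebra
  let τ' : L →ₐ[K] PadicAlgCl q := IsAlgClosed.lift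
  let τ : L →ₐ[ℚ] PadicAlgCl q := τ'.toRingHom.toRatAlgHom
  have hτ : τ.comp (IsScalarTower.toAlgHom ℚ K L) = τ₀ := AlgHom.ext fun x => τ'.commutes x
  have hτK : ∀ x : K, τ (algebraMap K L x) = τ₀ x := fun x => τ'.commutes x
  set F := locField q τ₀ with hF
  set M₀ := locField q τ with hM₀
  have hFM : F ≤ M₀ := by
    rw [hF, locField, adjoin_le_iff]
    rintro _ ⟨x, rfl⟩
    exact hτK x ▸ Places.mem_locField q τ _
  have hnle : ¬ M₀ ≤ F := fun hle => hs (isSplit_of_mem_localPow hp hdeg hζ hα hαK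
    ((Places.mem_localPow_placeOf_iff q hp τ₀ a).mpr ⟨τ α, hle (Places.mem_locField q τ α),
      by rw [← map_pow, hα, hτK]⟩))
  -- local automorphisms
  choose g hgF hg using Places.exists_local_aut q (hdeg ▸ hp : (finrank K L).Prime) τ
    (by rw [hτ]; exact hnle)
  rw [hτ] at hgF
  have hfd : FiniteDimensional ℚ_[q] F := by
    obtain ⟨b, hb⟩ := Field.exists_primitive_element ℚ K
    have hF' : F = ℚ_[q]⟮τ₀ b⟯ := by
      refine le_antisymm ?_ (adjoin_simple_le_iff.mpr (Places.mem_locField q τ₀ b))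
      rw [hF, locField, adjoin_le_iff]
      rintro _ ⟨x, rfl⟩
      have hle : ℚ⟮b⟯ ≤ ((ℚ_[q]⟮τ₀ b⟯).restrictScalars ℚ).comap τ₀ :=
        adjoin_simple_le_iff.mpr (mem_adjoin_simple_self ℚ_[q] (τ₀ b))
      exact hle (hb ▸ mem_top)
    rw [hF']
    exact adjoin.finiteDimensional (Algebra.IsAlgebraic.isAlgebraic _).isIntegral
  set M : IntermediateField F (PadicAlgCl q) := extendScalars hFM with hM
  have hmemM : ∀ {m : PadicAlgCl q}, m ∈ M ↔ m ∈ M₀ := Iff.rfl
  have hfdM₀ : FiniteDimensional ℚ_[q] M₀ := by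
    obtain ⟨b, hb⟩ := Field.exists_primitive_element ℚ L
    have hM' : M₀ = ℚ_[q]⟮τ b⟯ := by
      refine le_antisymm ?_ (adjoin_simple_le_iff.mpr (Places.mem_locField q τ b))
      rw [hM₀, locField, adjoin_le_iff]
      rintro _ ⟨x, rfl⟩
      have hle : ℚ⟮b⟯ ≤ ((ℚ_[q]⟮τ b⟯).restrictScalars ℚ).comap τ :=
        adjoin_simple_le_iff.mpr (mem_adjoin_simple_self ℚ_[q] (τ b))
      exact hle (hb ▸ mem_top)
    rw [hM']
    exact adjoin.finiteDimensional (Algebra.IsAlgebraic.isAlgebraic _).isIntegral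
  have : FiniteDimensional F M := by
    have : FiniteDimensional ℚ_[q] M := hfdM₀
    exact FiniteDimensional.right ℚ_[q] F M
  -- the automorphisms of `M / F`
  have hext : ∀ (s s' : M →ₐ[F] PadicAlgCl q), (∀ y : L, s ⟨τ y, Places.mem_locField q τ y⟩ =
      s' ⟨τ y, Places.mem_locField q τ y⟩) → s = s' := by
    intro s s' h
    refine AlgHom.ext fun m => ?_
    obtain ⟨m, hm⟩ := m
    refine IntermediateField.adjoin_induction (F := ℚ_[q]) (s := Set.range τ)
      (p := fun x hx => s ⟨x, hx⟩ = s' ⟨x, hx⟩) ?_ ?_ ?_ ?_ ?_ hm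
    · rintro _ ⟨y, rfl⟩; exact h y
    · intro c
      exact (s.commutes ⟨algebraMap _ _ c, F.algebraMap_mem c⟩).trans
        (s'.commutes ⟨algebraMap _ _ c, F.algebraMap_mem c⟩).symm
    · intro x y hx hy e1 e2
      show s ((⟨x, hx⟩ : M) + ⟨y, hy⟩) = s' ((⟨x, hx⟩ : M) + ⟨y, hy⟩)
      rw [map_add, map_add, e1, e2]
    · intro x hx e1
      show s (⟨x, hx⟩ : M)⁻¹ = s' (⟨x, hx⟩ : M)⁻¹
      rw [map_inv₀, map_inv₀, e1]
    · intro x y hx hy e1 e2
      show s ((⟨x, hx⟩ : M) * ⟨y, hy⟩) = s' ((⟨x, hx⟩ : M) * ⟨y, hy⟩)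
      rw [map_mul, map_mul, e1, e2]
  have hconj : ∀ s : M →ₐ[F] PadicAlgCl q,
      ∃ σ : L ≃ₐ[K] L, ∀ y : L, s ⟨τ y, Places.mem_locField q τ y⟩ = τ (σ y) := by
    intro s
    refine Places.exists_aut_comp_eq (K := K) q τ
      ((s.toRingHom.comp
        (τ.toRingHom.codRestrict M fun y => Places.mem_locField q τ y)).toRatAlgHom)
      fun x => ?_
    show s ⟨τ (algebraMap K L x), _⟩ = _
    exact (s.commutes ⟨τ (algebraMap K L x), hτK x ▸ Places.mem_locField q τ₀ x⟩)
  have : Normal F (PadicAlgCl q) := by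
    have : IsAlgClosure F (PadicAlgCl q) :=
      ⟨inferInstance, Algebra.IsAlgebraic.tower_top (K := ℚ_[q]) F⟩
    exact IsAlgClosure.normal F (PadicAlgCl q)
  have : Normal F M := normal_iff_forall_fieldRange_le.mpr fun s => by
    obtain ⟨σ, hσ⟩ := hconj s
    obtain ⟨s', rfl⟩ : ∃ s' : PadicAlgCl q ≃ₐ[F] PadicAlgCl q, s'.toAlgHom.comp M.val = s :=
      ⟨AlgEquiv.ofBijective (s.liftNormal (PadicAlgCl q)) (AlgHom.normal_bijective F _ _ _),
        AlgHom.ext fun m => s.liftNormal_commutes (PadicAlgCl q) m⟩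
    rintro _ ⟨m, rfl⟩
    obtain ⟨m, hm⟩ := m
    show s' m ∈ M
    refine IntermediateField.adjoin_induction (F := ℚ_[q]) (s := Set.range τ)
      (p := fun x _ => s' x ∈ M) ?_ ?_ ?_ ?_ ?_ hm
    · rintro _ ⟨y, rfl⟩
      rw [show s' (τ y) = τ (σ y) from hσ y]
      exact Places.mem_locField q τ _
    · intro c
      rw [show s' (algebraMap ℚ_[q] _ c) = algebraMap ℚ_[q] _ c from
        s'.commutes ⟨algebraMap _ _ c, F.algebraMap_mem c⟩]
      exact hFM (F.algebraMap_mem c)
    · intro x y _ _ e1 e2; rw [map_add]; exact add_mem e1 e2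
    · intro x _ e1; rw [map_inv₀]; exact inv_mem e1
    · intro x y _ _ e1 e2; rw [map_mul]; exact mul_mem e1 e2
  have : IsGalois F M := { }
  let R : (L ≃ₐ[K] L) → (M ≃ₐ[F] M) := fun σ =>
    (fixingSubgroupEquiv F ⟨g σ, hgF σ⟩).restrictNormal M
  have hR : ∀ σ y, ((R σ ⟨τ y, Places.mem_locField q τ y⟩ : M) : PadicAlgCl q) = τ (σ y) :=
    fun σ y => (AlgEquiv.restrictNormal_commutes (fixingSubgroupEquiv F ⟨g σ, hgF σ⟩) M _).trans
      (hg σ y)
  have hRbij : Function.Bijective R := by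
    refine ⟨fun σ σ' h => AlgEquiv.ext fun y => τ.toRingHom.injective ?_, fun s => ?_⟩
    · show τ (σ y) = τ (σ' y)
      rw [← hR, ← hR, h]
    · obtain ⟨σ, hσ⟩ := hconj (M.val.comp s.toAlgHom)
      refine ⟨σ, AlgEquiv.ext fun m => Subtype.ext ?_⟩
      exact AlgHom.congr_fun (hext (M.val.comp (R σ).toAlgHom) (M.val.comp s.toAlgHom)
        fun y => (hR σ y).trans (hσ y).symm) m
  have hcard : Nat.card (M ≃ₐ[F] M) = p := by
    rw [← Nat.card_eq_of_bijective R hRbij, natCard_aut, hdeg]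
  have hfr : finrank F M = p := by rw [← IsGalois.card_aut_eq_finrank, hcard]
  -- the norm index
  let : NormedAlgebra F M :=
    { (inferInstance : Algebra F M) with
      norm_smul_le := fun r x => (norm_mul ((r : F) : PadicAlgCl q) (x : PadicAlgCl q)).le }
  have : ProperSpace F := FiniteDimensional.proper ℚ_[q] F
  obtain ⟨σ, hσ⟩ := exists_ne_one hp hdeg (L := L)
  have hgen : Subgroup.zpowers (R σ) = ⊤ := by
    have := Fact.mk hp
    refine (Subgroup.eq_top_iff' _).mpr fun s => mem_zpowers_of_prime_card hcard ?_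
    intro h
    refine hσ (AlgEquiv.ext fun y => τ.toRingHom.injective ?_)
    show τ (σ y) = τ y
    rw [← hR, h]; rfl
  have hidx := Local.index_range_norm F M (R σ) hgen
  rw [hfr] at hidx
  intro htop
  refine hp.ne_one
    (hidx.symm.trans (Subgroup.index_eq_one.mpr ((Subgroup.eq_top_iff' _).mpr fun z => ?_)))
  have hsmul : ∀ c : F, Algebra.norm F (algebraMap F M c) = c ^ p := fun c => by
    rw [Algebra.norm_algebraMap, hfr]
  have hnorm : ∀ y : L,
      ((Algebra.norm F (⟨τ y, Places.mem_locField q τ y⟩ : M) : F) : PadicAlgCl q) =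
      τ₀ (Algebra.norm K y) := by
    intro y
    have h1 := congrArg Subtype.val
      (Algebra.norm_eq_prod_automorphisms F (⟨τ y, Places.mem_locField q τ y⟩ : M))
    refine h1.trans ?_
    rw [← hτK, Algebra.norm_eq_prod_automorphisms, map_prod, ← Function.Bijective.prod_comp hRbij
      (fun s : M ≃ₐ[F] M => s _), IntermediateField.coe_prod]
    exact Finset.prod_congr rfl fun s _ => hR s y
  obtain ⟨x, w, hw, hzw⟩ := Places.exists_mul_pow_eq q hp τ₀ (z := ((z : F) : PadicAlgCl q))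
    (z : F).2 (fun h => z.ne_zero (Subtype.ext h))
  have hx : x ∈ localNorm L (Places.placeOf q τ₀) := htop ▸ Subgroup.mem_top x
  obtain ⟨_, ⟨y, rfl⟩, c, hc, e⟩ := Subgroup.mem_sup.mp
    (Subgroup.mem_iInf.mp hx (2 * ordP (Places.placeOf q τ₀) p + 1))
  obtain ⟨u, hu, hup⟩ := (Places.mem_localPow_placeOf_iff q hp τ₀ c).mp
    (congrOne_le_localPow _ hp.ne_zero hc)
  have hne :
      (⟨τ (y : L), Places.mem_locField q τ _⟩ : M) * algebraMap F M (⟨u, hu⟩ * ⟨w, hw⟩) ≠ 0 := by
    intro h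
    have h' := congrArg (Algebra.norm F) h
    rw [map_mul, Algebra.norm_zero, hsmul] at h'
    have h'' := congrArg Subtype.val h'
    simp only [IntermediateField.coe_mul, ZeroMemClass.coe_zero, SubmonoidClass.coe_pow,
      hnorm] at h''
    rw [mul_pow, hup, ← mul_assoc, ← map_mul, ← coe_normHom, ← Units.val_mul, e, ← hzw] at h''
    exact z.ne_zero (Subtype.ext h'')
  refine ⟨Units.mk0 _ hne, Units.ext (Subtype.ext ?_)⟩
  show ((Algebra.norm F ((⟨τ (y : L), Places.mem_locField q τ _⟩ : M) *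
    algebraMap F M (⟨u, hu⟩ * ⟨w, hw⟩)) : F) : PadicAlgCl q) = _
  rw [map_mul, hsmul]
  simp only [IntermediateField.coe_mul, SubmonoidClass.coe_pow, hnorm]
  rw [mul_pow, hup, ← mul_assoc, ← map_mul, ← coe_normHom, ← Units.val_mul, e, ← hzw]

end Fermat.Agent.Duality.Global
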