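import Mathlib

/-!
# Finite places of a Galois extension of number fields: conjugates, approximation
-/

set_option autoImplicit false

open IsDedekindDomain NumberField WithZero

namespace Fermat.Agent.Duality.Global

section Approx

variable {F : Type} [Field F] [NumberField F]

/-- Weak approximation for integral targets. -/
lemma exists_approx_integral (s : Finset (HeightOneSpectrum (𝓞 F))) (n : ℕ)
    (a : HeightOneSpectrum (𝓞 F) → 𝓞 F) :
    ∃ y : 𝓞 F, ∀ w ∈ s, w.intValuation (y - a w) ≤ exp (-(n : ℤ)) := by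
  classical
  obtain ⟨y, hy⟩ := (HeightOneSpectrum.quotientEquivPiOfProdEq
    (∏ w : s, w.1.asIdeal ^ n) (fun w : s => w.1) (fun _ => n)
    (fun _ _ h e => h (Subtype.ext e)) rfl).surjective
    (fun w : s => Ideal.Quotient.mk _ (a w.1))
  obtain ⟨y, rfl⟩ := Ideal.Quotient.mk_surjective y
  refine ⟨y, fun w hw => ?_⟩
  rw [HeightOneSpectrum.intValuation_le_pow_iff_mem]
  have h := congrFun hy ⟨w, hw⟩
  exact Ideal.Quotient.eq.mp h

/-- Weak approximation. -/
lemma exists_approx (s : Finset (HeightOneSpectrum (𝓞 F))) (n : ℕ)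
    (x : HeightOneSpectrum (𝓞 F) → F) :
    ∃ y : F, ∀ w ∈ s, w.valuation F (y - x w) ≤ exp (-(n : ℤ)) := by
  classical
  -- a common denominator
  obtain ⟨⟨d, hd⟩, hint⟩ := IsLocalization.exist_integer_multiples (nonZeroDivisors (𝓞 F)) s x
  have hd0 : algebraMap (𝓞 F) F d ≠ 0 :=
    IsFractionRing.to_map_ne_zero_of_mem_nonZeroDivisors hd
  choose! a ha using hint
  obtain ⟨N, hN⟩ : ∃ N : ℕ, ∀ w ∈ s, exp (-(N : ℤ)) ≤ w.intValuation d * exp (-(n : ℤ)) := by
    refine ⟨n + ∑ w ∈ s, (-log (w.intValuation d)).toNat, fun w hw => ?_⟩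
    have hv : w.intValuation d ≠ 0 := w.intValuation_ne_zero d (nonZeroDivisors.ne_zero hd)
    rw [← exp_log hv, ← exp_add, exp_le_exp]
    have h1 : (-log (w.intValuation d)).toNat ≤ ∑ w ∈ s, (-log (w.intValuation d)).toNat :=
      Finset.single_le_sum (f := fun w : HeightOneSpectrum (𝓞 F) => (-log (w.intValuation d)).toNat)
        (fun _ _ => Nat.zero_le _) hw
    omega
  obtain ⟨z, hz⟩ := exists_approx_integral s N a
  refine ⟨algebraMap (𝓞 F) F z / algebraMap (𝓞 F) F d, fun w hw => ?_⟩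
  have e : algebraMap (𝓞 F) F z / algebraMap (𝓞 F) F d - x w =
      algebraMap (𝓞 F) F (z - a w) / algebraMap (𝓞 F) F d := by
    rw [map_sub, ha w hw, Algebra.smul_def]
    field_simp
  rw [e, map_div₀, HeightOneSpectrum.valuation_of_algebraMap,
    HeightOneSpectrum.valuation_of_algebraMap,
    div_le_iff₀ (zero_lt_iff.mpr (w.intValuation_ne_zero d (nonZeroDivisors.ne_zero hd))),
    mul_comm]
  exact (hz w hw).trans (hN w hw)

lemma exists_uniformizer_unit (w : HeightOneSpectrum (𝓞 F)) :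
    ∃ π : Fˣ, w.valuation F (π : F) = exp (-1 : ℤ) := by
  obtain ⟨π, hπ⟩ := w.valuation_exists_uniformizer F
  exact ⟨Units.mk0 π (fun h => by rw [h, map_zero] at hπ; exact exp_ne_zero hπ.symm), hπ⟩

/-- Elements with prescribed behaviour at finitely many places, in `Fˣ`. -/
lemma exists_approx_units (s : Finset (HeightOneSpectrum (𝓞 F))) (n : ℕ)
    (x : HeightOneSpectrum (𝓞 F) → Fˣ) :
    ∃ y : Fˣ, ∀ w ∈ s, w.valuation F ((y : F) / x w - 1) ≤ exp (-(n : ℤ)) := by
  classical
  rcases s.eq_empty_or_nonempty with rfl | ⟨w₀, hw₀⟩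
  · exact ⟨1, by simp⟩
  obtain ⟨N, hN⟩ : ∃ N : ℕ, ∀ w ∈ s, exp (-(N : ℤ)) ≤
      w.valuation F (x w : F) * exp (-(n + 1 : ℤ)) := by
    refine ⟨n + 1 + ∑ w ∈ s, (-log (w.valuation F (x w : F))).toNat, fun w hw => ?_⟩
    have hv : w.valuation F (x w : F) ≠ 0 := by simp
    rw [← exp_log hv, ← exp_add, exp_le_exp]
    have h1 : (-log (w.valuation F (x w : F))).toNat ≤
        ∑ w ∈ s, (-log (w.valuation F (x w : F))).toNat :=
      Finset.single_le_sum
        (f := fun w : HeightOneSpectrum (𝓞 F) => (-log (w.valuation F (x w : F))).toNat)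
        (fun _ _ => Nat.zero_le _) hw
    omega
  obtain ⟨y, hy⟩ := exists_approx s N fun w => (x w : F)
  have key : ∀ w ∈ s, w.valuation F (y / x w - 1) ≤ exp (-(n + 1 : ℤ)) := fun w hw => by
    rw [div_sub_one (Units.ne_zero _), map_div₀, div_le_iff₀ (by simp [zero_lt_iff]), mul_comm]
    exact (hy w hw).trans (hN w hw)
  have hy0 : y ≠ 0 := by
    rintro rfl
    have h := key w₀ hw₀
    rw [zero_div, zero_sub, Valuation.map_neg, map_one, ← exp_zero, exp_le_exp] at h
    omega
  exact ⟨Units.mk0 y hy0, fun w hw =>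
    (key w hw).trans (exp_le_exp.mpr (by omega))⟩

end Approx

variable {K L : Type} [Field K] [NumberField K] [Field L] [NumberField L] [Algebra K L]

/-- The conjugate place `σ w`. -/
noncomputable def conjPlace (σ : L ≃+* L) (w : HeightOneSpectrum (𝓞 L)) :
    HeightOneSpectrum (𝓞 L) :=
  ⟨w.asIdeal.map (RingOfIntegers.mapRingEquiv σ),
    Ideal.map_isPrime_of_equiv (RingOfIntegers.mapRingEquiv σ),
    fun h => w.ne_bot ((Ideal.map_eq_bot_iff_of_injective
      (RingOfIntegers.mapRingEquiv σ).injective).mp h)⟩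

lemma conjPlace_intValuation (σ : L ≃+* L) (w : HeightOneSpectrum (𝓞 L)) (x : 𝓞 L) :
    (conjPlace σ w).intValuation (RingOfIntegers.mapRingEquiv σ x) = w.intValuation x := by
  rcases eq_or_ne x 0 with rfl | hx
  · simp
  have key : ∀ n : ℕ, (conjPlace σ w).intValuation (RingOfIntegers.mapRingEquiv σ x) ≤
      exp (-(n : ℤ)) ↔ w.intValuation x ≤ exp (-(n : ℤ)) := fun n => by
    rw [HeightOneSpectrum.intValuation_le_pow_iff_mem,
      HeightOneSpectrum.intValuation_le_pow_iff_mem]
    show RingOfIntegers.mapRingEquiv σ x ∈ (w.asIdeal.map _) ^ n ↔ _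
    rw [← Ideal.map_pow, ← Ideal.comap_symm, Ideal.mem_comap, RingEquiv.symm_apply_apply]
  have hx' : RingOfIntegers.mapRingEquiv σ x ≠ 0 := by simpa using hx
  obtain ⟨a, ha⟩ : ∃ a : ℕ, w.intValuation x = exp (-(a : ℤ)) :=
    ⟨_, HeightOneSpectrum.intValuation_eq_exp_neg_multiplicity w hx⟩
  obtain ⟨b, hb⟩ : ∃ b : ℕ, (conjPlace σ w).intValuation (RingOfIntegers.mapRingEquiv σ x) =
      exp (-(b : ℤ)) :=
    ⟨_, HeightOneSpectrum.intValuation_eq_exp_neg_multiplicity _ hx'⟩
  have h1 := (key a).mpr ha.le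
  have h2 := (key b).mp hb.le
  rw [hb, exp_le_exp] at h1
  rw [ha, exp_le_exp] at h2
  rw [ha, hb]
  congr 1; omega

lemma conjPlace_valuation (σ : L ≃+* L) (w : HeightOneSpectrum (𝓞 L)) (x : L) :
    (conjPlace σ w).valuation L (σ x) = w.valuation L x := by
  obtain ⟨a, b, -, rfl⟩ := IsFractionRing.div_surjective (A := 𝓞 L) x
  rw [map_div₀, map_div₀, map_div₀,
    show σ (algebraMap (𝓞 L) L a) = algebraMap (𝓞 L) L (RingOfIntegers.mapRingEquiv σ a) from rfl,
    show σ (algebraMap (𝓞 L) L b) = algebraMap (𝓞 L) L (RingOfIntegers.mapRingEquiv σ b) from rfl]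
  simp only [HeightOneSpectrum.valuation_of_algebraMap, conjPlace_intValuation]

lemma eq_of_valuation_eq {w w' : HeightOneSpectrum (𝓞 L)}
    (h : ∀ x : L, w.valuation L x = w'.valuation L x) : w = w' := by
  ext x
  rw [← HeightOneSpectrum.valuation_lt_one_iff_mem (K := L),
    ← HeightOneSpectrum.valuation_lt_one_iff_mem (K := L), h]

/-- The conjugate place for a `K`-automorphism. -/
noncomputable def galPlace (σ : L ≃ₐ[K] L) (w : HeightOneSpectrum (𝓞 L)) :
    HeightOneSpectrum (𝓞 L) := conjPlace σ.toRingEquiv w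

omit [NumberField K] in
lemma galPlace_valuation (σ : L ≃ₐ[K] L) (w : HeightOneSpectrum (𝓞 L)) (x : L) :
    (galPlace σ w).valuation L (σ x) = w.valuation L x :=
  conjPlace_valuation σ.toRingEquiv w x

omit [NumberField K] in
lemma galPlace_valuation' (σ : L ≃ₐ[K] L) (w : HeightOneSpectrum (𝓞 L)) (x : L) :
    (galPlace σ w).valuation L x = w.valuation L (σ⁻¹ x) := by
  conv_lhs => rw [show x = σ (σ⁻¹ x) from (σ.apply_symm_apply x).symm]
  exact galPlace_valuation σ w _

omit [NumberField K] in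
lemma galPlace_one (w : HeightOneSpectrum (𝓞 L)) : galPlace (1 : L ≃ₐ[K] L) w = w :=
  eq_of_valuation_eq fun x => galPlace_valuation (1 : L ≃ₐ[K] L) w x

omit [NumberField K] in
lemma galPlace_mul (σ τ : L ≃ₐ[K] L) (w : HeightOneSpectrum (𝓞 L)) :
    galPlace (σ * τ) w = galPlace σ (galPlace τ w) :=
  eq_of_valuation_eq fun x => by
    rw [galPlace_valuation' σ, galPlace_valuation' τ, galPlace_valuation' (σ * τ), mul_inv_rev]
    rfl

/-- `w` lies over `v`. -/
def Over (w : HeightOneSpectrum (𝓞 L)) (v : HeightOneSpectrum (𝓞 K)) : Prop :=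
  w.asIdeal.LiesOver v.asIdeal

omit [NumberField K] [NumberField L] in
lemma exists_over (v : HeightOneSpectrum (𝓞 K)) : ∃ w : HeightOneSpectrum (𝓞 L), Over w v := by
  obtain ⟨⟨Q, hQ, hQv⟩⟩ := (inferInstance : Nonempty (Ideal.primesOver v.asIdeal (𝓞 L)))
  exact ⟨⟨Q, hQ, Ideal.ne_bot_of_liesOver_of_ne_bot v.ne_bot Q⟩, hQv⟩

omit [NumberField K] [NumberField L] in
lemma exists_place_under (w : HeightOneSpectrum (𝓞 L)) :
    ∃ v : HeightOneSpectrum (𝓞 K), Over w v :=
  ⟨⟨w.asIdeal.under (𝓞 K), inferInstance, Ideal.under_ne_bot (𝓞 K) w.ne_bot⟩, ⟨rfl⟩⟩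

omit [NumberField K] [NumberField L] in
lemma over_unique {w : HeightOneSpectrum (𝓞 L)} {v v' : HeightOneSpectrum (𝓞 K)} (h : Over w v)
    (h' : Over w v') : v = v' :=
  HeightOneSpectrum.ext (h.over.trans h'.over.symm)

/-- Valuations upstairs are a positive power of those downstairs. -/
lemma exists_valuation_pow {w : HeightOneSpectrum (𝓞 L)} {v : HeightOneSpectrum (𝓞 K)}
    (h : Over w v) :
    ∃ e : ℕ, e ≠ 0 ∧ ∀ x : K, w.valuation L (algebraMap K L x) = v.valuation K x ^ e := by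
  have : w.asIdeal.LiesOver v.asIdeal := h
  exact ⟨_, Ideal.IsDedekindDomain.ramificationIdx'_ne_zero_of_liesOver w.asIdeal v.ne_bot,
    fun x => (HeightOneSpectrum.valuation_liesOver L v w x).symm⟩

lemma valuation_le_of_algebraMap {w : HeightOneSpectrum (𝓞 L)} {v : HeightOneSpectrum (𝓞 K)}
    (h : Over w v) {x : K} {n : ℕ}
    (hx : v.valuation K x ≤ exp (-(n : ℤ))) :
    w.valuation L (algebraMap K L x) ≤ exp (-(n : ℤ)) := by
  obtain ⟨e, he, hp⟩ := exists_valuation_pow h
  rw [hp]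
  calc v.valuation K x ^ e ≤ v.valuation K x ^ 1 :=
        pow_le_pow_of_le_one zero_le (hx.trans (by rw [← exp_zero, exp_le_exp]; omega))
          (Nat.one_le_iff_ne_zero.mpr he)
    _ ≤ _ := by rw [pow_one]; exact hx

lemma valuation_lt_one_iff_of_over {w : HeightOneSpectrum (𝓞 L)} {v : HeightOneSpectrum (𝓞 K)}
    (h : Over w v) (x : K) : w.valuation L (algebraMap K L x) < 1 ↔ v.valuation K x < 1 := by
  obtain ⟨e, he, hp⟩ := exists_valuation_pow h
  rw [hp, pow_lt_one_iff he]

lemma valuation_eq_one_iff_of_over {w : HeightOneSpectrum (𝓞 L)} {v : HeightOneSpectrum (𝓞 K)}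
    (h : Over w v) (x : K) : w.valuation L (algebraMap K L x) = 1 ↔ v.valuation K x = 1 := by
  obtain ⟨e, he, hp⟩ := exists_valuation_pow h
  rw [hp, pow_eq_one_iff_of_nonneg zero_le he]

lemma over_of_valuation {w : HeightOneSpectrum (𝓞 L)} {v : HeightOneSpectrum (𝓞 K)}
    (h : ∀ x : K, w.valuation L (algebraMap K L x) < 1 ↔ v.valuation K x < 1) : Over w v := by
  refine ⟨?_⟩
  ext x
  rw [Ideal.under_def, Ideal.mem_comap, ← HeightOneSpectrum.valuation_lt_one_iff_mem (K := K),
    ← HeightOneSpectrum.valuation_lt_one_iff_mem (K := L), ← h]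
  rw [← IsScalarTower.algebraMap_apply (𝓞 K) K L, IsScalarTower.algebraMap_apply (𝓞 K) (𝓞 L) L]

lemma over_galPlace (σ : L ≃ₐ[K] L) {w : HeightOneSpectrum (𝓞 L)} {v : HeightOneSpectrum (𝓞 K)}
    (h : Over w v) : Over (galPlace σ w) v :=
  over_of_valuation fun x => by
    conv_lhs => rw [← AlgEquiv.commutes σ x, galPlace_valuation]
    exact valuation_lt_one_iff_of_over h x

variable [IsGalois K L]

/-- The Galois group is transitive on the places over `v`. -/
lemma exists_galPlace_eq {w w' : HeightOneSpectrum (𝓞 L)} {v : HeightOneSpectrum (𝓞 K)}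
    (h : Over w v) (h' : Over w' v) : ∃ σ : L ≃ₐ[K] L, galPlace σ w = w' := by
  classical
  by_contra hne
  push Not at hne
  obtain ⟨z, hx⟩ := exists_approx_integral
    (insert w' (Finset.univ.image fun σ : L ≃ₐ[K] L => galPlace σ w)) 1
    fun u => if u = w' then 0 else 1
  set x : L := algebraMap (𝓞 L) L z with hxz
  have h1 : w'.valuation L x < 1 := by
    have := hx w' (Finset.mem_insert_self _ _)
    rw [if_pos rfl, sub_zero] at this
    rw [hxz, HeightOneSpectrum.valuation_of_algebraMap]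
    exact this.trans_lt (by rw [← exp_zero, exp_lt_exp]; omega)
  have h2 : ∀ σ : L ≃ₐ[K] L, (galPlace σ w).valuation L x = 1 := fun σ => by
    have := hx (galPlace σ w)
      (Finset.mem_insert_of_mem (Finset.mem_image_of_mem _ (Finset.mem_univ σ)))
    rw [if_neg (hne σ)] at this
    rw [hxz, HeightOneSpectrum.valuation_of_algebraMap,
      Valuation.map_eq_of_sub_lt (v := (galPlace σ w).intValuation) (x := 1) (this.trans_lt
        (by rw [map_one, ← exp_zero, exp_lt_exp]; omega)), map_one]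
  have h3 : w.valuation L (algebraMap K L (Algebra.norm K x)) = 1 := by
    rw [Algebra.norm_eq_prod_automorphisms, map_prod]
    refine Finset.prod_eq_one fun σ _ => ?_
    have := h2 σ⁻¹
    rwa [galPlace_valuation', inv_inv] at this
  have h4 : w'.valuation L (algebraMap K L (Algebra.norm K x)) < 1 := by
    rw [Algebra.norm_eq_prod_automorphisms,
      ← Finset.mul_prod_erase _ _ (Finset.mem_univ (1 : L ≃ₐ[K] L)), map_mul, AlgEquiv.one_apply]
    refine (mul_le_of_le_one_right' ?_).trans_lt h1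
    rw [map_prod]
    exact Finset.prod_le_one' fun σ _ =>
      (w'.valuation_le_one (K := L) (RingOfIntegers.mapRingEquiv σ.toRingEquiv z))
  rw [valuation_lt_one_iff_of_over h'] at h4
  rw [valuation_eq_one_iff_of_over h] at h3
  exact h4.ne h3

variable (L) in
/-- Only finitely many places lie over a given place. -/
lemma finite_over (v : HeightOneSpectrum (𝓞 K)) :
    {w : HeightOneSpectrum (𝓞 L) | Over w v}.Finite := by
  obtain ⟨w₀, h₀⟩ := exists_over (L := L) v
  refine Set.Finite.subset (Set.finite_range fun σ : L ≃ₐ[K] L => galPlace σ w₀) fun w hw => ?_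
  exact exists_galPlace_eq h₀ hw

end Fermat.Agent.Duality.Global
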