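import Fermat.Agent.Duality.Global.LocalNorm

/-!
# `S`-units modulo `p`-th powers and their localisations
-/

set_option autoImplicit false

open IsDedekindDomain NumberField WithZero Module

namespace Fermat.Agent.Duality.Global

variable {K : Type} [Field K] [NumberField K] {p : ℕ} {ζ : K}

lemma index_ker_of_surjective {G H : Type*} [Group G] [MulOneClass H] (f : G →* H)
    (hf : Function.Surjective f) : f.ker.index = Nat.card H := by
  refine Nat.card_eq_of_bijective (Quotient.lift f fun a b h => ?_)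
    ⟨fun a b h => ?_, fun y => ?_⟩
  · have h1 : f (a⁻¹ * b) = 1 := QuotientGroup.leftRel_apply.mp h
    calc f a = f a * f (a⁻¹ * b) := by rw [h1, mul_one]
      _ = f b := by rw [← map_mul, mul_inv_cancel_left]
  · induction a using Quotient.inductionOn with
    | h a => induction b using Quotient.inductionOn with
      | h b =>
        refine QuotientGroup.eq.mpr ?_
        show f (a⁻¹ * b) = 1
        rw [map_mul, ← (show f a = f b from h), ← map_mul, inv_mul_cancel, map_one]
  · obtain ⟨x, rfl⟩ := hf y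
    exact ⟨Quotient.mk'' x, rfl⟩

lemma two_mul_card_infinitePlace (hp : p.Prime) (hodd : p ≠ 2) (hζ : IsPrimitiveRoot ζ p) :
    2 * Fintype.card (InfinitePlace K) = finrank ℚ K := by
  have h0 : InfinitePlace.nrRealPlaces K = 0 :=
    NumberField.InfinitePlace.IsPrimitiveRoot.nrRealPlaces_eq_zero_of_two_lt
      (lt_of_le_of_ne hp.two_le (Ne.symm hodd)) hζ
  rw [← InfinitePlace.card_add_two_mul_card_eq_rank,
    InfinitePlace.card_eq_nrRealPlaces_add_nrComplexPlaces, h0, zero_add, zero_add]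

lemma root_mem_sUnit (hp : p.Prime) (hζ : IsPrimitiveRoot ζ p)
    (S : Finset (HeightOneSpectrum (𝓞 K))) : (hζ.isUnit hp.ne_zero).unit ∈ sUnit K S := by
  intro v _
  show v.valuation K ζ = 1
  have := congrArg (v.valuation K) hζ.pow_eq_one
  rwa [map_pow, map_one, pow_eq_one_iff_of_nonneg zero_le hp.ne_zero] at this

/-- `U_S / U_S ^ p` has order `p ^ (|S| + r₂)`. -/
theorem index_sUnit_pow (hp : p.Prime) (hζ : IsPrimitiveRoot ζ p)
    (S : Finset (HeightOneSpectrum (𝓞 K))) :
    (powMonoidHom p : sUnit K S →* sUnit K S).range.index =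
      p ^ (S.card + Fintype.card (InfinitePlace K)) := by
  classical
  obtain ⟨hfin, hq⟩ := finEnd_natCast (B := Additive (sUnit K S)) hp.ne_zero
  have hr : rangeIndex (p : AddMonoid.End (Additive (sUnit K S))) =
      (powMonoidHom p : sUnit K S →* sUnit K S).range.index := by
    show _ = (Subgroup.toAddSubgroup (powMonoidHom p : sUnit K S →* sUnit K S).range).index
    rw [rangeIndex]
    congr 1
  have hk : kerCard (p : AddMonoid.End (Additive (sUnit K S))) = p := by
    have : NeZero p := ⟨hp.ne_zero⟩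
    rw [kerCard]
    conv_rhs => rw [← hζ.card_rootsOfUnity]
    let e : sUnit K S → Kˣ := Subtype.val
    refine Nat.card_eq_of_bijective (fun x => ⟨e (Additive.toMul x.1), ?_⟩)
      ⟨fun a b h => ?_, fun z => ?_⟩
    · rw [mem_rootsOfUnity]
      exact congrArg Subtype.val (show Additive.toMul x.1 ^ p = 1 from x.2)
    · exact Subtype.ext (Additive.toMul.injective (Subtype.ext ((congrArg Subtype.val h :))))
    · have hz : z.1 ^ p = 1 := (mem_rootsOfUnity p z.1).mp z.2
      obtain ⟨i, -, hi⟩ := hζ.eq_pow_of_pow_eq_one (ξ := (z.1 : K))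
        (by rw [← Units.val_pow_eq_pow_val, hz, Units.val_one])
      refine ⟨⟨Additive.ofMul ((⟨_, root_mem_sUnit hp hζ S⟩ : sUnit K S) ^ i), ?_⟩,
        Subtype.ext (Units.ext ?_)⟩
      · show ((⟨_, root_mem_sUnit hp hζ S⟩ : sUnit K S) ^ i) ^ p = 1
        refine Subtype.ext (Units.ext ?_)
        show ((ζ ^ i) ^ p) = (1 : K)
        rw [← pow_mul, mul_comm, pow_mul, hζ.pow_eq_one, one_pow]
      · exact hi
  rw [endQ, hr, hk, finrank_sUnit, div_eq_iff (by exact_mod_cast hp.ne_zero), ← pow_succ] at hq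
  rw [show S.card + Fintype.card (InfinitePlace K) = Units.rank K + S.card + 1 by
    have : 0 < Fintype.card (InfinitePlace K) := Fintype.card_pos
    rw [Units.rank]; omega]
  exact_mod_cast hq

open Classical in
lemma prod_absNorm_pow_ordP (hp : p.Prime) (S : Finset (HeightOneSpectrum (𝓞 K)))
    (hpS : ∀ v ∉ S, v.valuation K (p : K) = 1) :
    ∏ v ∈ S, Ideal.absNorm v.asIdeal ^ ordP v p = p ^ finrank ℚ K := by
  have hp0 : ((p : ℕ) : 𝓞 K) ≠ 0 := Nat.cast_ne_zero.mpr hp.ne_zero
  have hI : Ideal.span {((p : ℕ) : 𝓞 K)} ≠ 0 := by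
    rwa [Ne, Ideal.zero_eq_bot, Ideal.span_singleton_eq_bot]
  have key : ∀ v : HeightOneSpectrum (𝓞 K),
      v.maxPowDividing (Ideal.span {((p : ℕ) : 𝓞 K)}) = v.asIdeal ^ ordP v p := by
    intro v
    have h1 : v.intValuation (p : 𝓞 K) = exp (-((Associates.mk v.asIdeal).count
        (Associates.mk (Ideal.span {((p : ℕ) : 𝓞 K)})).factors : ℤ)) := v.intValuation_if_neg hp0
    rw [((v.valuation_of_algebraMap (K := K) (p : 𝓞 K)).symm.trans
        (congrArg (v.valuation K) (map_natCast (algebraMap (𝓞 K) K) p))),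
      valuation_natCast_eq v hp.ne_zero] at h1
    rw [HeightOneSpectrum.maxPowDividing]
    congr 1
    have := exp_injective h1
    omega
  have h2 := congrArg Ideal.absNorm (Ideal.finprod_heightOneSpectrum_factorization hI)
  have hfd : finrank ℤ (𝓞 K) = finrank ℚ K := RingOfIntegers.rank K
  rw [Ideal.absNorm_span_natCast, hfd, finprod_congr key,
    finprod_eq_prod_of_mulSupport_subset (s := S) _ fun v hv => ?_, map_prod] at h2
  · rw [← h2]
    exact Finset.prod_congr rfl fun v _ => (map_pow _ _ _).symm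
  · by_contra hvS
    refine hv ?_
    show v.asIdeal ^ ordP v p = 1
    rw [ordP_eq_zero v hp.ne_zero (hpS v hvS), pow_zero]

lemma prod_index_localPow (hp : p.Prime) (hζ : IsPrimitiveRoot ζ p)
    (S : Finset (HeightOneSpectrum (𝓞 K))) (hpS : ∀ v ∉ S, v.valuation K (p : K) = 1) :
    ∏ v : S, (localPow v.1 p).index = p ^ (2 * S.card + finrank ℚ K) := by
  rw [Finset.univ_eq_attach, Finset.prod_attach S fun v => (localPow v p).index,
    Finset.prod_congr rfl fun v _ => index_localPow v hp hζ, Finset.prod_mul_distrib,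
    Finset.prod_mul_distrib, prod_absNorm_pow_ordP hp S hpS, Finset.prod_const]
  ring

/-- At `v ∤ p`, any unit which is not a local `p`-th power generates the unit classes. -/
lemma exists_div_pow_mem_localPow (hp : p.Prime) (hζ : IsPrimitiveRoot ζ p)
    {v : HeightOneSpectrum (𝓞 K)} (hv : v.valuation K (p : K) = 1) {u x : Kˣ}
    (hu : u ∈ unitsAt v) (hnu : u ∉ localPow v p) (hx : x ∈ unitsAt v) :
    ∃ k : ℕ, x / u ^ k ∈ localPow v p := by
  have := Fact.mk hp
  have hrel : (localPow v p).relIndex (unitsAt v) = p := by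
    have h := relIndex_pow_sup_congr v hp hζ
    rw [Subgroup.relIndex_sup_right, ← localPow_eq v hp.ne_zero le_rfl,
      ordP_eq_zero v hp.ne_zero hv, pow_zero, mul_one] at h
    exact h
  have hcard : Nat.card (unitsAt v ⧸ (localPow v p).subgroupOf (unitsAt v)) = p := hrel
  have hne : QuotientGroup.mk' ((localPow v p).subgroupOf (unitsAt v)) ⟨u, hu⟩ ≠ 1 := fun h =>
    hnu ((QuotientGroup.eq_one_iff (⟨u, hu⟩ : unitsAt v)).mp h)
  have : Finite (unitsAt v ⧸ (localPow v p).subgroupOf (unitsAt v)) :=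
    Nat.finite_of_card_ne_zero (by rw [hcard]; exact hp.ne_zero)
  obtain ⟨k, hk⟩ :=
    (mem_powers_iff_mem_zpowers (x := QuotientGroup.mk' _ (⟨u, hu⟩ : unitsAt v))).mpr
    (mem_zpowers_of_prime_card hcard hne
      (g' := QuotientGroup.mk' _ (⟨x, hx⟩ : unitsAt v)))
  refine ⟨k, ?_⟩
  have h1 : QuotientGroup.mk' ((localPow v p).subgroupOf (unitsAt v))
      ((⟨x, hx⟩ : unitsAt v) / (⟨u, hu⟩ : unitsAt v) ^ k) = 1 := by
    rw [map_div, map_pow]
    exact div_eq_one.mpr hk.symm
  exact (QuotientGroup.eq_one_iff ((⟨x, hx⟩ : unitsAt v) / (⟨u, hu⟩ : unitsAt v) ^ k)).mp h1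

open Classical in
/-- Elements with prescribed orders at `T` and trivial outside `S ∪ T`. -/
lemma exists_prod_valuation (S T : Finset (HeightOneSpectrum (𝓞 K))) (H : Subgroup Kˣ)
    (hdisj : ∀ v ∈ T, v ∉ S)
    (hπ : ∀ v ∈ T, ∃ π ∈ H, v.valuation K (π : K) = exp (-1 : ℤ) ∧
      ∀ v' ∉ S, v' ≠ v → v'.valuation K (π : K) = 1) (k : HeightOneSpectrum (𝓞 K) → ℤ) :
    ∃ x ∈ H, x ∈ sUnit K (S ∪ T) ∧ ∀ v ∈ T, v.valuation K (x : K) = exp (k v) := by
  choose π hπH hπv hπ' using hπ
  refine ⟨∏ v ∈ T.attach, π v.1 v.2 ^ (-k v.1),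
    Subgroup.prod_mem _ fun v _ => zpow_mem (hπH _ _) _, fun v hv => ?_, fun v hv => ?_⟩
  · show v.valuation K ((∏ w ∈ T.attach, π w.1 w.2 ^ (-k w.1) : Kˣ) : K) = 1
    rw [Units.coe_prod, map_prod]
    refine Finset.prod_eq_one fun w _ => ?_
    rw [Units.val_zpow_eq_zpow_val, map_zpow₀, hπ' w.1 w.2 v
      (fun h => hv (Finset.mem_union_left _ h)) (fun e => hv (Finset.mem_union_right _ (e ▸ w.2))),
      one_zpow]
  · show v.valuation K ((∏ w ∈ T.attach, π w.1 w.2 ^ (-k w.1) : Kˣ) : K) = _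
    rw [Units.coe_prod, map_prod, Finset.prod_eq_single_of_mem ⟨v, hv⟩ (Finset.mem_attach _ _)]
    · rw [Units.val_zpow_eq_zpow_val, map_zpow₀, hπv, ← exp_zsmul]
      congr 1; simp
    · intro w _ hw
      rw [Units.val_zpow_eq_zpow_val, map_zpow₀,
        hπ' w.1 w.2 v (hdisj v hv) (fun e => hw (Subtype.ext e.symm)), one_zpow]

section Extension

variable {L : Type} [Field L] [NumberField L] [Algebra K L] [IsGalois K L]

/-- In a split place, `L ^ p ∩ K` consists of local `p`-th powers. -/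
theorem mem_localPow_of_isSplit (hp : p.Prime) (hdeg : finrank K L = p)
    {v : HeightOneSpectrum (𝓞 K)} (hs : IsSplit L v) {y : L} {u : Kˣ}
    (hy : y ^ p = algebraMap K L u) : u ∈ localPow v p := by
  classical
  obtain ⟨w, hw⟩ := exists_over (L := L) v
  have hun := isUnram_of_isSplit hp hdeg hs w hw
  have hy0 : y ≠ 0 := fun h => by
    rw [h, zero_pow hp.ne_zero] at hy
    exact u.ne_zero ((algebraMap K L).injective (hy.symm.trans (map_zero _).symm))
  refine Subgroup.mem_iInf.mpr fun n => ?_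
  let Y : Lˣ := Units.mk0 y hy0
  obtain ⟨z, hz⟩ :=
    exists_approx_units (Finset.univ.image fun σ : L ≃ₐ[K] L => galPlace σ w) (n + 1)
    fun t => if t = w then Y else 1
  have hz' : ∀ σ : L ≃ₐ[K] L,
      z / (if σ = 1 then Y else 1) ∈ congrOne (galPlace σ w) (n + 1) := by
    intro σ
    refine mem_congrOne_of_close _ n.succ_ne_zero ?_
    have h := hz (galPlace σ w) (Finset.mem_image_of_mem _ (Finset.mem_univ σ))
    have hiff : galPlace σ w = w ↔ σ = 1 := ⟨fun h' =>
      galPlace_injective_of_isSplit hp hdeg hs hw (h'.trans (galPlace_one w).symm),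
      fun h' => by rw [h', galPlace_one]⟩
    rw [Units.val_div_eq_div_val]
    by_cases hσ : σ = 1
    · rw [if_pos hσ]; rwa [if_pos (hiff.mpr hσ)] at h
    · rw [if_neg hσ]; rwa [if_neg (fun h' => hσ (hiff.mp h'))] at h
  set A : Lˣ := Units.map (algebraMap K L).toMonoidHom (normHom z) with hA
  have hAprod : A = ∏ σ : L ≃ₐ[K] L, Units.map σ.toAlgHom.toRingHom.toMonoidHom z := by
    refine Units.ext ?_
    rw [Units.coe_prod]
    exact Algebra.norm_eq_prod_automorphisms K (z : L)
  have hAY : A / Y ∈ congrOne w (n + 1) := by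
    rw [hAprod, ← Finset.mul_prod_erase _ _ (Finset.mem_univ (1 : L ≃ₐ[K] L)), mul_div_right_comm]
    refine Subgroup.mul_mem _ ?_ (Subgroup.prod_mem _ fun σ hσ => ?_)
    · have := hz' 1
      rw [if_pos rfl, galPlace_one] at this
      exact this
    · have h := hz' σ⁻¹
      rw [if_neg (by simpa using Finset.ne_of_mem_erase hσ), div_one, mem_congrOne] at h
      refine mem_congrOne_of_close w n.succ_ne_zero ?_
      show w.valuation L (σ (z : L) - 1) ≤ _
      rw [← map_one σ, ← map_sub]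
      have h2 := h.2
      rwa [galPlace_valuation', inv_inv] at h2
  refine Subgroup.mem_sup.mpr ⟨normHom z ^ p, ⟨normHom z, rfl⟩, u / normHom z ^ p, ?_,
    mul_div_cancel _ _⟩
  have h3 := (congrOne w (n + 1)).inv_mem ((congrOne w (n + 1)).pow_mem hAY p)
  refine congrOne_antitone v n.le_succ (mem_congrOne_of_close v n.succ_ne_zero ?_)
  rw [← hun, map_sub, map_one]
  refine le_trans (le_of_eq (congrArg (fun t => w.valuation L (t - 1)) ?_)) h3.2
  rw [div_pow, inv_div, Units.val_div_eq_div_val, Units.val_div_eq_div_val, map_div₀,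
    Units.val_pow_eq_pow_val, Units.val_pow_eq_pow_val, Units.val_pow_eq_pow_val, map_pow]
  rw [← hy]
  rfl

lemma index_localNorm_ne_zero (hp : p.Prime) (hdeg : finrank K L = p) (hζ : IsPrimitiveRoot ζ p)
    (v : HeightOneSpectrum (𝓞 K)) : (localNorm L v).index ≠ 0 := by
  intro h
  have := Subgroup.index_dvd_of_le (localPow_le_localNorm (L := L) hdeg v)
  rw [h, index_localPow v hp hζ, Nat.zero_dvd] at this
  simp [hp.ne_zero, Ideal.absNorm_eq_zero_iff, v.ne_bot] at this

lemma le_index_localNorm (hp : p.Prime) (hdeg : finrank K L = p) (hζ : IsPrimitiveRoot ζ p)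
    {v : HeightOneSpectrum (𝓞 K)} (hs : ¬ IsSplit L v) : p ≤ (localNorm L v).index := by
  have := Fact.mk hp
  obtain ⟨x, hx⟩ : ∃ x, x ∉ localNorm L v := by
    by_contra h
    push Not at h
    exact localNorm_ne_top hp hdeg hζ hs ((Subgroup.eq_top_iff' _).mpr h)
  have h1 : orderOf (x : Kˣ ⧸ localNorm L v) = p := orderOf_eq_prime
    ((QuotientGroup.eq_one_iff (x ^ p)).mpr
      (localPow_le_localNorm hdeg v (range_pow_le_localPow v p ⟨x, rfl⟩)))
    fun h => hx ((QuotientGroup.eq_one_iff x).mp h)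
  rw [← h1]
  exact Nat.le_of_dvd (Nat.pos_of_ne_zero (index_localNorm_ne_zero hp hdeg hζ v))
    (orderOf_dvd_natCard _)

end Extension

open Classical in
/-- An `S ∪ T`-unit which is a local `p`-th power on `S` is a `p`-th power, if the `S ∪ T`-units
fill up the classes at `T`. -/
theorem exists_pow_eq_of_forall_localPow (hp : p.Prime) (hodd : p ≠ 2) (hζ : IsPrimitiveRoot ζ p)
    {S T : Finset (HeightOneSpectrum (𝓞 K))} (hS : SPrincipal K (S ∪ T))
    (hpS : ∀ v ∉ S, v.valuation K (p : K) = 1)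
    (hsurj : ∀ f : HeightOneSpectrum (𝓞 K) → Kˣ, ∃ x ∈ sUnit K (S ∪ T),
      ∀ v ∈ T, x / f v ∈ localPow v p)
    {u : Kˣ} (hu : u ∈ sUnit K (S ∪ T)) (hloc : ∀ v ∈ S, u ∈ localPow v p) :
    ∃ y : Kˣ, y ^ p = u := by
  by_contra hne
  push Not at hne
  have hirr : Irreducible (Polynomial.X ^ p - Polynomial.C (u : K)) :=
    X_pow_sub_C_irreducible_of_prime hp fun b hb => by
      refine hne (Units.mk0 b fun h => ?_) (Units.ext hb)
      rw [h, zero_pow hp.ne_zero] at hb
      exact u.ne_zero hb.symm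
  have := Fact.mk hirr
  let L := AdjoinRoot (Polynomial.X ^ p - Polynomial.C (u : K))
  have hprim : (primitiveRoots p K).Nonempty := ⟨ζ, (mem_primitiveRoots hp.pos).mpr hζ⟩
  have := isSplittingField_AdjoinRoot_X_pow_sub_C hprim hirr
  have : IsGalois K L := isGalois_of_isSplittingField_X_pow_sub_C hprim hirr L
  have hdeg : finrank K L = p := finrank_of_isSplittingField_X_pow_sub_C hprim hirr L
  have : FiniteDimensional K L := Module.finite_of_finrank_pos (by rw [hdeg]; exact hp.pos)
  have : NumberField L := NumberField.of_module_finite K L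
  let α : L := AdjoinRoot.root _
  have hα : α ^ p = algebraMap K L u := by
    have h := AdjoinRoot.eval₂_root (Polynomial.X ^ p - Polynomial.C (u : K))
    rw [Polynomial.eval₂_sub, Polynomial.eval₂_X_pow, Polynomial.eval₂_C, sub_eq_zero] at h
    exact h
  have hαK : α ∉ Set.range (algebraMap K L) := by
    rintro ⟨c, hc⟩
    rw [← hc, ← map_pow] at hα
    have h1 := (algebraMap K L).injective hα
    refine hne (Units.mk0 c fun h => ?_) (Units.ext h1)
    rw [h, zero_pow hp.ne_zero] at h1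
    exact u.ne_zero h1.symm
  have hram : ∀ v ∉ S ∪ T, IsUnram L v := fun v hv =>
    isUnram_of_unit hp hdeg hζ hα hαK (hpS v fun h => hv (Finset.mem_union_left _ h)) (hu v hv)
  have hidx := index_unitNorms (S ∪ T) hp hodd hdeg hS hram
  set N' := (S ∪ T).filter fun v => ¬ IsSplit L v with hN'
  have hN'T : ∀ v ∈ N', v ∈ T := fun v hv => by
    obtain ⟨hv', hns⟩ := Finset.mem_filter.mp hv
    exact (Finset.mem_union.mp hv').resolve_left fun h =>
      hns (isSplit_of_mem_localPow hp hdeg hζ hα hαK (hloc v h))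
  let Ψ : sUnit K (S ∪ T) →* ∀ v : N', Kˣ ⧸ localNorm L v.1 :=
    MonoidHom.pi fun v => (QuotientGroup.mk' (localNorm L v.1)).comp (sUnit K (S ∪ T)).subtype
  have hΨ : Function.Surjective Ψ := by
    intro f
    obtain ⟨x, hx, hxf⟩ := hsurj fun v => if h : v ∈ N' then (f ⟨v, h⟩).out else 1
    refine ⟨⟨x, hx⟩, funext fun v => ?_⟩
    show (x : Kˣ ⧸ localNorm L v.1) = f v
    rw [← QuotientGroup.out_eq' (f v)]
    refine QuotientGroup.eq.mpr ?_
    have h1 := localPow_le_localNorm (L := L) hdeg _ (hxf v.1 (hN'T v.1 v.2))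
    rw [dif_pos v.2] at h1
    have h2 := (localNorm L v.1).inv_mem h1
    rwa [inv_div, div_eq_inv_mul] at h2
  have hker : unitNorms L (S ∪ T) ≤ Ψ.ker := by
    intro x hx
    obtain ⟨y, -, hy⟩ := hx
    refine funext fun v => (QuotientGroup.eq_one_iff _).mpr ?_
    show (x : Kˣ) ∈ localNorm L v.1
    rw [show (x : Kˣ) = normHom y from hy.symm]
    exact normHom_mem_localNorm y _
  have h1 := Subgroup.index_dvd_of_le hker
  rw [index_ker_of_surjective Ψ hΨ, Nat.card_pi] at h1
  have h2 : (unitNorms L (S ∪ T)).index ≠ 0 := fun h => by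
    rw [h, zero_mul] at hidx
    exact pow_ne_zero _ hp.ne_zero hidx.symm
  have h3 : p ^ N'.card ≤ ∏ v : N', Nat.card (Kˣ ⧸ localNorm L v.1) := by
    calc p ^ N'.card = ∏ _v : N', p := by simp
      _ ≤ _ := Finset.prod_le_prod' fun v _ =>
        le_index_localNorm hp hdeg hζ (Finset.mem_filter.mp v.2).2
  have h4 := Nat.le_of_dvd (Nat.pos_of_ne_zero h2) h1
  have h5 : (unitNorms L (S ∪ T)).index * p ≤ (unitNorms L (S ∪ T)).index * 1 := by
    rw [hidx, mul_one]; exact h3.trans h4
  exact absurd (Nat.le_of_mul_le_mul_left h5 (Nat.pos_of_ne_zero h2)) (not_le.mpr hp.one_lt)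

/-- For large `S`, an `S`-unit which is everywhere on `S` a local `p`-th power is a `p`-th power. -/
theorem exists_pow_eq_of_sUnit (hp : p.Prime) (hodd : p ≠ 2) (hζ : IsPrimitiveRoot ζ p)
    {S : Finset (HeightOneSpectrum (𝓞 K))} (hS : SPrincipal K S)
    (hpS : ∀ v ∉ S, v.valuation K (p : K) = 1)
    {u : Kˣ} (hu : u ∈ sUnit K S) (hloc : ∀ v ∈ S, u ∈ localPow v p) : ∃ y : Kˣ, y ^ p = u := by
  classical
  exact exists_pow_eq_of_forall_localPow hp hodd hζ (T := ∅) (by rwa [Finset.union_empty]) hpS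
    (fun _ => ⟨1, one_mem _, by simp⟩) (by rwa [Finset.union_empty]) hloc

variable {L : Type} [Field L] [NumberField L] [Algebra K L] [IsGalois K L]

end Fermat.Agent.Duality.Global
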