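import Fermat.Agent.Duality.Global.Places

/-!
# `S`-units of a number field: finite generation and rank; `S`-principal sets of places
-/

set_option autoImplicit false

open IsDedekindDomain NumberField WithZero nonZeroDivisors

namespace Fermat.Agent.Duality.Global

variable (F : Type) [Field F] [NumberField F]

/-- Outside `S` every prime is generated by an element, up to primes of `S`. -/
def SPrincipal (S : Finset (HeightOneSpectrum (𝓞 F))) : Prop :=
  ∀ v ∉ S, ∃ π : Fˣ, v.valuation F (π : F) = exp (-1 : ℤ) ∧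
    ∀ v' ∉ S, v' ≠ v → v'.valuation F (π : F) = 1

lemma SPrincipal.mono {S T : Finset (HeightOneSpectrum (𝓞 F))} (h : SPrincipal F S) (hST : S ⊆ T) :
    SPrincipal F T := fun v hv => by
  obtain ⟨π, h1, h2⟩ := h v fun e => hv (hST e)
  exact ⟨π, h1, fun v' hv' => h2 v' fun e => hv' (hST e)⟩

/-- Some finite set of places kills the class group. -/
theorem exists_sPrincipal : ∃ S : Finset (HeightOneSpectrum (𝓞 F)), SPrincipal F S := by
  classical
  choose I hI using (ClassGroup.mk0_surjective : Function.Surjective (ClassGroup.mk0 (R := 𝓞 F)))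
  have hfin : ∀ c, {v : HeightOneSpectrum (𝓞 F) | v.asIdeal ∣ (I c).1}.Finite := fun c =>
    Ideal.finite_factors (nonZeroDivisors.coe_ne_zero (I c))
  refine ⟨Finset.univ.biUnion fun c => (hfin c).toFinset, fun v hv => ?_⟩
  have hS : ∀ v' ∉ Finset.univ.biUnion (fun c => (hfin c).toFinset), ∀ c,
      ¬ v'.asIdeal ∣ (I c).1 := fun v' hv' c hd =>
    hv' (Finset.mem_biUnion.mpr ⟨c, Finset.mem_univ _, (hfin c).mem_toFinset.mpr hd⟩)
  set P : (Ideal (𝓞 F))⁰ := ⟨v.asIdeal, mem_nonZeroDivisors_of_ne_zero v.ne_bot⟩ with hP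
  set J := I (ClassGroup.mk0 P) with hJ
  obtain ⟨a, b, ha, hb, hab⟩ := ClassGroup.mk0_eq_mk0_iff.mp (hI (ClassGroup.mk0 P)).symm
  -- `(a) * v = (b) * J`
  have hJu : ∀ v' ∉ Finset.univ.biUnion (fun c => (hfin c).toFinset), ∀ n : ℕ,
      v'.asIdeal ^ n ∣ Ideal.span {b} * J.1 ↔ v'.asIdeal ^ n ∣ Ideal.span {b} := by
    intro v' hv' n
    refine ⟨fun h => ?_, fun h => dvd_mul_of_dvd_left h _⟩
    exact v'.prime.pow_dvd_of_dvd_mul_right n (hS v' hv' _) h
  have hva : ∀ v' ∉ Finset.univ.biUnion (fun c => (hfin c).toFinset), v' ≠ v → ∀ n : ℕ,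
      v'.intValuation b ≤ exp (-(n : ℤ)) ↔ v'.intValuation a ≤ exp (-(n : ℤ)) := by
    intro v' hv' hne n
    rw [HeightOneSpectrum.intValuation_le_pow_iff_dvd,
      HeightOneSpectrum.intValuation_le_pow_iff_dvd,
      ← hJu v' hv' n, ← hab]
    refine ⟨fun h => v'.prime.pow_dvd_of_dvd_mul_right n (fun hd => hne ?_) h,
      fun h => dvd_mul_of_dvd_left h _⟩
    exact HeightOneSpectrum.ext
      ((v.isMaximal.eq_of_le v'.isPrime.ne_top (Ideal.le_of_dvd hd)).symm)
  have hvb : ∀ n : ℕ, v.intValuation b ≤ exp (-((n + 1 : ℕ) : ℤ)) ↔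
      v.intValuation a ≤ exp (-(n : ℤ)) := by
    intro n
    rw [HeightOneSpectrum.intValuation_le_pow_iff_dvd,
      HeightOneSpectrum.intValuation_le_pow_iff_dvd,
      ← hJu v hv (n + 1), ← hab, pow_succ]
    exact mul_dvd_mul_iff_right v.ne_bot
  have ha' : algebraMap (𝓞 F) F a ≠ 0 := by simpa using ha
  have hb' : algebraMap (𝓞 F) F b ≠ 0 := by simpa using hb
  refine ⟨Units.mk0 _ (div_ne_zero hb' ha'), ?_, fun v' hv' hne => ?_⟩
  · obtain ⟨m, hm⟩ : ∃ m : ℕ, v.intValuation a = exp (-(m : ℤ)) :=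
      ⟨_, v.intValuation_eq_exp_neg_multiplicity ha⟩
    obtain ⟨k, hk⟩ : ∃ k : ℕ, v.intValuation b = exp (-(k : ℤ)) :=
      ⟨_, v.intValuation_eq_exp_neg_multiplicity hb⟩
    have h1 := (hvb m).mpr hm.le
    rw [hk, exp_le_exp] at h1
    obtain ⟨j, rfl⟩ : ∃ j, k = j + 1 := ⟨k - 1, by omega⟩
    have h2 := (hvb j).mp hk.le
    rw [hm, exp_le_exp] at h2
    rw [Units.val_mk0, map_div₀, HeightOneSpectrum.valuation_of_algebraMap,
      HeightOneSpectrum.valuation_of_algebraMap, hm, hk, ← exp_sub]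
    congr 1; push_cast at *; omega
  · obtain ⟨m, hm⟩ : ∃ m : ℕ, v'.intValuation a = exp (-(m : ℤ)) :=
      ⟨_, v'.intValuation_eq_exp_neg_multiplicity ha⟩
    obtain ⟨k, hk⟩ : ∃ k : ℕ, v'.intValuation b = exp (-(k : ℤ)) :=
      ⟨_, v'.intValuation_eq_exp_neg_multiplicity hb⟩
    have h1 := (hva v' hv' hne m).mpr hm.le
    have h2 := (hva v' hv' hne k).mp hk.le
    rw [hk, exp_le_exp] at h1
    rw [hm, exp_le_exp] at h2
    rw [Units.val_mk0, map_div₀, HeightOneSpectrum.valuation_of_algebraMap,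
      HeightOneSpectrum.valuation_of_algebraMap, hm, hk, ← exp_sub, ← exp_zero]
    congr 1; omega

variable (S : Finset (HeightOneSpectrum (𝓞 F)))

/-- The `S`-units. -/
noncomputable abbrev sUnit : Subgroup Fˣ := (S : Set (HeightOneSpectrum (𝓞 F))).unit F

variable {F S}

lemma sUnit_mono {T : Finset (HeightOneSpectrum (𝓞 F))} (h : S ⊆ T) : sUnit F S ≤ sUnit F T :=
  fun _ hx v hv => hx v fun e => hv (h e)

variable (S) in
/-- The orders at the places of `S`. -/
noncomputable def ordHom : Additive (sUnit F S) →+ (S → ℤ) where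
  toFun x v := -log (v.1.valuation F ((Additive.toMul x).1 : F))
  map_zero' := by ext v; simp
  map_add' x y := by
    ext v
    show -log (v.1.valuation F (((Additive.toMul x).1 * (Additive.toMul y).1 : Fˣ) : F)) = _
    rw [Units.val_mul, map_mul, log_mul (by simp) (by simp)]
    simp only [Pi.add_apply]
    ring

lemma exists_unit_of_ordHom_eq_zero (x : Additive (sUnit F S)) (h : ordHom S x = 0) :
    ∃ u : (𝓞 F)ˣ, Units.map (algebraMap (𝓞 F) F).toMonoidHom u = (Additive.toMul x).1 := by
  have hall : ∀ v : HeightOneSpectrum (𝓞 F), v.valuation F ((Additive.toMul x).1 : F) = 1 := by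
    intro v
    by_cases hv : v ∈ S
    · have h1 := congrFun h ⟨v, hv⟩
      have h2 : log (v.valuation F ((Additive.toMul x).1 : F)) = 0 := neg_eq_zero.mp h1
      rw [← exp_log (show v.valuation F ((Additive.toMul x).1 : F) ≠ 0 by simp), h2, exp_zero]
    · exact (Additive.toMul x).2 v hv
  obtain ⟨a, ha⟩ := HeightOneSpectrum.mem_integers_of_valuation_le_one (R := 𝓞 F) F _
    fun v => (hall v).le
  obtain ⟨b, hb⟩ := HeightOneSpectrum.mem_integers_of_valuation_le_one (R := 𝓞 F) F
    (((Additive.toMul x).1⁻¹ : Fˣ) : F) fun v => by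
      rw [Units.val_inv_eq_inv_val, map_inv₀, hall v, inv_one]
  have hab : a * b = 1 := IsFractionRing.injective (𝓞 F) F (by
    rw [map_mul, ha, hb, map_one, ← Units.val_mul, mul_inv_cancel]; rfl)
  exact ⟨⟨a, b, hab, by rw [mul_comm, hab]⟩, Units.ext ha⟩

variable (S) in
/-- Units as `S`-units. -/
noncomputable def unitsToSUnit : Additive (𝓞 F)ˣ →+ Additive (sUnit F S) :=
  MonoidHom.toAdditive ((Units.map (algebraMap (𝓞 F) F).toMonoidHom).codRestrict (sUnit F S)
    fun u v _ => by
      show v.valuation F (algebraMap (𝓞 F) F u) = 1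
      rw [HeightOneSpectrum.valuation_of_algebraMap, HeightOneSpectrum.intValuation_eq_one_iff]
      intro h
      exact v.isPrime.ne_top (Ideal.eq_top_of_isUnit_mem _ h u.isUnit))

lemma range_unitsToSUnit :
    AddMonoidHom.range (unitsToSUnit (F := F) S) = AddMonoidHom.ker (ordHom S) := by
  ext x
  constructor
  · rintro ⟨u, rfl⟩
    ext v
    show -log (v.1.valuation F (algebraMap (𝓞 F) F (Additive.toMul u : (𝓞 F)ˣ))) = 0
    rw [HeightOneSpectrum.valuation_of_algebraMap, HeightOneSpectrum.intValuation_eq_one_iff.mpr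
      fun h => v.1.isPrime.ne_top (Ideal.eq_top_of_isUnit_mem _ h (Additive.toMul u).isUnit)]
    simp
  · intro hx
    obtain ⟨u, hu⟩ := exists_unit_of_ordHom_eq_zero x hx
    exact ⟨Additive.ofMul u, Subtype.ext hu⟩

instance moduleFinite_sUnit : Module.Finite ℤ (Additive (sUnit F S)) := by
  have : Module.Finite ℤ (LinearMap.ker (ordHom (F := F) S).toIntLinearMap) :=
    Module.Finite.of_surjective
      ((unitsToSUnit (F := F) S).toIntLinearMap.codRestrict _ fun u => by
        have : unitsToSUnit (F := F) S u ∈ AddMonoidHom.ker (ordHom S) :=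
          range_unitsToSUnit (S := S) ▸ ⟨u, rfl⟩
        exact this)
      fun x => by
        obtain ⟨u, hu⟩ := (range_unitsToSUnit (S := S)).ge (show x.1 ∈ AddMonoidHom.ker (ordHom S)
          from x.2)
        exact ⟨u, Subtype.ext hu⟩
  have : Module.Finite ℤ
      (Additive (sUnit F S) ⧸ LinearMap.ker (ordHom (F := F) S).toIntLinearMap) :=
    Module.Finite.equiv (ordHom (F := F) S).toIntLinearMap.quotKerEquivRange.symm
  exact Module.Finite.of_submodule_quotient (LinearMap.ker (ordHom (F := F) S).toIntLinearMap)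

/-- A power of every prime is principal. -/
lemma exists_generator_pow (v : HeightOneSpectrum (𝓞 F)) : ∃ a : 𝓞 F, a ≠ 0 ∧
    v.intValuation a = exp (-(Fintype.card (ClassGroup (𝓞 F)) : ℤ)) ∧
      ∀ v' ≠ v, v'.intValuation a = 1 := by
  classical
  set h := Fintype.card (ClassGroup (𝓞 F))
  set P : (Ideal (𝓞 F))⁰ := ⟨v.asIdeal, mem_nonZeroDivisors_of_ne_zero v.ne_bot⟩
  have hpr : ((P ^ h : (Ideal (𝓞 F))⁰) : Ideal (𝓞 F)).IsPrincipal :=
    ClassGroup.mk0_eq_one_iff (P ^ h).2 |>.mp (by rw [Subtype.coe_eta, map_pow, pow_card_eq_one])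
  obtain ⟨a, ha⟩ := hpr.principal
  have ha' : v.asIdeal ^ h = Ideal.span {a} := by simpa [P] using ha
  have ha0 : a ≠ 0 := by
    rintro rfl
    rw [show Ideal.span {(0 : 𝓞 F)} = ⊥ by simp] at ha'
    exact pow_ne_zero h v.ne_bot ha'
  refine ⟨a, ha0, ?_, fun v' hne => ?_⟩
  · refine le_antisymm ?_ ?_
    · rw [HeightOneSpectrum.intValuation_le_pow_iff_dvd, ← ha']
    · by_contra hlt
      obtain ⟨m, hm⟩ : ∃ m : ℕ, v.intValuation a = exp (-(m : ℤ)) :=
        ⟨_, v.intValuation_eq_exp_neg_multiplicity ha0⟩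
      rw [hm, exp_le_exp] at hlt
      have : v.asIdeal ^ (h + 1) ∣ v.asIdeal ^ h := by
        rw [ha', ← HeightOneSpectrum.intValuation_le_pow_iff_dvd, hm, exp_le_exp]; omega
      have := (pow_dvd_pow_iff v.ne_bot v.prime.not_isUnit).mp this
      omega
  · rw [HeightOneSpectrum.intValuation_eq_one_iff]
    intro hmem
    have : v'.asIdeal ∣ v.asIdeal ^ h := by
      rw [ha', Ideal.dvd_span_singleton]; exact hmem
    exact hne (HeightOneSpectrum.ext ((v.isMaximal.eq_of_le v'.isPrime.ne_top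
      (Ideal.le_of_dvd (v'.prime.dvd_of_dvd_pow this))).symm))

variable (S) in
/-- Dirichlet's `S`-unit theorem: the rank. -/
theorem finrank_sUnit :
    Module.finrank ℤ (Additive (sUnit F S)) = Units.rank F + S.card := by
  classical
  let φ := (ordHom (F := F) S).toIntLinearMap
  have h1 := rank_quotient_add_rank_of_isDomain (LinearMap.ker φ)
  rw [φ.quotKerEquivRange.rank_eq] at h1
  -- kernel = units
  have hker : Module.rank ℤ (LinearMap.ker φ) = Units.rank F := by
    have hinj : Function.Injective (unitsToSUnit (F := F) S) := fun a b e => by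
      have e' := congrArg (fun z : Additive (sUnit F S) => (Additive.toMul z).1) e
      exact congrArg Additive.ofMul (Units.map_injective
        (IsFractionRing.injective (𝓞 F) F) e' : Additive.toMul a = Additive.toMul b)
    have e := LinearEquiv.ofInjective (unitsToSUnit (F := F) S).toIntLinearMap hinj
    have hr : LinearMap.range (unitsToSUnit (F := F) S).toIntLinearMap = LinearMap.ker φ := by
      ext x
      exact SetLike.ext_iff.mp (range_unitsToSUnit (S := S)) x
    rw [hr] at e
    rw [← e.rank_eq, ← Module.finrank_eq_rank, NumberField.Units.finrank_eq]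
  -- image has finite index
  have hrange : Module.rank ℤ (LinearMap.range φ) = S.card := by
    have h2 := rank_quotient_add_rank_of_isDomain (LinearMap.range φ)
    have ht : Module.IsTorsion ℤ ((S → ℤ) ⧸ LinearMap.range φ) := by
      intro x
      obtain ⟨f, rfl⟩ := Submodule.Quotient.mk_surjective _ x
      set h := Fintype.card (ClassGroup (𝓞 F))
      refine ⟨⟨(h : ℤ),
        mem_nonZeroDivisors_of_ne_zero (by exact_mod_cast Fintype.card_ne_zero)⟩, ?_⟩
      show (h : ℤ) • (Submodule.Quotient.mk f : (S → ℤ) ⧸ LinearMap.range φ) = 0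
      rw [← Submodule.Quotient.mk_smul, Submodule.Quotient.mk_eq_zero,
        show (h : ℤ) • f = ∑ v : S, f v • Pi.single v (h : ℤ) by
          ext w; simp [Finset.sum_apply, Pi.single_apply, mul_comm]]
      refine Submodule.sum_mem _ fun v _ => Submodule.smul_mem _ _ ?_
      obtain ⟨a, ha0, hav, ha⟩ := exists_generator_pow v.1
      have ha' : algebraMap (𝓞 F) F a ≠ 0 := by simpa using ha0
      refine ⟨Additive.ofMul ⟨Units.mk0 _ ha', fun w hw => ?_⟩, ?_⟩
      · rw [Units.val_mk0, HeightOneSpectrum.valuation_of_algebraMap]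
        exact ha w fun e => hw (e ▸ v.2)
      · ext w
        show -log (w.1.valuation F (algebraMap (𝓞 F) F a)) = _
        rw [HeightOneSpectrum.valuation_of_algebraMap]
        rcases eq_or_ne w v with rfl | hwv
        · rw [hav, log_exp, neg_neg, Pi.single_eq_same]
        · rw [ha w.1 fun e => hwv (Subtype.ext e), Pi.single_eq_of_ne hwv]
          simp
    rw [Module.rank_eq_zero_iff_isTorsion.mpr ht, zero_add] at h2
    rw [h2, rank_fun']
    simp
  rw [hrange, hker] at h1
  rw [Module.finrank, ← h1, ← Nat.cast_add, Cardinal.toNat_natCast, add_comm]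

end Fermat.Agent.Duality.Global
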