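import Fermat.Agent.Density.Frobenius
import Fermat.Agent.Duality.Places.Adic
import Fermat.Agent.Duality.Global.Kummer

/-!
# Split places at which a given element is not a local `p`-th power
-/

set_option autoImplicit false

open IsDedekindDomain NumberField WithZero Module
open scoped Pointwise

namespace Fermat.Agent.Duality.Global

variable {K L : Type} [Field K] [NumberField K] [Field L] [NumberField L] [Algebra K L]
  [IsGalois K L] {p : ℕ} {ζ : K}

lemma eq_of_prime_natCast_mem {F : Type} [Field F] [NumberField F] {v : HeightOneSpectrum (𝓞 F)}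
    {ℓ r : ℕ} (hℓ : ℓ.Prime) (hr : r.Prime) (h1 : (ℓ : 𝓞 F) ∈ v.asIdeal)
    (h2 : (r : 𝓞 F) ∈ v.asIdeal) : ℓ = r := by
  by_contra hne
  obtain ⟨a, b, hab⟩ := Nat.isCoprime_iff_coprime.2 ((Nat.coprime_primes hℓ hr).2 hne)
  refine v.isPrime.ne_top ((Ideal.eq_top_iff_one _).2 ?_)
  have h := congrArg (Int.castRingHom (𝓞 F)) hab
  simp only [map_add, map_mul, map_natCast, map_one, eq_intCast] at h
  rw [← h]
  exact add_mem (v.asIdeal.mul_mem_left _ h1) (v.asIdeal.mul_mem_left _ h2)

/-- A `p`-th root of a local `p`-th power is fixed by the decomposition group at a good place. -/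
lemma not_mem_localPow_of_fixed {M : Type} [Field M] [NumberField M] [Algebra K M]
    (hp : p.Prime) (hζ : IsPrimitiveRoot ζ p) {u : Kˣ}
    {β : M} (hβ : β ^ p = algebraMap K M u) {σ : M ≃ₐ[K] M} (hσ : σ β ≠ β)
    {w : HeightOneSpectrum (𝓞 M)} {v : HeightOneSpectrum (𝓞 K)} (hw : Over w v)
    (hfix : galPlace σ w = w) (hv : v.valuation K (p : K) = 1) : u ∉ localPow v p := by
  intro hu
  have hεv : ordP v p = 0 := ordP_eq_zero v hp.ne_zero hv
  have hpw : w.valuation M (p : M) = 1 := by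
    rw [← map_natCast (algebraMap K M), valuation_eq_one_iff_of_over hw]; exact hv
  have hεw : ordP w p = 0 := ordP_eq_zero w hp.ne_zero hpw
  rw [localPow_eq v hp.ne_zero le_rfl, Subgroup.mem_sup] at hu
  obtain ⟨_, ⟨y, rfl⟩, c, hc, hyc⟩ := hu
  set z := algebraMap K M ζ with hzd
  have hz : IsPrimitiveRoot z p := hζ.map_of_injective (algebraMap K M).injective
  set γ : M := β / algebraMap K M y with hγd
  have hy0 : algebraMap K M (y : K) ≠ 0 := by simp
  have hγ : γ ^ p = algebraMap K M (c : K) := by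
    rw [hγd, div_pow, hβ, ← hyc, powMonoidHom_apply, Units.val_mul, Units.val_pow_eq_pow_val,
      map_mul, map_pow, mul_div_cancel_left₀ _ (pow_ne_zero _ hy0)]
  have h1 : w.valuation M (γ ^ p - 1) ≤ exp (-((1 : ℕ) : ℤ)) := by
    rw [hγ, ← map_one (algebraMap K M), ← map_sub]
    exact valuation_le_of_algebraMap hw (hc.2.trans (by rw [hεv]))
  obtain ⟨i, -, hclose⟩ := exists_near_root' w hp hz (by omega) h1
  rw [hεw, Nat.sub_zero] at hclose
  obtain ⟨k, hk, ek⟩ : ∃ k < p, z ^ k = σ β / β := by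
    have : NeZero p := ⟨hp.ne_zero⟩
    refine hz.eq_pow_of_pow_eq_one ?_
    rw [div_pow, ← map_pow, hβ, AlgEquiv.commutes, div_self (by simp)]
  have hβ0 : β ≠ 0 := fun h => hσ (by rw [h, map_zero])
  have hσβ : σ β = z ^ k * β := by rw [ek, div_mul_cancel₀ _ hβ0]
  have hk0 : k ≠ 0 := fun h => hσ (by rw [hσβ, h, pow_zero, one_mul])
  have hσγ : σ γ = z ^ k * γ := by
    rw [hγd, map_div₀, hσβ, AlgEquiv.commutes, mul_div_assoc]
  have h2 : w.valuation M (z ^ k * γ - z ^ i) ≤ exp (-((1 : ℕ) : ℤ)) := by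
    refine le_trans (le_of_eq ?_) hclose
    conv_lhs => rw [← hfix]
    rw [show z ^ k * γ - z ^ i = σ (γ - z ^ i) by
      rw [map_sub, hσγ, map_pow, show σ z = z from AlgEquiv.commutes σ ζ]]
    exact galPlace_valuation σ w _
  have hz1 : w.valuation M z = 1 := by
    have := congrArg (w.valuation M) hz.pow_eq_one
    rwa [map_pow, map_one, pow_eq_one_iff_of_nonneg zero_le hp.ne_zero] at this
  have h3 : w.valuation M (1 - z ^ k) ≤ exp (-((1 : ℕ) : ℤ)) := by
    have e1 : (z ^ k * γ - z ^ i) - z ^ k * (γ - z ^ i) = -(1 - z ^ k) * z ^ i := by ring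
    have h4 : w.valuation M (-(1 - z ^ k) * z ^ i) ≤ exp (-((1 : ℕ) : ℤ)) := by
      rw [← e1]
      refine (Valuation.map_sub _ _ _).trans (max_le h2 ?_)
      rw [map_mul, map_pow, hz1, one_pow, one_mul]
      exact hclose
    rwa [map_mul, Valuation.map_neg, map_pow, hz1, one_pow, mul_one] at h4
  have h5 := (one_sub_pow_valuation w hp hz hk0 hk).trans h3
  rw [hεw, exp_le_exp] at h5
  omega

/-- If `u` is not a `p`-th power in `L`, some place outside `S` splits in `L` and sees this. -/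
theorem exists_isSplit_not_mem_localPow (hp : p.Prime) (hdeg : finrank K L = p)
    (hζ : IsPrimitiveRoot ζ p) (S : Finset (HeightOneSpectrum (𝓞 K)))
    (hpS : ∀ v ∉ S, v.valuation K (p : K) = 1) {u : Kˣ}
    (hu : ∀ y : L, y ^ p ≠ algebraMap K L u) :
    ∃ v ∉ S, IsSplit L v ∧ u ∉ localPow v p := by
  classical
  obtain ⟨β, hβ⟩ := IsAlgClosed.exists_pow_nat_eq
    (algebraMap L (AlgebraicClosure L) (algebraMap K L u)) hp.pos
  let E₀ : IntermediateField L (AlgebraicClosure L) := IntermediateField.adjoin L {β}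
  have : FiniteDimensional L E₀ :=
    IntermediateField.adjoin.finiteDimensional (Algebra.IsAlgebraic.isAlgebraic β).isIntegral
  have : FiniteDimensional ℚ (E₀.restrictScalars ℚ) := Module.Finite.trans (R := ℚ) L E₀
  let M : IntermediateField ℚ (AlgebraicClosure L) :=
    IntermediateField.normalClosure ℚ (E₀.restrictScalars ℚ) (AlgebraicClosure L)
  have hE : E₀.restrictScalars ℚ ≤ M := IntermediateField.le_normalClosure _
  have hLM : ∀ x : L, algebraMap L (AlgebraicClosure L) x ∈ M := fun x =>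
    hE (E₀.algebraMap_mem x)
  let : Algebra L M := ((algebraMap L (AlgebraicClosure L)).codRestrict M hLM).toAlgebra
  let : Algebra K M := ((algebraMap L M).comp (algebraMap K L)).toAlgebra
  have : IsScalarTower K L M := IsScalarTower.of_algebraMap_eq' rfl
  have : IsScalarTower ℚ K M := IsScalarTower.of_algebraMap_eq' (Subsingleton.elim _ _)
  have : IsScalarTower ℚ L M := IsScalarTower.of_algebraMap_eq' (Subsingleton.elim _ _)
  have : FiniteDimensional ℚ M := normalClosure.is_finiteDimensional ℚ _ _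
  have : IsAlgClosure ℚ (AlgebraicClosure L) :=
    ⟨inferInstance, Algebra.IsAlgebraic.trans ℚ L (AlgebraicClosure L)⟩
  have : Normal ℚ (AlgebraicClosure L) := IsAlgClosure.normal ℚ _
  have : Normal ℚ M := normalClosure.normal ℚ _ _
  have : NumberField M := { }
  have : IsGalois ℚ M := { }
  have : IsGalois K M := IsGalois.tower_top_of_isGalois ℚ K M
  have : IsGalois L M := IsGalois.tower_top_of_isGalois ℚ L M
  have : FiniteDimensional L M := FiniteDimensional.right ℚ L M
  set β' : M := ⟨β, hE (IntermediateField.mem_adjoin_simple_self L β)⟩ with hβ'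
  have hβp : β' ^ p = algebraMap K M u := Subtype.ext hβ
  have hβL : β' ∉ Set.range (algebraMap L M) := by
    rintro ⟨y, hy⟩
    refine hu y ((algebraMap L M).injective ?_)
    rw [map_pow, hy, hβp]; rfl
  obtain ⟨σ, hσ⟩ : ∃ σ : M ≃ₐ[L] M, σ β' ≠ β' := by
    by_contra h
    push Not at h
    exact hβL ((IsGalois.mem_range_algebraMap_iff_fixed β').mpr h)
  set σQ : M ≃ₐ[ℚ] M := σ.restrictScalars ℚ
  choose r hr hrv using fun v : HeightOneSpectrum (𝓞 K) => Places.exists_prime_natCast_mem v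
  obtain ⟨ℓ, hℓ, hℓS, hfrob⟩ := Density.exists_prime_forall_frobAt σQ (S.image r)
  obtain ⟨Q, hQ, hmem⟩ := Density.exists_prime_over M hℓ
  obtain ⟨hdet, hg⟩ := hfrob Q hQ hmem
  obtain ⟨f, hf⟩ := Density.exists_frobAt (L := M) hℓ hmem
  obtain ⟨g, hgσ⟩ := hg f hf
  set f' := g * f * g⁻¹ with hf'
  have hF : Density.FrobAt (g • Q) ℓ f' := hf.conj g
  have hD : Density.DeterminedMod (g • Q) := hdet.conj g
  have hmem' : (ℓ : 𝓞 M) ∈ g • Q := Density.natCast_mem_smul hmem g
  have hQ' : (g • Q).IsPrime := Ideal.map_isPrime_of_equiv (MulSemiringAction.toRingEquiv _ (𝓞 M) g)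
  have hne : g • Q ≠ ⊥ := fun h => by
    rw [h, Ideal.mem_bot, Nat.cast_eq_zero] at hmem'
    exact hℓ.ne_zero hmem'
  let w : HeightOneSpectrum (𝓞 M) := ⟨g • Q, hQ', hne⟩
  have hgal : ∀ G : M ≃ₐ[K] M, (galPlace G w).asIdeal = G.restrictScalars ℚ • (g • Q) :=
    fun G => rfl
  have hfix : ∀ h ∈ Subgroup.zpowers σQ, h • (g • Q) = g • Q := by
    have hle : f' • (g • Q) ≤ g • Q := by
      intro x hx
      rw [Ideal.mem_pointwise_smul_iff_inv_smul_mem] at hx
      have h1 := hF (f'⁻¹ • x)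
      rw [smul_inv_smul] at h1
      simpa using (g • Q).add_mem h1 (Ideal.pow_mem_of_mem _ hx ℓ hℓ.pos)
    have : (f' • (g • Q)).IsPrime :=
      Ideal.map_isPrime_of_equiv (MulSemiringAction.toRingEquiv _ (𝓞 M) f')
    have hmax : (f' • (g • Q)).IsMaximal := Ideal.IsPrime.isMaximal inferInstance fun h => by
      have h2 : (ℓ : 𝓞 M) ∈ f' • (g • Q) := Density.natCast_mem_smul hmem' f'
      rw [h, Ideal.mem_bot, Nat.cast_eq_zero] at h2
      exact hℓ.ne_zero h2
    have heq : f' • (g • Q) = g • Q := hmax.eq_of_le hQ'.ne_top hle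
    intro h hh
    rw [← hgσ] at hh
    exact (Subgroup.zpowers_le.mpr (show f' ∈ MulAction.stabilizer (M ≃ₐ[ℚ] M) (g • Q) from heq)) hh
  obtain ⟨v, hv⟩ := exists_place_under (K := K) w
  have hℓv : (ℓ : 𝓞 K) ∈ v.asIdeal := by
    rw [hv.over, Ideal.under_def, Ideal.mem_comap, map_natCast]
    exact hmem'
  have hvS : v ∉ S := fun h => hℓS (Finset.mem_image.mpr
    ⟨v, h, eq_of_prime_natCast_mem (hr v) hℓ (hrv v) hℓv⟩)
  refine ⟨v, hvS, ?_, not_mem_localPow_of_fixed hp hζ hβp (σ := σ.restrictScalars K) hσ hv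
    (HeightOneSpectrum.ext ((hgal _).trans (hfix σQ (Subgroup.mem_zpowers _)))) (hpS v hvS)⟩
  -- splitting
  obtain ⟨wL, hwL⟩ := exists_place_under (K := L) w
  have hwLv : Over wL v := over_of_valuation fun x => by
    rw [← valuation_lt_one_iff_of_over hwL, ← IsScalarTower.algebraMap_apply,
      valuation_lt_one_iff_of_over hv]
  obtain ⟨τ, hτ⟩ := exists_ne_one hp hdeg (L := L)
  refine ⟨τ, wL, hwLv, fun hτw => hτ ?_⟩
  obtain ⟨G, hG⟩ := AlgEquiv.restrictNormalHom_surjective M (K₁ := L) (F := K) τ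
  have hG' : ∀ x : L, G (algebraMap L M x) = algebraMap L M (τ x) := fun x => by
    rw [← hG]; exact (AlgEquiv.restrictNormal_commutes G L x).symm
  have hGover : Over (galPlace G w) wL := over_of_valuation fun x => by
    conv_lhs => rw [show x = τ (τ⁻¹ x) from (τ.apply_symm_apply x).symm, ← hG', galPlace_valuation,
      valuation_lt_one_iff_of_over hwL, ← galPlace_valuation', hτw]
  obtain ⟨h, hh⟩ := exists_galPlace_eq hGover hwL
  have hH : galPlace (h.restrictScalars K * G) w = w := by rw [galPlace_mul]; exact hh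
  obtain ⟨i, hi⟩ := Density.exists_pow_eq_of_smul_eq hℓ hmem' hD hF
    ((hgal _).symm.trans (congrArg HeightOneSpectrum.asIdeal hH))
  have hmemσ : (h.restrictScalars K * G).restrictScalars ℚ ∈ Subgroup.zpowers σQ := by
    rw [hi, ← hgσ]; exact Subgroup.pow_mem _ (Subgroup.mem_zpowers _) i
  obtain ⟨j, hj⟩ := hmemσ
  refine AlgEquiv.ext fun x => (algebraMap L M).injective ?_
  have hfixL : ∀ y : L, (σQ ^ j) (algebraMap L M y) = algebraMap L M y := fun y =>
    (MulAction.mem_stabilizer_iff).1 (zpow_mem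
      (show σQ ∈ MulAction.stabilizer (M ≃ₐ[ℚ] M) (algebraMap L M y) from σ.commutes y) j)
  have h1 : h (algebraMap L M (τ x)) = algebraMap L M x := by
    rw [← hG']
    exact (DFunLike.congr_fun hj (algebraMap L M x)).symm.trans (hfixL x)
  rwa [AlgEquiv.commutes] at h1

end Fermat.Agent.Duality.Global
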