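import Fermat.Agent.Duality.Global.Powers
import Fermat.Agent.Duality.Global.SplitPlaces

/-!
# The second inequality for Kummer extensions of degree `p`: `S`-units which are local norms
on `S` are norms
-/

set_option autoImplicit false

open IsDedekindDomain NumberField WithZero Module

namespace Fermat.Agent.Duality.Global

variable {K L : Type} [Field K] [NumberField K] [Field L] [NumberField L] [Algebra K L]
  [IsGalois K L] {p : ℕ} {ζ : K}

variable (L p) in
/-- The `S`-units which are `p`-th powers in `L`. -/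
noncomputable def unitsPowUp (S : Finset (HeightOneSpectrum (𝓞 K))) : Subgroup (sUnit K S) :=
  ((powMonoidHom p : Lˣ →* Lˣ).range.comap
    (Units.map (algebraMap K L).toMonoidHom)).subgroupOf (sUnit K S)

lemma index_unitsPowUp (hp : p.Prime) (hdeg : finrank K L = p) (hζ : IsPrimitiveRoot ζ p)
    {α : L} {a : Kˣ} (hα : α ^ p = algebraMap K L a) (hαK : α ∉ Set.range (algebraMap K L))
    {S : Finset (HeightOneSpectrum (𝓞 K))} (ha : a ∈ sUnit K S) :
    (unitsPowUp L p S).index * p = p ^ (S.card + Fintype.card (InfinitePlace K)) := by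
  have := Fact.mk hp
  set P := (powMonoidHom p : sUnit K S →* sUnit K S).range with hP
  set W := unitsPowUp L p S with hW
  have hα0 : α ≠ 0 := fun h => hαK ⟨0, by rw [h, map_zero]⟩
  have haW : (⟨a, ha⟩ : sUnit K S) ∈ W := ⟨Units.mk0 α hα0, Units.ext hα⟩
  have hPW : P ≤ W := by
    rintro _ ⟨z, rfl⟩
    refine ⟨Units.map (algebraMap K L).toMonoidHom (z : Kˣ), ?_⟩
    show _ ^ p = Units.map (algebraMap K L).toMonoidHom (((z ^ p : sUnit K S)) : Kˣ)
    rw [SubmonoidClass.coe_pow, map_pow]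
  let φ : W →* sUnit K S ⧸ P := (QuotientGroup.mk' P).comp W.subtype
  have hker : φ.ker = P.subgroupOf W := by
    ext x
    exact QuotientGroup.eq_one_iff _
  have hrange : φ.range = Subgroup.zpowers (QuotientGroup.mk' P ⟨a, ha⟩) := by
    refine le_antisymm ?_ ((Subgroup.zpowers_le).mpr ⟨⟨_, haW⟩, rfl⟩)
    rintro _ ⟨⟨⟨u, hu⟩, Y, hY⟩, rfl⟩
    have hY' : (Y : L) ^ p = algebraMap K L (u : K) := congrArg Units.val hY
    obtain ⟨c, i, hci⟩ := eq_mul_pow_of_pow_mem hp hdeg hζ ⟨_, hα.symm⟩ hαK ⟨_, hY'.symm⟩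
    have huc : (u : K) = c ^ p * (a : K) ^ i := by
      refine (algebraMap K L).injective ?_
      rw [← hY', hci, map_mul, map_pow, map_pow, mul_pow, ← pow_mul, mul_comm i, pow_mul, hα]
    have hc0 : c ≠ 0 := fun h => u.ne_zero (by rw [huc, h, zero_pow hp.ne_zero, zero_mul])
    have huc' : u = Units.mk0 c hc0 ^ p * a ^ i := Units.ext huc
    have hcS : Units.mk0 c hc0 ∈ sUnit K S := by
      intro v hv
      have h1 : (Units.mk0 c hc0) ^ p ∈ sUnit K S := by
        rw [eq_div_of_mul_eq' huc'.symm]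
        exact div_mem hu (pow_mem ha i)
      have h2 := h1 v hv
      rw [Units.val_pow_eq_pow_val, map_pow, pow_eq_one_iff_of_nonneg zero_le hp.ne_zero] at h2
      exact h2
    refine ⟨i, ?_⟩
    show QuotientGroup.mk' P ⟨a, ha⟩ ^ (i : ℤ) = QuotientGroup.mk' P ⟨u, hu⟩
    rw [zpow_natCast, ← map_pow]
    refine QuotientGroup.eq.mpr ⟨⟨_, hcS⟩, Subtype.ext ?_⟩
    show Units.mk0 c hc0 ^ p = (a ^ i)⁻¹ * u
    rw [huc', mul_comm (_ ^ p), inv_mul_cancel_left]
  have hord : orderOf (QuotientGroup.mk' P (⟨a, ha⟩ : sUnit K S)) = p := by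
    refine orderOf_eq_prime ?_ fun h => hαK ?_
    · rw [← map_pow]
      exact (QuotientGroup.eq_one_iff _).mpr ⟨⟨a, ha⟩, rfl⟩
    · obtain ⟨z, hz⟩ := (QuotientGroup.eq_one_iff (⟨a, ha⟩ : sUnit K S)).mp h
      have hz' : ((z : Kˣ) : K) ^ p = a := congrArg (fun t : sUnit K S => ((t : Kˣ) : K)) hz
      set e : L := algebraMap K L ((z : Kˣ) : K)
      have h1 : (α / e) ^ p = 1 := by
        rw [div_pow, hα, ← hz', map_pow, div_self (pow_ne_zero _ (by simp))]
      have : NeZero p := ⟨hp.ne_zero⟩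
      obtain ⟨i, -, hi⟩ :=
        (hζ.map_of_injective (algebraMap K L).injective).eq_pow_of_pow_eq_one h1
      exact ⟨ζ ^ i * ((z : Kˣ) : K), by
        rw [map_mul, map_pow, hi, div_mul_cancel₀ _ (by simp [e])]⟩
  have hrel : P.relIndex W = p := by
    rw [Subgroup.relIndex, ← hker, Subgroup.index_ker, hrange, Nat.card_zpowers, hord]
  have := Subgroup.relIndex_mul_index hPW
  rw [hrel, index_sUnit_pow hp hζ] at this
  rw [← this, mul_comm]

variable (p) in
/-- The `S`-units which are local `p`-th powers on `T`. -/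
noncomputable def localPowOn (S T : Finset (HeightOneSpectrum (𝓞 K))) : Subgroup (sUnit K S) :=
  ⨅ v ∈ T, (localPow v p).subgroupOf (sUnit K S)

lemma mem_localPowOn {S T : Finset (HeightOneSpectrum (𝓞 K))} {x : sUnit K S} :
    x ∈ localPowOn p S T ↔ ∀ v ∈ T, (x : Kˣ) ∈ localPow v p := by
  simp [localPowOn, Subgroup.mem_iInf, Subgroup.mem_subgroupOf]

open Classical in
/-- The auxiliary places: split in `L`, and seen faithfully by the `S`-units modulo `L ^ p`. -/
theorem exists_aux_places (hp : p.Prime) (hdeg : finrank K L = p) (hζ : IsPrimitiveRoot ζ p)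
    {α : L} {a : Kˣ} (hα : α ^ p = algebraMap K L a) (hαK : α ∉ Set.range (algebraMap K L))
    {S : Finset (HeightOneSpectrum (𝓞 K))} (hpS : ∀ v ∉ S, v.valuation K (p : K) = 1)
    (ha : a ∈ sUnit K S) :
    ∃ T : Finset (HeightOneSpectrum (𝓞 K)), (∀ v ∈ T, v ∉ S ∧ IsSplit L v) ∧
      T.card + 1 = S.card + Fintype.card (InfinitePlace K) ∧
      ∀ x : HeightOneSpectrum (𝓞 K) → Kˣ, (∀ v ∈ T, x v ∈ unitsAt v) →
        ∃ u ∈ sUnit K S, ∀ v ∈ T, u / x v ∈ localPow v p := by
  set r := S.card + Fintype.card (InfinitePlace K)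
  have hle : ∀ T : Finset (HeightOneSpectrum (𝓞 K)), (∀ v ∈ T, IsSplit L v) →
      unitsPowUp L p S ≤ localPowOn p S T := by
    rintro T hT u ⟨Y, hY⟩
    exact mem_localPowOn.mpr fun v hv =>
      mem_localPow_of_isSplit hp hdeg (hT v hv) (congrArg Units.val hY)
  suffices h : ∀ k, ∀ T : Finset (HeightOneSpectrum (𝓞 K)), r ≤ T.card + k →
      (∀ v ∈ T, v ∉ S ∧ IsSplit L v) → (localPowOn p S T).index = p ^ T.card →
      (∀ x : HeightOneSpectrum (𝓞 K) → Kˣ, (∀ v ∈ T, x v ∈ unitsAt v) →
        ∃ u ∈ sUnit K S, ∀ v ∈ T, u / x v ∈ localPow v p) →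
      ∃ T' : Finset (HeightOneSpectrum (𝓞 K)), (∀ v ∈ T', v ∉ S ∧ IsSplit L v) ∧
        T'.card + 1 = r ∧ ∀ x : HeightOneSpectrum (𝓞 K) → Kˣ, (∀ v ∈ T', x v ∈ unitsAt v) →
          ∃ u ∈ sUnit K S, ∀ v ∈ T', u / x v ∈ localPow v p by
    refine h r ∅ (by simp) (by simp) ?_ (fun x _ => ⟨1, one_mem _, by simp⟩)
    simp [localPowOn]
  have hidx := index_unitsPowUp hp hdeg hζ hα hαK ha
  -- the index bounds the number of places
  have hbound : ∀ T : Finset (HeightOneSpectrum (𝓞 K)), (∀ v ∈ T, v ∉ S ∧ IsSplit L v) →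
      (localPowOn p S T).index = p ^ T.card → T.card < r := by
    intro T hT hTi
    have h1 := Subgroup.index_dvd_of_le (hle T fun v hv => (hT v hv).2)
    have h2 : p ^ T.card * p ∣ p ^ r := by rw [← hidx]; exact mul_dvd_mul_right (hTi ▸ h1) p
    rw [← pow_succ] at h2
    exact Nat.lt_of_succ_le ((Nat.pow_dvd_pow_iff_le_right hp.one_lt).mp h2)
  intro k
  induction k with
  | zero => exact fun T hT hT1 hTi _ => absurd (hbound T hT1 hTi) (by omega)
  | succ k ih =>
    intro T hk hT hTi hTs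
    by_cases hW : localPowOn p S T ≤ unitsPowUp L p S
    · refine ⟨T, hT, Nat.pow_right_injective hp.two_le ?_, hTs⟩
      show p ^ (T.card + 1) = p ^ r
      rw [pow_succ, ← hTi, le_antisymm hW (hle T fun v hv => (hT v hv).2), hidx]
    obtain ⟨⟨u, huS⟩, huW, huL⟩ := SetLike.not_le_iff_exists.mp hW
    have hu : ∀ y : L, y ^ p ≠ algebraMap K L u := fun y hy => huL
      ⟨Units.mk0 y fun h => (by
        rw [h, zero_pow hp.ne_zero] at hy
        exact u.ne_zero ((algebraMap K L).injective (hy.symm.trans (map_zero _).symm))),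
        Units.ext hy⟩
    obtain ⟨v, hvS, hvs, hvu⟩ := exists_isSplit_not_mem_localPow hp hdeg hζ S hpS hu
    rw [mem_localPowOn] at huW
    have hvT : v ∉ T := fun h => hvu (huW v h)
    refine ih (insert v T) (by rw [Finset.card_insert_of_notMem hvT]; omega) ?_ ?_ ?_
    · intro w hw
      rcases Finset.mem_insert.mp hw with rfl | hw
      · exact ⟨hvS, hvs⟩
      · exact hT w hw
    · -- the index is multiplied by `p`
      set W := localPowOn p S T
      let φ : W →* Kˣ ⧸ localPow v p :=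
        (QuotientGroup.mk' (localPow v p)).comp ((sUnit K S).subtype.comp W.subtype)
      have hker : φ.ker = (localPowOn p S (insert v T)).subgroupOf W := by
        ext x
        rw [Subgroup.mem_subgroupOf, mem_localPowOn, MonoidHom.mem_ker]
        refine (QuotientGroup.eq_one_iff _).trans
          ⟨fun h w hw => ?_, fun h => h v (Finset.mem_insert_self v T)⟩
        rcases Finset.mem_insert.mp hw with rfl | hw
        · exact h
        · exact mem_localPowOn.mp x.2 w hw
      have hrange : φ.range = Subgroup.zpowers (QuotientGroup.mk' (localPow v p) u) := by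
        refine le_antisymm ?_ ((Subgroup.zpowers_le).mpr
          ⟨⟨⟨u, huS⟩, mem_localPowOn.mpr huW⟩, rfl⟩)
        rintro _ ⟨x, rfl⟩
        obtain ⟨i, hi⟩ := exists_div_pow_mem_localPow hp hζ (hpS v hvS) (huS v hvS) hvu
          (show ((x : sUnit K S) : Kˣ) ∈ unitsAt v from (x : sUnit K S).2 v hvS)
        refine ⟨i, ?_⟩
        show QuotientGroup.mk' (localPow v p) u ^ (i : ℤ) =
          QuotientGroup.mk' _ ((x : sUnit K S) : Kˣ)
        rw [zpow_natCast, ← map_pow]
        refine QuotientGroup.eq.mpr ?_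
        rw [inv_mul_eq_div]
        exact hi
      have hord : orderOf (QuotientGroup.mk' (localPow v p) u) = p := by
        have := Fact.mk hp
        exact orderOf_eq_prime (by
          rw [← map_pow]
          exact (QuotientGroup.eq_one_iff _).mpr (range_pow_le_localPow v p ⟨u, rfl⟩))
          fun h => hvu ((QuotientGroup.eq_one_iff u).mp h)
      have hle' : localPowOn p S (insert v T) ≤ W := fun x hx =>
        mem_localPowOn.mpr fun w hw => mem_localPowOn.mp hx w (Finset.mem_insert_of_mem hw)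
      have hrel : (localPowOn p S (insert v T)).relIndex W = p := by
        rw [Subgroup.relIndex, ← hker, Subgroup.index_ker, hrange, Nat.card_zpowers, hord]
      rw [← Subgroup.relIndex_mul_index hle', hrel, hTi, Finset.card_insert_of_notMem hvT,
        pow_succ']
    · intro x hx
      obtain ⟨u₀, hu₀, hu₀'⟩ := hTs x fun w hw => hx w (Finset.mem_insert_of_mem hw)
      obtain ⟨i, hi⟩ := exists_div_pow_mem_localPow hp hζ (hpS v hvS) (huS v hvS) hvu
        (div_mem (hx v (Finset.mem_insert_self v T)) (hu₀ v hvS : u₀ ∈ unitsAt v))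
      refine ⟨u₀ * u ^ i, mul_mem hu₀ (pow_mem huS i), fun w hw => ?_⟩
      rcases Finset.mem_insert.mp hw with rfl | hw
      · have h1 := (localPow w p).inv_mem hi
        rwa [inv_div, div_div_eq_mul_div, mul_comm] at h1
      · rw [mul_div_right_comm]
        exact mul_mem (hu₀' w hw) (pow_mem (huW w hw) i)

/-- A prime generator of a split place of `L`, normed down. -/
lemma exists_norm_prime (hp : p.Prime) (hdeg : finrank K L = p)
    {S : Finset (HeightOneSpectrum (𝓞 K))} (hSL : SPrincipal L (placesOver L S))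
    {v : HeightOneSpectrum (𝓞 K)} (hvS : v ∉ S) (hs : IsSplit L v) :
    ∃ π ∈ (normHom (K := K) (L := L)).range, v.valuation K (π : K) = exp (-1 : ℤ) ∧
      ∀ v' ∉ S, v' ≠ v → v'.valuation K (π : K) = 1 := by
  classical
  obtain ⟨w, hw⟩ := exists_over (L := L) v
  have hout : ∀ {w' : HeightOneSpectrum (𝓞 L)} {v' : HeightOneSpectrum (𝓞 K)}, Over w' v' →
      v' ∉ S → w' ∉ placesOver L S := fun h' hv' h => by
    obtain ⟨v'', hv'', hov⟩ := mem_placesOver.mp h
    exact hv' (over_unique h' hov ▸ hv'')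
  obtain ⟨β, hβ1, hβ⟩ := hSL w (hout hw hvS)
  refine ⟨normHom β, ⟨β, rfl⟩, ?_, fun v' hv' hne => ?_⟩
  · rw [← isUnram_of_isSplit hp hdeg hs w hw, coe_normHom, Algebra.norm_eq_prod_automorphisms,
      map_prod, Finset.prod_eq_single_of_mem (1 : L ≃ₐ[K] L) (Finset.mem_univ _)]
    · exact hβ1
    · intro τ _ hτ
      rw [← inv_inv τ, ← galPlace_valuation']
      refine hβ _ (hout (over_galPlace _ hw) hvS) fun e => hτ ?_
      have := galPlace_injective_of_isSplit hp hdeg hs hw (e.trans (galPlace_one w).symm)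
      exact inv_eq_one.mp this
  · obtain ⟨w', hw'⟩ := exists_over (L := L) v'
    rw [← valuation_eq_one_iff_of_over hw', coe_normHom, Algebra.norm_eq_prod_automorphisms,
      map_prod]
    refine Finset.prod_eq_one fun τ _ => ?_
    rw [← inv_inv τ, ← galPlace_valuation']
    exact hβ _ (hout (over_galPlace _ hw') hv') fun e =>
      hne (over_unique (over_galPlace _ hw') (e ▸ hw))

/-- The Hasse norm theorem for `S`-units. -/
theorem exists_norm_eq_of_sUnit (hp : p.Prime) (hodd : p ≠ 2) (hdeg : finrank K L = p)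
    (hζ : IsPrimitiveRoot ζ p)
    {α : L} {a : Kˣ} (hα : α ^ p = algebraMap K L a) (hαK : α ∉ Set.range (algebraMap K L))
    {S : Finset (HeightOneSpectrum (𝓞 K))} (hS : SPrincipal K S)
    (hSL : SPrincipal L (placesOver L S)) (hpS : ∀ v ∉ S, v.valuation K (p : K) = 1)
    (ha : a ∈ sUnit K S) {x : Kˣ} (hx : x ∈ sUnit K S) (hloc : ∀ v ∈ S, x ∈ localNorm L v) :
    ∃ y : Lˣ, y ∈ sUnitUp L S ∧ normHom (K := K) y = x := by
  classical
  obtain ⟨T, hT, hTcard, hTs⟩ := exists_aux_places hp hdeg hζ hα hαK hpS ha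
  have hdisj : Disjoint S T := Finset.disjoint_left.mpr fun v h h' => (hT v h').1 h
  -- `S ∪ T`-units fill up the classes at `T`
  have hπ : ∀ v ∈ T, ∃ π ∈ (⊤ : Subgroup Kˣ), v.valuation K (π : K) = exp (-1 : ℤ) ∧
      ∀ v' ∉ S, v' ≠ v → v'.valuation K (π : K) = 1 := fun v hv => by
    obtain ⟨π, h1, h2⟩ := hS v (hT v hv).1
    exact ⟨π, Subgroup.mem_top π, h1, h2⟩
  have hsurj : ∀ f : HeightOneSpectrum (𝓞 K) → Kˣ, ∃ y ∈ sUnit K (S ∪ T),
      ∀ v ∈ T, y / f v ∈ localPow v p := by
    intro f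
    obtain ⟨x₀, -, hx₀, hx₀v⟩ := exists_prod_valuation S T ⊤ (fun v hv => (hT v hv).1) hπ
      fun v => log (v.valuation K (f v : K))
    obtain ⟨u, hu, hu'⟩ := hTs (fun v => f v / x₀) fun v hv => by
      show v.valuation K ((f v / x₀ : Kˣ) : K) = 1
      rw [Units.val_div_eq_div_val, map_div₀, hx₀v v hv, exp_log (by simp), div_self (by simp)]
    refine ⟨u * x₀, mul_mem (sUnit_mono Finset.subset_union_left hu) hx₀, fun v hv => ?_⟩
    have := hu' v hv
    rwa [div_div_eq_mul_div] at this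
  have hinj : ∀ {u : Kˣ}, u ∈ sUnit K (S ∪ T) → (∀ v ∈ S, u ∈ localPow v p) →
      ∃ y : Kˣ, y ^ p = u := fun hu h => exists_pow_eq_of_forall_localPow hp hodd hζ
    (SPrincipal.mono K hS Finset.subset_union_left) hpS hsurj hu h
  -- the image at `S` has index `p`
  let Φ := MonoidHom.mk' (G := ∀ v : S, Kˣ ⧸ localPow v.1 p)
    (fun (u : sUnit K (S ∪ T)) (v : S) => ((u : Kˣ) : Kˣ ⧸ localPow v.1 p)) fun _ _ => rfl
  have hΦker : Φ.ker = (powMonoidHom p : sUnit K (S ∪ T) →* sUnit K (S ∪ T)).range := by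
    ext u
    constructor
    · intro hu
      obtain ⟨y, hy⟩ := hinj u.2 fun v hv => (QuotientGroup.eq_one_iff _).mp (congrFun hu ⟨v, hv⟩)
      have hyS : y ∈ sUnit K (S ∪ T) := fun v hv => by
        have h1 := u.2 v hv
        rw [← hy, Units.val_pow_eq_pow_val, map_pow,
          pow_eq_one_iff_of_nonneg zero_le hp.ne_zero] at h1
        exact h1
      exact ⟨⟨y, hyS⟩, Subtype.ext hy⟩
    · rintro ⟨y, rfl⟩
      exact funext fun v => (QuotientGroup.eq_one_iff _).mpr
        (range_pow_le_localPow v.1 p ⟨(y : Kˣ), rfl⟩)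
  have hΦidx : Φ.range.index = p := by
    have h1 : Nat.card Φ.range = p ^ (S.card + T.card + Fintype.card (InfinitePlace K)) := by
      rw [← Nat.card_congr (QuotientGroup.quotientKerEquivRange Φ).toEquiv,
        ← Subgroup.index_eq_card,
        hΦker, index_sUnit_pow hp hζ, Finset.card_union_of_disjoint hdisj]
    have h2 := Subgroup.card_mul_index Φ.range
    rw [h1, Nat.card_pi] at h2
    have h3 : p ^ (S.card + T.card + Fintype.card (InfinitePlace K)) * Φ.range.index =
        p ^ (S.card + T.card + Fintype.card (InfinitePlace K)) * p := by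
      rw [h2, ← pow_succ]
      refine (prod_index_localPow hp hζ S hpS).trans ?_
      rw [← two_mul_card_infinitePlace hp hodd hζ]
      congr 1; omega
    exact mul_left_cancel₀ (pow_ne_zero _ hp.ne_zero) h3
  -- pass to norm classes
  let q := MonoidHom.mk' (G := ∀ v : S, Kˣ ⧸ localNorm L v.1)
    (fun (g : ∀ v : S, Kˣ ⧸ localPow v.1 p) (v : S) =>
      QuotientGroup.map (localPow v.1 p) (localNorm L v.1) (MonoidHom.id Kˣ)
        (localPow_le_localNorm (L := L) hdeg v.1) (g v)) fun g g' => funext fun v =>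
        map_mul (QuotientGroup.map (localPow v.1 p) (localNorm L v.1) (MonoidHom.id Kˣ)
          (localPow_le_localNorm (L := L) hdeg v.1)) (g v) (g' v)
  have hq : Function.Surjective q := by
    intro g
    refine ⟨fun v => ((g v).out : Kˣ), funext fun v => ?_⟩
    exact QuotientGroup.out_eq' (g v)
  let Ψ := MonoidHom.mk' (G := ∀ v : S, Kˣ ⧸ localNorm L v.1)
    (fun (u : sUnit K S) (v : S) => ((u : Kˣ) : Kˣ ⧸ localNorm L v.1)) fun _ _ => rfl
  have hrange : Φ.range.map q ≤ Ψ.range := by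
    rintro _ ⟨_, ⟨u, rfl⟩, rfl⟩
    obtain ⟨n, ⟨β, rfl⟩, hn, hnv⟩ := exists_prod_valuation S T (normHom (K := K) (L := L)).range
      (fun v hv => (hT v hv).1) (fun v hv => exists_norm_prime hp hdeg hSL (hT v hv).1 (hT v hv).2)
      fun v => log (v.valuation K ((u : Kˣ) : K))
    refine ⟨⟨(u : Kˣ) / normHom β, fun v hv => ?_⟩, funext fun v => ?_⟩
    · rw [Units.val_div_eq_div_val, map_div₀]
      by_cases hvT : v ∈ T
      · rw [hnv v hvT, exp_log (by simp), div_self (by simp)]
      · have hv' : v ∉ S ∪ T := by simp [hvT]; exact hv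
        rw [show v.valuation K ((u : Kˣ) : K) = 1 from u.2 v hv',
          show v.valuation K ((normHom β : Kˣ) : K) = 1 from hn v hv', div_one]
    · show (((u : Kˣ) / normHom β : Kˣ) : Kˣ ⧸ localNorm L v.1) = ((u : Kˣ) : Kˣ ⧸ localNorm L v.1)
      refine QuotientGroup.eq.mpr ?_
      rw [inv_div, div_mul_cancel]
      exact normHom_mem_localNorm β v.1
  have hΨidx : Ψ.range.index ≤ p :=
    Nat.le_of_dvd hp.pos ((Subgroup.index_dvd_of_le hrange).trans
      ((Subgroup.index_map_dvd _ hq).trans (dvd_of_eq hΦidx)))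
  -- count
  have hram : ∀ v ∉ S, IsUnram L v := fun v hv =>
    isUnram_of_unit hp hdeg hζ hα hαK (hpS v hv) (ha v hv)
  have hidx := index_unitNorms S hp hodd hdeg hS hram
  have hker : unitNorms L S ≤ Ψ.ker := by
    intro z hz
    obtain ⟨y, -, hy⟩ := hz
    refine funext fun v => (QuotientGroup.eq_one_iff _).mpr ?_
    show (z : Kˣ) ∈ localNorm L v.1
    rw [show (z : Kˣ) = normHom y from hy.symm]
    exact normHom_mem_localNorm y _
  have hkerle : (unitNorms L S).index ≤ Ψ.ker.index := by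
    refine Nat.le_of_mul_le_mul_right ?_ hp.pos
    rw [hidx, Subgroup.index_eq_card Ψ.ker,
      Nat.card_congr (QuotientGroup.quotientKerEquivRange Ψ).toEquiv]
    calc p ^ (S.filter fun v => ¬ IsSplit L v).card
        = ∏ v ∈ S, if IsSplit L v then 1 else p := by
          rw [Finset.prod_ite, Finset.prod_const_one, one_mul, Finset.prod_const]
      _ ≤ ∏ v ∈ S, (localNorm L v).index := by
          refine Finset.prod_le_prod' fun v _ => ?_
          split_ifs with h
          · exact Nat.one_le_iff_ne_zero.mpr (index_localNorm_ne_zero hp hdeg hζ v)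
          · exact le_index_localNorm hp hdeg hζ h
      _ = Nat.card Ψ.range * Ψ.range.index := by
          rw [Subgroup.card_mul_index, Nat.card_pi]
          exact (Finset.prod_attach S fun v => (localNorm L v).index).symm
      _ ≤ Nat.card Ψ.range * p := Nat.mul_le_mul_left _ hΨidx
  have hne : (unitNorms L S).index ≠ 0 := fun h => by
    rw [h, zero_mul] at hidx
    exact pow_ne_zero _ hp.ne_zero hidx.symm
  have hrel : (unitNorms L S).relIndex Ψ.ker = 1 := by
    have h1 := Subgroup.relIndex_mul_index hker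
    have h2 : (unitNorms L S).relIndex Ψ.ker ≠ 0 := fun h => hne (by rw [← h1, h, zero_mul])
    have h3 : Ψ.ker.index ≠ 0 := fun h => hne (by rw [← h1, h, mul_zero])
    by_contra h4
    have h5 : 2 * Ψ.ker.index ≤ (unitNorms L S).index := by
      rw [← h1]; exact Nat.mul_le_mul_right _ (by omega)
    omega
  have hxker : (⟨x, hx⟩ : sUnit K S) ∈ Ψ.ker :=
    funext fun v => (QuotientGroup.eq_one_iff _).mpr (hloc v.1 v.2)
  obtain ⟨y, hy, hyx⟩ := (Subgroup.relIndex_eq_one.mp hrel) hxker
  exact ⟨y, hy, hyx⟩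

end Fermat.Agent.Duality.Global
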